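/-
S52 / programme K, leaf (helper3): for a semistable integral Weierstrass model with `Δ ≠ 0`
both `c₄` and `c₆` are nonzero.

* `c₄ = 0`: semistability says no prime divides `Δ`, so `Δ = ±1` and `c₆² = ∓1728`, impossible.
* `c₆ = 0`: `1728 Δ = c₄³`; a prime dividing `Δ` would divide `c₄`, so again `Δ = ±1` and
  `c₄³ = ±1728`; but `c₄ = b₂² - 24 b₄` with `b₂ = a₁² + 4 a₂`, `b₄ = 2 a₄ + a₁ a₃` is odd for `a₁`
  odd and divisible by `16` for `a₁` even, and `±1728 = ±2⁶·27` is neither odd nor divisible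
  by `2¹²`.

Consumers: K3 / top assembly (the transitivity statement on the fibres of `(H, T)` needs
`H v₀ = -c₄ ≠ 0` and `T v₀ = ±c₆ ≠ 0`), K2 (free action).
-/
import Mathlib
import Fermat.Prelude.Def_FLTPrelim_Modularity

set_option autoImplicit false

namespace Fermat.Agent.S52K.SemistableC4C6

open WeierstrassCurve

/-- A nonzero integer divisible by no prime is `±1`. -/
theorem eq_one_or_neg_one_of_no_prime {n : ℤ}
    (h : ∀ p : ℕ, p.Prime → ¬ (p : ℤ) ∣ n) : n = 1 ∨ n = -1 := by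
  have h1 : n.natAbs = 1 := by
    by_contra hne
    obtain ⟨p, hp, hpd⟩ := Nat.exists_prime_and_dvd hne
    exact h p hp (Int.natCast_dvd.mpr hpd)
  rcases Int.natAbs_eq n with h2 | h2
  · left; rw [h2, h1]; rfl
  · right; rw [h2, h1]; rfl

/-- `1728` is not a square of an integer. -/
theorem sq_ne_1728 (x : ℤ) : x ^ 2 ≠ 1728 := by
  intro h
  have h2 : x.natAbs ^ 2 = 1728 := by
    have : ((x.natAbs ^ 2 : ℕ) : ℤ) = 1728 := by
      rw [Nat.cast_pow, Int.natCast_natAbs, sq_abs, h]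
    exact_mod_cast this
  have h3 : x.natAbs < 42 := by
    by_contra hge
    have hge' : 42 ≤ x.natAbs := Nat.le_of_not_lt hge
    have : 42 ^ 2 ≤ x.natAbs ^ 2 := Nat.pow_le_pow_left hge' 2
    omega
  interval_cases x.natAbs <;> omega

/-- The cube of `b₂² - 24 b₄` is never `±1728`. -/
theorem c4_cube_ne (a1 a2 a3 a4 : ℤ) :
    ((a1 ^ 2 + 4 * a2) ^ 2 - 24 * (2 * a4 + a1 * a3)) ^ 3 ≠ 1728 ∧
    ((a1 ^ 2 + 4 * a2) ^ 2 - 24 * (2 * a4 + a1 * a3)) ^ 3 ≠ -1728 := by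
  rcases Int.even_or_odd' a1 with ⟨k, hk | hk⟩
  · -- `a₁ = 2k`: `c₄ = 16 r`
    have hc : (a1 ^ 2 + 4 * a2) ^ 2 - 24 * (2 * a4 + a1 * a3)
        = 16 * ((k ^ 2 + a2) ^ 2 - 3 * (a4 + k * a3)) := by
      rw [hk]; ring
    rw [hc]
    set r := (k ^ 2 + a2) ^ 2 - 3 * (a4 + k * a3)
    have : (16 * r) ^ 3 = 4096 * r ^ 3 := by ring
    rw [this]
    generalize r ^ 3 = s
    constructor <;> omega
  · -- `a₁ = 2k+1`: `c₄` is odd
    have hc : (a1 ^ 2 + 4 * a2) ^ 2 - 24 * (2 * a4 + a1 * a3)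
        = 2 * (2 * (2 * k ^ 2 + 2 * k + 2 * a2) ^ 2 + 2 * (2 * k ^ 2 + 2 * k + 2 * a2)
            - 12 * (2 * a4 + a1 * a3)) + 1 := by
      rw [hk]; ring
    rw [hc]
    set r := 2 * (2 * k ^ 2 + 2 * k + 2 * a2) ^ 2 + 2 * (2 * k ^ 2 + 2 * k + 2 * a2)
            - 12 * (2 * a4 + a1 * a3)
    have : (2 * r + 1) ^ 3 = 2 * (4 * r ^ 3 + 6 * r ^ 2 + 3 * r) + 1 := by ring
    rw [this]
    generalize 4 * r ^ 3 + 6 * r ^ 2 + 3 * r = s
    constructor <;> omega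

/-- For a semistable integral model with `Δ ≠ 0`, `c₄ ≠ 0`. -/
theorem c4_ne_zero (W : WeierstrassCurve ℤ) (_hΔ : W.Δ ≠ 0) (hss : W.IsSemistableModel) :
    W.c₄ ≠ 0 := by
  intro h0
  have hno : ∀ p : ℕ, p.Prime → ¬ (p : ℤ) ∣ W.Δ := by
    intro p hp hd
    exact hss p hp hd (by rw [h0]; exact dvd_zero _)
  have hrel := W.c_relation
  rw [h0] at hrel
  rcases eq_one_or_neg_one_of_no_prime hno with h1 | h1
  · rw [h1] at hrel
    nlinarith [sq_nonneg W.c₆]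
  · rw [h1] at hrel
    exact sq_ne_1728 W.c₆ (by linarith)

/-- For a semistable integral model with `Δ ≠ 0`, `c₆ ≠ 0`. -/
theorem c6_ne_zero (W : WeierstrassCurve ℤ) (_hΔ : W.Δ ≠ 0) (hss : W.IsSemistableModel) :
    W.c₆ ≠ 0 := by
  intro h0
  have hrel := W.c_relation
  rw [h0] at hrel
  have hno : ∀ p : ℕ, p.Prime → ¬ (p : ℤ) ∣ W.Δ := by
    intro p hp hd
    apply hss p hp hd
    have hp' : Prime (p : ℤ) := Nat.prime_iff_prime_int.mp hp
    have : (p : ℤ) ∣ W.c₄ ^ 3 := by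
      have h2 : (p : ℤ) ∣ 1728 * W.Δ := Dvd.dvd.mul_left hd _
      rw [hrel] at h2
      simpa using h2
    exact hp'.dvd_of_dvd_pow this
  have hc := c4_cube_ne W.a₁ W.a₂ W.a₃ W.a₄
  have hc4 : W.c₄ = (W.a₁ ^ 2 + 4 * W.a₂) ^ 2 - 24 * (2 * W.a₄ + W.a₁ * W.a₃) := by
    simp only [WeierstrassCurve.c₄, WeierstrassCurve.b₂, WeierstrassCurve.b₄]
  rw [← hc4] at hc
  rcases eq_one_or_neg_one_of_no_prime hno with h1 | h1
  · rw [h1] at hrel
    exact hc.1 (by linarith)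
  · rw [h1] at hrel
    exact hc.2 (by linarith)

/-- Both at once. -/
theorem c4_c6_ne_zero (W : WeierstrassCurve ℤ) (hΔ : W.Δ ≠ 0) (hss : W.IsSemistableModel) :
    W.c₄ ≠ 0 ∧ W.c₆ ≠ 0 :=
  ⟨c4_ne_zero W hΔ hss, c6_ne_zero W hΔ hss⟩

/-- The same over `ℚ` (after `Int.castRingHom ℚ`), the form used with the short model. -/
theorem c4_c6_cast_ne_zero (W : WeierstrassCurve ℤ) (hΔ : W.Δ ≠ 0) (hss : W.IsSemistableModel) :
    (W.map (Int.castRingHom ℚ)).c₄ ≠ 0 ∧ (W.map (Int.castRingHom ℚ)).c₆ ≠ 0 := by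
  rw [WeierstrassCurve.map_c₄, WeierstrassCurve.map_c₆]
  refine ⟨?_, ?_⟩
  · simpa using c4_ne_zero W hΔ hss
  · simpa using c6_ne_zero W hΔ hss

end Fermat.Agent.S52K.SemistableC4C6
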