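/-
Programme K (S52), brick K2b, part 1 (helper10): the Klein icosahedral forms `f, H, T` as
functions on a commutative ring, the syzygy, homogeneity, and the tower
`z ↦ u = z⁵ ↦ s = u - 1/u ↦ j = H³/f⁵ = R₆(s)` in homogeneous form:
with `P = x¹⁰ - y¹⁰`, `Q = x⁵ y⁵` one has `f⁵ = Q (P + 11 Q)⁵` and `H = -(P² - 228 P Q + 496 Q²)`.
-/
import Mathlib

set_option autoImplicit false

namespace Fermat.Agent.S52K.Tower10

variable {R : Type*} [CommRing R]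

/-- Klein's icosahedral form of degree 12 (vertices). -/
def fK (x y : R) : R := x * y * (x ^ 10 + 11 * x ^ 5 * y ^ 5 - y ^ 10)

/-- Klein's icosahedral form of degree 20 (faces). -/
def hK (x y : R) : R :=
  -(x ^ 20 + y ^ 20) + 228 * (x ^ 15 * y ^ 5 - x ^ 5 * y ^ 15) - 494 * x ^ 10 * y ^ 10

/-- Klein's icosahedral form of degree 30 (edges). -/
def tK (x y : R) : R :=
  (x ^ 30 + y ^ 30) + 522 * (x ^ 25 * y ^ 5 - x ^ 5 * y ^ 25)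
    - 10005 * (x ^ 20 * y ^ 10 + x ^ 10 * y ^ 20)

/-- The syzygy `T² + H³ = 1728 f⁵`. -/
theorem syzygy (x y : R) : tK x y ^ 2 + hK x y ^ 3 = 1728 * fK x y ^ 5 := by
  simp only [fK, hK, tK]; ring

theorem fK_smul (c x y : R) : fK (c * x) (c * y) = c ^ 12 * fK x y := by
  simp only [fK]; ring

theorem hK_smul (c x y : R) : hK (c * x) (c * y) = c ^ 20 * hK x y := by
  simp only [hK]; ring

theorem tK_smul (c x y : R) : tK (c * x) (c * y) = c ^ 30 * tK x y := by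
  simp only [tK]; ring

/-- `P = x¹⁰ - y¹⁰`. -/
def pK (x y : R) : R := x ^ 10 - y ^ 10

/-- `Q = x⁵ y⁵`. -/
def qK (x y : R) : R := x ^ 5 * y ^ 5

theorem fK_pow_five (x y : R) :
    fK x y ^ 5 = qK x y * (pK x y + 11 * qK x y) ^ 5 := by
  simp only [fK, pK, qK]; ring

theorem hK_eq (x y : R) :
    hK x y = -(pK x y ^ 2 - 228 * pK x y * qK x y + 496 * qK x y ^ 2) := by
  simp only [hK, pK, qK]; ring

/-- Invariance under `U : (x, y) ↦ (-y, x)`. -/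
theorem fK_U (x y : R) : fK (-y) x = fK x y := by simp only [fK]; ring
theorem hK_U (x y : R) : hK (-y) x = hK x y := by simp only [hK]; ring
theorem tK_U (x y : R) : tK (-y) x = tK x y := by simp only [tK]; ring

/-- The forms only depend on `x⁵`, `y⁵` and `x y`. -/
theorem fK_congr {a b x y : R} (ha : a ^ 5 = x ^ 5) (hb : b ^ 5 = y ^ 5) (hab : a * b = x * y) :
    fK a b = fK x y := by
  calc fK a b = (a * b) * ((a ^ 5) ^ 2 + 11 * a ^ 5 * b ^ 5 - (b ^ 5) ^ 2) := by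
        simp only [fK]; ring
    _ = (x * y) * ((x ^ 5) ^ 2 + 11 * x ^ 5 * y ^ 5 - (y ^ 5) ^ 2) := by rw [ha, hb, hab]
    _ = fK x y := by simp only [fK]; ring

theorem hK_congr {a b x y : R} (ha : a ^ 5 = x ^ 5) (hb : b ^ 5 = y ^ 5) :
    hK a b = hK x y := by
  calc hK a b = -((a ^ 5) ^ 4 + (b ^ 5) ^ 4) + 228 * ((a ^ 5) ^ 3 * b ^ 5 - a ^ 5 * (b ^ 5) ^ 3)
        - 494 * (a ^ 5) ^ 2 * (b ^ 5) ^ 2 := by simp only [hK]; ring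
    _ = -((x ^ 5) ^ 4 + (y ^ 5) ^ 4) + 228 * ((x ^ 5) ^ 3 * y ^ 5 - x ^ 5 * (y ^ 5) ^ 3)
        - 494 * (x ^ 5) ^ 2 * (y ^ 5) ^ 2 := by rw [ha, hb]
    _ = hK x y := by simp only [hK]; ring

theorem tK_congr {a b x y : R} (ha : a ^ 5 = x ^ 5) (hb : b ^ 5 = y ^ 5) :
    tK a b = tK x y := by
  calc tK a b = ((a ^ 5) ^ 6 + (b ^ 5) ^ 6) + 522 * ((a ^ 5) ^ 5 * b ^ 5 - a ^ 5 * (b ^ 5) ^ 5)
        - 10005 * ((a ^ 5) ^ 4 * (b ^ 5) ^ 2 + (a ^ 5) ^ 2 * (b ^ 5) ^ 4) := by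
        simp only [tK]; ring
    _ = ((x ^ 5) ^ 6 + (y ^ 5) ^ 6) + 522 * ((x ^ 5) ^ 5 * y ^ 5 - x ^ 5 * (y ^ 5) ^ 5)
        - 10005 * ((x ^ 5) ^ 4 * (y ^ 5) ^ 2 + (x ^ 5) ^ 2 * (y ^ 5) ^ 4) := by rw [ha, hb]
    _ = tK x y := by simp only [tK]; ring

theorem pK_congr {a b x y : R} (ha : a ^ 5 = x ^ 5) (hb : b ^ 5 = y ^ 5) :
    pK a b = pK x y := by
  calc pK a b = (a ^ 5) ^ 2 - (b ^ 5) ^ 2 := by simp only [pK]; ring
    _ = (x ^ 5) ^ 2 - (y ^ 5) ^ 2 := by rw [ha, hb]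
    _ = pK x y := by simp only [pK]; ring

theorem qK_congr {a b x y : R} (ha : a ^ 5 = x ^ 5) (hb : b ^ 5 = y ^ 5) :
    qK a b = qK x y := by
  simp only [qK]; rw [ha, hb]

section Rot

variable {ζ : R} (hζ : ζ ^ 5 = 1)
include hζ

theorem rot_pow_left (n : ℕ) (x : R) : ((ζ ^ 3) ^ n * x) ^ 5 = x ^ 5 := by
  have : ((ζ ^ 3) ^ n * x) ^ 5 = (ζ ^ 5) ^ (3 * n) * x ^ 5 := by ring
  rw [this, hζ, one_pow, one_mul]

theorem rot_pow_right (n : ℕ) (y : R) : ((ζ ^ 2) ^ n * y) ^ 5 = y ^ 5 := by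
  have : ((ζ ^ 2) ^ n * y) ^ 5 = (ζ ^ 5) ^ (2 * n) * y ^ 5 := by ring
  rw [this, hζ, one_pow, one_mul]

theorem rot_mul (n : ℕ) (x y : R) : ((ζ ^ 3) ^ n * x) * ((ζ ^ 2) ^ n * y) = x * y := by
  have : ((ζ ^ 3) ^ n * x) * ((ζ ^ 2) ^ n * y) = (ζ ^ 5) ^ n * (x * y) := by ring
  rw [this, hζ, one_pow, one_mul]

/-- Invariance under the rotations `(x, y) ↦ (ζ³ⁿ x, ζ²ⁿ y)`, `ζ⁵ = 1`. -/
theorem fK_rot (n : ℕ) (x y : R) : fK ((ζ ^ 3) ^ n * x) ((ζ ^ 2) ^ n * y) = fK x y :=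
  fK_congr (rot_pow_left hζ n x) (rot_pow_right hζ n y) (rot_mul hζ n x y)

theorem hK_rot (n : ℕ) (x y : R) : hK ((ζ ^ 3) ^ n * x) ((ζ ^ 2) ^ n * y) = hK x y :=
  hK_congr (rot_pow_left hζ n x) (rot_pow_right hζ n y)

theorem tK_rot (n : ℕ) (x y : R) : tK ((ζ ^ 3) ^ n * x) ((ζ ^ 2) ^ n * y) = tK x y :=
  tK_congr (rot_pow_left hζ n x) (rot_pow_right hζ n y)

end Rot

end Fermat.Agent.S52K.Tower10
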