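/-
Programme K (S52), brick K2b, part 2 (helper10): the FREENESS LEMMA.
A matrix `g = [[p, q], [r, s]]` of determinant one that preserves the three Klein forms and has an
eigenvector `v = (x, y)` with `f(v) H(v) T(v) ≠ 0` is `± 1`.
Proof: the eigenvalue `μ` satisfies `μ¹² = μ²⁰ = μ³⁰ = 1`, hence `μ² = 1`; after scaling `μ = 1`,
`g = 1 + N` with `N v = 0`, `N² = 0`; `gⁿ (0, 1) = (0, 1) + n (q / x) v` and `f(gⁿ(0,1)) = f(0,1) = 0`
for all `n` force `q = 0` (a polynomial of degree 12 with leading coefficient `(q/x)¹² f(v)` having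
infinitely many roots).
-/
import Mathlib
import Fermat.Agent.S52K.Tower10

set_option autoImplicit false

namespace Fermat.Agent.S52K.Free10

open Fermat.Agent.S52K.Tower10 Polynomial

variable {k : Type*} [Field k]

theorem fK_zero_left (y : k) : fK 0 y = 0 := by simp [fK]

theorem ne_zero_of_fK_ne_zero {x y : k} (h : fK x y ≠ 0) : x ≠ 0 ∧ y ≠ 0 := by
  constructor
  · rintro rfl; exact h (by simp [fK])
  · rintro rfl; exact h (by simp [fK])

/-- The unipotent case: a determinant-one matrix preserving `f` and FIXING a vector `v` with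
`f v ≠ 0` is the identity. -/
theorem eq_one_of_fix [CharZero k] {p q r s : k} (hdet : p * s - q * r = 1)
    (hf : ∀ x y : k, fK (p * x + q * y) (r * x + s * y) = fK x y)
    {x y : k} (hx : p * x + q * y = x) (hy : r * x + s * y = y) (hfv : fK x y ≠ 0) :
    p = 1 ∧ q = 0 ∧ r = 0 ∧ s = 1 := by
  obtain ⟨hx0, hy0⟩ := ne_zero_of_fK_ne_zero hfv
  -- relations
  have hp : p = 1 - q * y / x := by field_simp; linear_combination hx
  have hs : s = 1 - r * x / y := by field_simp; linear_combination hy
  have hr : r = -(q * y ^ 2 / x ^ 2) := by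
    have h1 : q * y / x + r * x / y = 0 := by
      have := hdet
      rw [hp, hs] at this
      field_simp at this ⊢
      linear_combination (-1 : k) * this
    field_simp at h1 ⊢
    linear_combination h1
  have hs' : s = 1 + q * y / x := by
    rw [hs, hr]; field_simp; ring
  -- key: `q = 0`
  have hq : q = 0 := by
    by_contra hq0
    -- the orbit of `(0, 1)`
    have horb : ∀ n : ℕ, fK ((n : k) * q) (1 + (n : k) * (q * y / x)) = 0 := by
      intro n
      induction n with
      | zero => simp [fK]
      | succ n ih =>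
        rw [← ih, ← hf ((n : k) * q) (1 + (n : k) * (q * y / x))]
        congr 1
        · rw [hp]; push_cast; field_simp; ring
        · rw [hr, hs']; push_cast; field_simp; ring
    -- the polynomial `G(ε) = f(q, q y / x + ε)`
    let G : k[X] := fK (C q) (C (q * y / x) + X)
    have hGeval : ∀ ε : k, G.eval ε = fK q (q * y / x + ε) := by
      intro ε; simp [G, fK]
    have hroot : ∀ n : ℕ, G.IsRoot (1 / ((n : k) + 1)) := by
      intro n
      have hn : ((n : k) + 1) ≠ 0 := by exact_mod_cast Nat.succ_ne_zero n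
      rw [IsRoot, hGeval]
      have h1 := horb (n + 1)
      have h2 := fK_smul (1 / ((n : k) + 1)) (((n + 1 : ℕ) : k) * q)
        (1 + ((n + 1 : ℕ) : k) * (q * y / x))
      rw [h1, mul_zero] at h2
      rw [← h2]
      congr 1
      · push_cast; field_simp
      · push_cast; field_simp; ring
    have hG0 : G = 0 := by
      apply Polynomial.eq_zero_of_infinite_isRoot
      have hinj : Function.Injective (fun n : ℕ => 1 / ((n : k) + 1)) := by
        intro a b hab
        have ha : ((a : k) + 1) ≠ 0 := by exact_mod_cast Nat.succ_ne_zero a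
        have hb : ((b : k) + 1) ≠ 0 := by exact_mod_cast Nat.succ_ne_zero b
        simp only [one_div, inv_inj, add_left_inj] at hab
        exact_mod_cast hab
      exact Set.infinite_of_injective_forall_mem hinj hroot
    have h0 : fK q (q * y / x + 0) = 0 := by rw [← hGeval, hG0]; simp
    rw [add_zero] at h0
    have h3 := fK_smul (q / x) x y
    have e1 : q / x * x = q := by field_simp
    have e2 : q / x * y = q * y / x := by ring
    rw [e1, e2, h0] at h3
    have : (q / x) ^ 12 ≠ 0 := pow_ne_zero _ (div_ne_zero hq0 hx0)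
    exact hfv (by
      rcases mul_eq_zero.mp h3.symm with h | h
      · exact absurd h this
      · exact h)
  subst hq
  simp at hp hr hs'
  exact ⟨hp, rfl, hr, hs'⟩

/-- **Freeness lemma.** A determinant-one matrix preserving the three Klein forms and having an
eigenvector `v` with `f(v) H(v) T(v) ≠ 0` is the scalar `μ = ± 1`. -/
theorem eq_scalar_of_eigen [CharZero k] {p q r s : k} (hdet : p * s - q * r = 1)
    (hf : ∀ x y : k, fK (p * x + q * y) (r * x + s * y) = fK x y)
    (hh : ∀ x y : k, hK (p * x + q * y) (r * x + s * y) = hK x y)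
    (ht : ∀ x y : k, tK (p * x + q * y) (r * x + s * y) = tK x y)
    {x y μ : k} (hx : p * x + q * y = μ * x) (hy : r * x + s * y = μ * y)
    (hfv : fK x y ≠ 0) (hhv : hK x y ≠ 0) (htv : tK x y ≠ 0) :
    μ ^ 2 = 1 ∧ p = μ ∧ q = 0 ∧ r = 0 ∧ s = μ := by
  have h12 : μ ^ 12 = 1 := by
    have := hf x y
    rw [hx, hy, fK_smul] at this
    exact mul_right_cancel₀ hfv (by rw [this, one_mul])
  have h20 : μ ^ 20 = 1 := by
    have := hh x y
    rw [hx, hy, hK_smul] at this
    exact mul_right_cancel₀ hhv (by rw [this, one_mul])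
  have h30 : μ ^ 30 = 1 := by
    have := ht x y
    rw [hx, hy, tK_smul] at this
    exact mul_right_cancel₀ htv (by rw [this, one_mul])
  have h2 : μ ^ 2 = 1 := by
    calc μ ^ 2 = μ ^ 2 * μ ^ 30 := by rw [h30, mul_one]
      _ = μ ^ 12 * μ ^ 20 := by ring
      _ = 1 := by rw [h12, h20, mul_one]
  have hdet' : (μ * p) * (μ * s) - (μ * q) * (μ * r) = 1 := by
    have : (μ * p) * (μ * s) - (μ * q) * (μ * r) = μ ^ 2 * (p * s - q * r) := by ring
    rw [this, h2, hdet, mul_one]
  have hf' : ∀ x y : k, fK ((μ * p) * x + (μ * q) * y) ((μ * r) * x + (μ * s) * y) = fK x y := by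
    intro x y
    have e1 : (μ * p) * x + (μ * q) * y = μ * (p * x + q * y) := by ring
    have e2 : (μ * r) * x + (μ * s) * y = μ * (r * x + s * y) := by ring
    rw [e1, e2, fK_smul, h12, one_mul, hf]
  have hx' : (μ * p) * x + (μ * q) * y = x := by
    have : (μ * p) * x + (μ * q) * y = μ * (p * x + q * y) := by ring
    rw [this, hx, ← mul_assoc, ← sq, h2, one_mul]
  have hy' : (μ * r) * x + (μ * s) * y = y := by
    have : (μ * r) * x + (μ * s) * y = μ * (r * x + s * y) := by ring
    rw [this, hy, ← mul_assoc, ← sq, h2, one_mul]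
  obtain ⟨hp1, hq1, hr1, hs1⟩ := eq_one_of_fix hdet' hf' hx' hy' hfv
  have hμ0 : μ ≠ 0 := by
    rintro rfl
    norm_num at h2
  refine ⟨h2, ?_, ?_, ?_, ?_⟩
  · calc p = μ ^ 2 * p := by rw [h2, one_mul]
      _ = μ * (μ * p) := by ring
      _ = μ := by rw [hp1, mul_one]
  · exact (mul_eq_zero.mp hq1).resolve_left hμ0
  · exact (mul_eq_zero.mp hr1).resolve_left hμ0
  · calc s = μ ^ 2 * s := by rw [h2, one_mul]
      _ = μ * (μ * s) := by ring
      _ = μ := by rw [hs1, mul_one]

end Fermat.Agent.S52K.Free10
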