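/-
Programme K (S52), brick K2b, part 3 (helper10): the action of `SL(2, k)` on pairs, the subgroup of
matrices preserving the three Klein forms, the generators `rot ζ` (rotation) and `uMat` (flip),
and "equality up to a scalar on a generic vector ⇒ equality up to the sign" (from the freeness
lemma).
-/
import Mathlib
import Fermat.Agent.S52K.Tower10
import Fermat.Agent.S52K.Free10

set_option autoImplicit false

namespace Fermat.Agent.S52K.Act10

open Fermat.Agent.S52K.Tower10 Fermat.Agent.S52K.Free10 Matrix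

variable {k : Type*} [Field k]

/-- First coordinate of `g • (x, y)`. -/
def actX (g : Matrix.SpecialLinearGroup (Fin 2) k) (x y : k) : k := g 0 0 * x + g 0 1 * y

/-- Second coordinate of `g • (x, y)`. -/
def actY (g : Matrix.SpecialLinearGroup (Fin 2) k) (x y : k) : k := g 1 0 * x + g 1 1 * y

theorem actX_one (x y : k) : actX (1 : Matrix.SpecialLinearGroup (Fin 2) k) x y = x := by
  simp [actX]

theorem actY_one (x y : k) : actY (1 : Matrix.SpecialLinearGroup (Fin 2) k) x y = y := by
  simp [actY]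

theorem actX_mul (g h : Matrix.SpecialLinearGroup (Fin 2) k) (x y : k) :
    actX (g * h) x y = actX g (actX h x y) (actY h x y) := by
  simp only [actX, actY, Matrix.SpecialLinearGroup.coe_mul, Matrix.mul_apply, Fin.sum_univ_two]
  ring

theorem actY_mul (g h : Matrix.SpecialLinearGroup (Fin 2) k) (x y : k) :
    actY (g * h) x y = actY g (actX h x y) (actY h x y) := by
  simp only [actX, actY, Matrix.SpecialLinearGroup.coe_mul, Matrix.mul_apply, Fin.sum_univ_two]
  ring

theorem actX_smul (g : Matrix.SpecialLinearGroup (Fin 2) k) (c x y : k) :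
    actX g (c * x) (c * y) = c * actX g x y := by
  simp only [actX]; ring

theorem actY_smul (g : Matrix.SpecialLinearGroup (Fin 2) k) (c x y : k) :
    actY g (c * x) (c * y) = c * actY g x y := by
  simp only [actY]; ring

theorem det_eq (g : Matrix.SpecialLinearGroup (Fin 2) k) :
    g 0 0 * g 1 1 - g 0 1 * g 1 0 = 1 := by
  have := g.det_coe
  rwa [Matrix.det_fin_two] at this

theorem actX_inv_act (g : Matrix.SpecialLinearGroup (Fin 2) k) (x y : k) :
    actX g⁻¹ (actX g x y) (actY g x y) = x := by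
  rw [← actX_mul, inv_mul_cancel, actX_one]

theorem actY_inv_act (g : Matrix.SpecialLinearGroup (Fin 2) k) (x y : k) :
    actY g⁻¹ (actX g x y) (actY g x y) = y := by
  rw [← actY_mul, inv_mul_cancel, actY_one]

/-- `g` preserves the three Klein forms. -/
def Preserves (g : Matrix.SpecialLinearGroup (Fin 2) k) : Prop :=
  (∀ x y : k, fK (actX g x y) (actY g x y) = fK x y) ∧
  (∀ x y : k, hK (actX g x y) (actY g x y) = hK x y) ∧
  (∀ x y : k, tK (actX g x y) (actY g x y) = tK x y)

theorem preserves_one : Preserves (1 : Matrix.SpecialLinearGroup (Fin 2) k) := by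
  refine ⟨fun x y => ?_, fun x y => ?_, fun x y => ?_⟩ <;> rw [actX_one, actY_one]

theorem Preserves.mul {g h : Matrix.SpecialLinearGroup (Fin 2) k} (hg : Preserves g)
    (hh : Preserves h) : Preserves (g * h) := by
  refine ⟨fun x y => ?_, fun x y => ?_, fun x y => ?_⟩
  · rw [actX_mul, actY_mul, hg.1, hh.1]
  · rw [actX_mul, actY_mul, hg.2.1, hh.2.1]
  · rw [actX_mul, actY_mul, hg.2.2, hh.2.2]

theorem Preserves.inv {g : Matrix.SpecialLinearGroup (Fin 2) k} (hg : Preserves g) :
    Preserves g⁻¹ := by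
  refine ⟨fun x y => ?_, fun x y => ?_, fun x y => ?_⟩
  · have := hg.1 (actX g⁻¹ x y) (actY g⁻¹ x y)
    rw [← actX_mul, ← actY_mul, mul_inv_cancel, actX_one, actY_one] at this
    exact this.symm
  · have := hg.2.1 (actX g⁻¹ x y) (actY g⁻¹ x y)
    rw [← actX_mul, ← actY_mul, mul_inv_cancel, actX_one, actY_one] at this
    exact this.symm
  · have := hg.2.2 (actX g⁻¹ x y) (actY g⁻¹ x y)
    rw [← actX_mul, ← actY_mul, mul_inv_cancel, actX_one, actY_one] at this
    exact this.symm

/-- The subgroup of `SL(2, k)` preserving the Klein forms. -/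
def preservers (k : Type*) [Field k] : Subgroup (Matrix.SpecialLinearGroup (Fin 2) k) where
  carrier := {g | Preserves g}
  mul_mem' hg hh := hg.mul hh
  one_mem' := preserves_one
  inv_mem' hg := hg.inv

theorem mem_preservers {g : Matrix.SpecialLinearGroup (Fin 2) k} :
    g ∈ preservers k ↔ Preserves g := Iff.rfl

/-- The flip `U : (x, y) ↦ (-y, x)`. -/
def uMat (k : Type*) [Field k] : Matrix.SpecialLinearGroup (Fin 2) k :=
  ⟨!![0, -1; 1, 0], by simp [Matrix.det_fin_two]⟩

theorem actX_uMat (x y : k) : actX (uMat k) x y = -y := by simp [actX, uMat]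
theorem actY_uMat (x y : k) : actY (uMat k) x y = x := by simp [actY, uMat]

theorem preserves_uMat : Preserves (uMat k) := by
  refine ⟨fun x y => ?_, fun x y => ?_, fun x y => ?_⟩
  · rw [actX_uMat, actY_uMat, fK_U]
  · rw [actX_uMat, actY_uMat, hK_U]
  · rw [actX_uMat, actY_uMat, tK_U]

/-- The rotation `(x, y) ↦ (ζ³ x, ζ² y)`. -/
def rot (ζ : k) (hζ : ζ ^ 5 = 1) : Matrix.SpecialLinearGroup (Fin 2) k :=
  ⟨!![ζ ^ 3, 0; 0, ζ ^ 2], by
    simp only [Matrix.det_fin_two_of, mul_zero, sub_zero]
    rw [← pow_add]; exact hζ⟩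

variable {ζ : k} (hζ : ζ ^ 5 = 1)

theorem actX_rot (x y : k) : actX (rot ζ hζ) x y = ζ ^ 3 * x := by simp [actX, rot]
theorem actY_rot (x y : k) : actY (rot ζ hζ) x y = ζ ^ 2 * y := by simp [actY, rot]

theorem actX_rot_pow (n : ℕ) (x y : k) : actX (rot ζ hζ ^ n) x y = (ζ ^ 3) ^ n * x := by
  induction n generalizing x y with
  | zero => simp [actX_one]
  | succ n ih => rw [pow_succ, actX_mul, ih, actX_rot]; ring

theorem actY_rot_pow (n : ℕ) (x y : k) : actY (rot ζ hζ ^ n) x y = (ζ ^ 2) ^ n * y := by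
  induction n generalizing x y with
  | zero => simp [actY_one]
  | succ n ih => rw [pow_succ, actY_mul, ih, actY_rot]; ring

theorem preserves_rot : Preserves (rot ζ hζ) := by
  refine ⟨fun x y => ?_, fun x y => ?_, fun x y => ?_⟩
  · rw [actX_rot, actY_rot]; simpa using fK_rot hζ 1 x y
  · rw [actX_rot, actY_rot]; simpa using hK_rot hζ 1 x y
  · rw [actX_rot, actY_rot]; simpa using tK_rot hζ 1 x y

/-- **Rigidity.** If two form-preserving matrices `M`, `B` satisfy `M v = c • B v` on one generic
vector `v`, then `c² = 1` and `M = c • B` entrywise. -/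
theorem eq_smul_of_act_eq [CharZero k] {M B : Matrix.SpecialLinearGroup (Fin 2) k}
    (hM : Preserves M) (hB : Preserves B) {x y c : k}
    (hfv : fK x y ≠ 0) (hhv : hK x y ≠ 0) (htv : tK x y ≠ 0)
    (h1 : actX M x y = c * actX B x y) (h2 : actY M x y = c * actY B x y) :
    c ^ 2 = 1 ∧ ∀ i j, M i j = c * B i j := by
  set g := B⁻¹ * M with hg
  have hgP : Preserves g := hB.inv.mul hM
  have hgx : actX g x y = c * x := by
    rw [hg, actX_mul, h1, h2, actX_smul, actX_inv_act]
  have hgy : actY g x y = c * y := by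
    rw [hg, actY_mul, h1, h2, actY_smul, actY_inv_act]
  obtain ⟨hc2, h00, h01, h10, h11⟩ :=
    eq_scalar_of_eigen (det_eq g) hgP.1 hgP.2.1 hgP.2.2 hgx hgy hfv hhv htv
  refine ⟨hc2, ?_⟩
  have hMg : M = B * g := by rw [hg, mul_inv_cancel_left]
  intro i j
  rw [hMg, Matrix.SpecialLinearGroup.coe_mul, Matrix.mul_apply, Fin.sum_univ_two]
  fin_cases j
  · simp only [Fin.zero_eta, h00, h10]; ring
  · simp only [Fin.mk_one, h01, h11]; ring

end Fermat.Agent.S52K.Act10
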