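/-
Programme K (S52), brick K2b, part 5 (helper10): the `D₅` step.
If `s(v') = s(v)` (`s = P / Q`, `P = x¹⁰ - y¹⁰`, `Q = x⁵ y⁵`) and all coordinates are nonzero then
`v' = c • rotⁿ v` or `v' = c • rotⁿ (U v)` for some `n < 5`, `c ≠ 0`, where
`rot (x, y) = (ζ³ x, ζ² y)` and `U (x, y) = (-y, x)`.
-/
import Mathlib
import Fermat.Agent.S52K.Tower10

set_option autoImplicit false

namespace Fermat.Agent.S52K.Dihedral10

open Fermat.Agent.S52K.Tower10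

variable {k : Type*} [Field k]

/-- Fifth powers agree ⇒ equal up to a power of a primitive fifth root of unity. -/
theorem eq_zeta_pow_mul {ζ : k} (hζ : IsPrimitiveRoot ζ 5) {u w : k} (hw : w ≠ 0)
    (h : u ^ 5 = w ^ 5) : ∃ n < 5, u = ζ ^ n * w := by
  have h1 : (u / w) ^ 5 = 1 := by
    rw [div_pow, h, div_self (pow_ne_zero _ hw)]
  obtain ⟨n, hn, hn'⟩ := hζ.eq_pow_of_pow_eq_one h1
  refine ⟨n, hn, ?_⟩
  rw [hn']; field_simp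

theorem d5_step {ζ : k} (hζ : IsPrimitiveRoot ζ 5) {a b a' b' : k}
    (ha : a ≠ 0) (hb : b ≠ 0) (_ha' : a' ≠ 0) (hb' : b' ≠ 0)
    (h : pK a' b' * qK a b = pK a b * qK a' b') :
    ∃ n < 5, ∃ c : k, c ≠ 0 ∧
      ((a' = c * ((ζ ^ 3) ^ n * a) ∧ b' = c * ((ζ ^ 2) ^ n * b)) ∨
       (a' = c * ((ζ ^ 3) ^ n * (-b)) ∧ b' = c * ((ζ ^ 2) ^ n * a))) := by
  have hζ0 : ζ ≠ 0 := hζ.ne_zero (by norm_num)
  have hfac : ((a' * a) ^ 5 + (b' * b) ^ 5) * ((a' * b) ^ 5 - (a * b') ^ 5) = 0 := by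
    simp only [pK, qK] at h
    linear_combination h
  rcases mul_eq_zero.mp hfac with h1 | h1
  · -- flip case: `(a' a)⁵ = (-(b' b))⁵`
    have h2 : (a' * a) ^ 5 = (-(b' * b)) ^ 5 := by
      have : (-(b' * b)) ^ 5 = -((b' * b) ^ 5) := by ring
      rw [this]; linear_combination h1
    obtain ⟨n, hn, hn'⟩ := eq_zeta_pow_mul hζ (neg_ne_zero.mpr (mul_ne_zero hb' hb)) h2
    refine ⟨n, hn, b' / ((ζ ^ 2) ^ n * a), ?_, Or.inr ⟨?_, ?_⟩⟩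
    · exact div_ne_zero hb' (mul_ne_zero (pow_ne_zero _ (pow_ne_zero _ hζ0)) ha)
    · have hz : (ζ ^ 2) ^ n ≠ 0 := pow_ne_zero _ (pow_ne_zero _ hζ0)
      field_simp
      have e : (ζ ^ 3) ^ n = ζ ^ n * (ζ ^ 2) ^ n := by ring
      rw [e]
      linear_combination ((ζ ^ 2) ^ n) * hn'
    · have hz : (ζ ^ 2) ^ n ≠ 0 := pow_ne_zero _ (pow_ne_zero _ hζ0)
      field_simp
  · -- rotation case: `(a' b)⁵ = (a b')⁵`
    have h2 : (a' * b) ^ 5 = (a * b') ^ 5 := by linear_combination h1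
    obtain ⟨n, hn, hn'⟩ := eq_zeta_pow_mul hζ (mul_ne_zero ha hb') h2
    refine ⟨n, hn, b' / ((ζ ^ 2) ^ n * b), ?_, Or.inl ⟨?_, ?_⟩⟩
    · exact div_ne_zero hb' (mul_ne_zero (pow_ne_zero _ (pow_ne_zero _ hζ0)) hb)
    · have hz : (ζ ^ 2) ^ n ≠ 0 := pow_ne_zero _ (pow_ne_zero _ hζ0)
      field_simp
      have e : (ζ ^ 3) ^ n = ζ ^ n * (ζ ^ 2) ^ n := by ring
      rw [e]
      linear_combination ((ζ ^ 2) ^ n) * hn'
    · have hz : (ζ ^ 2) ^ n ≠ 0 := pow_ne_zero _ (pow_ne_zero _ hζ0)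
      field_simp

end Fermat.Agent.S52K.Dihedral10
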