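/-
Programme K (S52), brick K2b, part 7 (helper10): the orbit theorem `Orbit10.exists_mem_closure`
in the shape of `S52K3.KleinData.Fibres.trans`: for ANY set `Γ` of linear maps of the plane which
is closed under composition and contains (the linear maps of) `S`, `S⁻¹`, the rotation
`T5 = rot ζ = diag(ζ³, ζ²)` and the flip `U : (x, y) ↦ (-y, x)`, two vectors with the same `H` and
`T`, the first one generic, differ by `ζⁿ • γ` with `γ ∈ Γ`.
-/
import Mathlib
import Fermat.Agent.S52K.Orbit10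

set_option autoImplicit false

namespace Fermat.Agent.S52K.Trans10

open Fermat.Agent.S52K.Tower10 Fermat.Agent.S52K.Act10 Fermat.Agent.S52K.Orbit10 Matrix

variable {k : Type*} [Field k]

/-- The linear map of the plane `k × k` attached to `g ∈ SL(2, k)`. -/
def lin (g : Matrix.SpecialLinearGroup (Fin 2) k) : (k × k) →ₗ[k] (k × k) where
  toFun v := (actX g v.1 v.2, actY g v.1 v.2)
  map_add' v w := by
    simp only [actX, actY, Prod.fst_add, Prod.snd_add, Prod.mk_add_mk, Prod.mk.injEq]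
    constructor <;> ring
  map_smul' c v := by
    simp only [actX, actY, Prod.smul_fst, Prod.smul_snd, smul_eq_mul, RingHom.id_apply,
      Prod.smul_mk, Prod.mk.injEq]
    constructor <;> ring

@[simp] theorem lin_apply (g : Matrix.SpecialLinearGroup (Fin 2) k) (v : k × k) :
    lin g v = (actX g v.1 v.2, actY g v.1 v.2) := rfl

theorem lin_one : lin (1 : Matrix.SpecialLinearGroup (Fin 2) k) = LinearMap.id := by
  ext <;> simp [actX_one, actY_one]

theorem lin_mul (g h : Matrix.SpecialLinearGroup (Fin 2) k) :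
    lin (g * h) = lin g ∘ₗ lin h := by
  apply LinearMap.ext
  intro v
  simp only [lin_apply, LinearMap.comp_apply, actX_mul, actY_mul]

theorem rot_pow_five {ζ : k} (hζ : ζ ^ 5 = 1) : rot ζ hζ ^ 5 = 1 := by
  ext i j
  fin_cases i <;> fin_cases j
  · simp only [Fin.zero_eta, rot_pow_00, Matrix.SpecialLinearGroup.coe_one, Matrix.one_apply_eq]
    rw [← pow_mul, mul_comm, pow_mul, hζ, one_pow]
  · simp [rot_pow_01]
  · simp [rot_pow_10]
  · simp only [Fin.mk_one, rot_pow_11, Matrix.SpecialLinearGroup.coe_one, Matrix.one_apply_eq]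
    rw [← pow_mul, mul_comm, pow_mul, hζ, one_pow]

theorem uMat_sq_apply (x y : k) :
    actX (uMat k * uMat k) x y = -x ∧ actY (uMat k * uMat k) x y = -y := by
  rw [actX_mul, actY_mul, actX_uMat, actY_uMat, actX_uMat, actY_uMat]
  exact ⟨rfl, rfl⟩

theorem uMat_pow_four : uMat k ^ 4 = 1 := by
  apply Subtype.ext
  rw [Matrix.SpecialLinearGroup.coe_pow]
  change (!![0, -1; 1, 0] : Matrix (Fin 2) (Fin 2) k) ^ 4 = 1
  rw [show (4 : ℕ) = 2 + 2 from rfl, pow_add, pow_two]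
  simp [Matrix.one_fin_two]

section Closed

variable (Γ : Set ((k × k) →ₗ[k] (k × k)))
  (hmul : ∀ a ∈ Γ, ∀ b ∈ Γ, a ∘ₗ b ∈ Γ)

include hmul in
theorem lin_pow_mem {g : Matrix.SpecialLinearGroup (Fin 2) k} (hg : lin g ∈ Γ) (n : ℕ) :
    lin (g ^ (n + 1)) ∈ Γ := by
  induction n with
  | zero => simpa using hg
  | succ n ih => rw [pow_succ, lin_mul]; exact hmul _ ih _ hg

include hmul in
/-- Closure induction: a composition-closed set containing the three generators (and `S⁻¹`)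
contains the whole subgroup they generate. -/
theorem lin_mem_of_mem_closure {ζ : k} (hζ : ζ ^ 5 = 1)
    (S : Matrix.SpecialLinearGroup (Fin 2) k)
    (hΓS : lin S ∈ Γ) (hΓS' : lin S⁻¹ ∈ Γ) (hΓT : lin (rot ζ hζ) ∈ Γ)
    (hΓU : lin (uMat k) ∈ Γ) {γ : Matrix.SpecialLinearGroup (Fin 2) k}
    (hγ : γ ∈ Subgroup.closure ({S, rot ζ hζ, uMat k} :
      Set (Matrix.SpecialLinearGroup (Fin 2) k))) :
    lin γ ∈ Γ ∧ lin γ⁻¹ ∈ Γ := by
  induction hγ using Subgroup.closure_induction with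
  | mem x hx =>
    simp only [Set.mem_insert_iff, Set.mem_singleton_iff] at hx
    rcases hx with rfl | rfl | rfl
    · exact ⟨hΓS, hΓS'⟩
    · refine ⟨hΓT, ?_⟩
      have : (rot ζ hζ)⁻¹ = rot ζ hζ ^ (3 + 1) := by
        rw [inv_eq_iff_mul_eq_one, ← pow_succ']
        exact rot_pow_five hζ
      rw [this]
      exact lin_pow_mem Γ hmul hΓT 3
    · refine ⟨hΓU, ?_⟩
      have : (uMat k)⁻¹ = uMat k ^ (2 + 1) := by
        rw [inv_eq_iff_mul_eq_one, ← pow_succ']
        exact uMat_pow_four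
      rw [this]
      exact lin_pow_mem Γ hmul hΓU 2
  | one =>
    have h1 : lin (1 : Matrix.SpecialLinearGroup (Fin 2) k) ∈ Γ := by
      rw [← rot_pow_five hζ]
      exact lin_pow_mem Γ hmul hΓT 4
    exact ⟨h1, by simpa using h1⟩
  | mul x y _ _ ihx ihy =>
    refine ⟨by rw [lin_mul]; exact hmul _ ihx.1 _ ihy.1, ?_⟩
    rw [_root_.mul_inv_rev, lin_mul]
    exact hmul _ ihy.2 _ ihx.2
  | inv x _ ih => exact ⟨ih.2, by simpa using ih.1⟩

include hmul in
/-- A trace-zero element of `SL(2, k)` satisfies `S⁻¹ = -S = U² S`. -/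
theorem lin_inv_mem_of_trace {S : Matrix.SpecialLinearGroup (Fin 2) k}
    (htr : S 0 0 + S 1 1 = 0) (hΓS : lin S ∈ Γ) (hΓU : lin (uMat k) ∈ Γ) : lin S⁻¹ ∈ Γ := by
  have : lin S⁻¹ = lin (uMat k) ∘ₗ lin (uMat k) ∘ₗ lin S := by
    apply LinearMap.ext
    intro v
    have h00 : (S⁻¹) 0 0 = S 1 1 := by
      rw [Matrix.SpecialLinearGroup.coe_inv, Matrix.adjugate_fin_two]; rfl
    have h01 : (S⁻¹) 0 1 = -S 0 1 := by
      rw [Matrix.SpecialLinearGroup.coe_inv, Matrix.adjugate_fin_two]; rfl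
    have h10 : (S⁻¹) 1 0 = -S 1 0 := by
      rw [Matrix.SpecialLinearGroup.coe_inv, Matrix.adjugate_fin_two]; rfl
    have h11 : (S⁻¹) 1 1 = S 0 0 := by
      rw [Matrix.SpecialLinearGroup.coe_inv, Matrix.adjugate_fin_two]; rfl
    simp only [lin_apply, LinearMap.comp_apply, actX_uMat, actY_uMat, Prod.mk.injEq]
    simp only [actX, actY, h00, h01, h10, h11]
    constructor
    · linear_combination v.1 * htr
    · linear_combination v.2 * htr
  rw [this]
  exact hmul _ hΓU _ (hmul _ hΓU _ hΓS)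

include hmul in
/-- **K2b in the shape of `KleinData.Fibres.trans`.** -/
theorem exists_zeta_pow_smul [CharZero k] {ζ : k} (hζ : IsPrimitiveRoot ζ 5)
    (S : Matrix.SpecialLinearGroup (Fin 2) k) (hS : Preserves S)
    (hS0 : S 0 0 ≠ 0 ∧ S 0 1 ≠ 0 ∧ S 1 0 ≠ 0 ∧ S 1 1 ≠ 0)
    (hΓS : lin S ∈ Γ) (hΓS' : lin S⁻¹ ∈ Γ) (hΓT : lin (rot ζ hζ.pow_eq_one) ∈ Γ)
    (hΓU : lin (uMat k) ∈ Γ) {v v' : k × k}
    (hfv : fK v.1 v.2 ≠ 0) (hhv : hK v.1 v.2 ≠ 0) (htv : tK v.1 v.2 ≠ 0)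
    (hH : hK v'.1 v'.2 = hK v.1 v.2) (hT : tK v'.1 v'.2 = tK v.1 v.2) :
    ∃ n : ℕ, ∃ γ ∈ Γ, v' = ζ ^ n • γ v := by
  obtain ⟨γ, hγ, c, hc, hx, hy⟩ := exists_mem_closure S hζ hS hS0 hfv hhv htv hH hT
  have hmem := fun {g} hg =>
    lin_mem_of_mem_closure Γ hmul hζ.pow_eq_one S hΓS hΓS' hΓT hΓU (γ := g) hg
  have hc5 : c ^ 5 = 1 ∨ c ^ 5 = -1 := by
    have : (c ^ 5 - 1) * (c ^ 5 + 1) = 0 := by linear_combination hc
    rcases mul_eq_zero.mp this with h | h
    · exact Or.inl (by linear_combination h)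
    · exact Or.inr (by linear_combination h)
  rcases hc5 with h5 | h5
  · obtain ⟨n, -, hn⟩ := hζ.eq_pow_of_pow_eq_one h5
    refine ⟨n, lin γ, (hmem hγ).1, ?_⟩
    rw [hn]
    ext
    · simpa using hx
    · simpa using hy
  · have h5' : (-c) ^ 5 = 1 := by rw [Odd.neg_pow (by decide), h5, neg_neg]
    obtain ⟨n, -, hn⟩ := hζ.eq_pow_of_pow_eq_one h5'
    have hU2 : uMat k * uMat k * γ ∈ Subgroup.closure ({S, rot ζ hζ.pow_eq_one, uMat k} :
        Set (Matrix.SpecialLinearGroup (Fin 2) k)) :=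
      Subgroup.mul_mem _ (Subgroup.mul_mem _ (Subgroup.subset_closure (by simp))
        (Subgroup.subset_closure (by simp))) hγ
    refine ⟨n, lin (uMat k * uMat k * γ), (hmem hU2).1, ?_⟩
    rw [hn]
    ext
    · simp only [lin_apply, Prod.smul_fst, smul_eq_mul]
      rw [actX_mul, (uMat_sq_apply _ _).1, hx]; ring
    · simp only [lin_apply, Prod.smul_snd, smul_eq_mul]
      rw [actY_mul, (uMat_sq_apply _ _).2, hy]; ring

end Closed

end Fermat.Agent.S52K.Trans10
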