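/-
Programme K (S52), brick K2b, part 8 (helper10): the field `trans` of `S52K3.KleinData.Fibres`
from the tower/freeness orbit theorem (`Trans10.exists_zeta_pow_smul`), for any `D : KleinData`
whose forms are the standard Klein forms (`D.T` may be `± T`), and whose `Γ` is closed under
composition and contains `S`, `S⁻¹`, `T5 = diag(ζ'³, ζ'²)` and `U : (x, y) ↦ (-y, x)`.
-/
import Mathlib
import Fermat.Agent.S52K.Trans10
import Fermat.Agent.S52K3.Iface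

set_option autoImplicit false

namespace Fermat.Agent.S52K.FibresTrans10

open Fermat.Agent.S52K.Tower10 Fermat.Agent.S52K.Act10 Fermat.Agent.S52K.Trans10
  Fermat.Agent.S52K3 Matrix

/-- The field `trans` of `KleinData.Fibres`. -/
theorem trans (D : KleinData) (hζ : IsPrimitiveRoot D.ζ 5)
    (hf : ∀ v : V2, D.f v = fK v.1 v.2) (hH : ∀ v : V2, D.H v = hK v.1 v.2)
    (hT : (∀ v : V2, D.T v = tK v.1 v.2) ∨ (∀ v : V2, D.T v = -tK v.1 v.2))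
    {ζ' : Qb} (hζ' : IsPrimitiveRoot ζ' 5)
    (S : Matrix.SpecialLinearGroup (Fin 2) Qb) (hS : Preserves S)
    (hS0 : S 0 0 ≠ 0 ∧ S 0 1 ≠ 0 ∧ S 1 0 ≠ 0 ∧ S 1 1 ≠ 0)
    (hmul : ∀ a ∈ D.Γ, ∀ b ∈ D.Γ, a ∘ₗ b ∈ D.Γ)
    (hΓS : lin S ∈ D.Γ) (hΓS' : lin S⁻¹ ∈ D.Γ) (hΓT : lin (rot ζ' hζ'.pow_eq_one) ∈ D.Γ)
    (hΓU : lin (uMat Qb) ∈ D.Γ) :
    ∀ v v' : V2, D.f v ≠ 0 → D.H v ≠ 0 → D.T v ≠ 0 → D.H v' = D.H v → D.T v' = D.T v →
      ∃ (k : ℕ), ∃ γ ∈ D.Γ, v' = D.ζ ^ k • γ v := by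
  intro v v' hfv hHv hTv hH' hT'
  rw [hf] at hfv
  rw [hH] at hHv
  rw [hH, hH] at hH'
  have htv : tK v.1 v.2 ≠ 0 := by
    rcases hT with h | h
    · rwa [h] at hTv
    · rw [h] at hTv; exact neg_ne_zero.mp hTv
  have hT'' : tK v'.1 v'.2 = tK v.1 v.2 := by
    rcases hT with h | h
    · rwa [h, h] at hT'
    · rw [h, h] at hT'; exact neg_injective hT'
  obtain ⟨n, γ, hγ, hv'⟩ := exists_zeta_pow_smul D.Γ hmul hζ' S hS hS0 hΓS hΓS' hΓT hΓU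
    hfv hHv htv hH' hT''
  obtain ⟨m, -, hm⟩ := hζ.eq_pow_of_pow_eq_one
    (show (ζ' ^ n) ^ 5 = 1 by rw [← pow_mul, mul_comm, pow_mul, hζ'.pow_eq_one, one_pow])
  exact ⟨m, γ, hγ, by rw [hm, hv']⟩

end Fermat.Agent.S52K.FibresTrans10
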