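import Mathlib

/-!
# Programme K (S52), brick B0: Klein forms, rational point Q, covariant v1 (no zeta)

GENERATED by helper94's exact polynomial toolkit (python, Q(zeta5) arithmetic); every identity below was
verified symbolically before emission and is re-proved here by `ring` / `linear_combination`.
-/

set_option autoImplicit false
set_option maxHeartbeats 4000000
set_option maxRecDepth 100000

namespace Fermat.Agent.S52K

variable {K : Type*} [CommRing K]

/-- `pw x n = x^n`, as a plain function application: big generated expressions use it because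
elaborating `x^n` costs a slow type-class query per occurrence. Unfold with `simp only [pw]`. -/
def pw (x : K) (n : ℕ) : K := x^n

/-- Klein's ground form (vertices of the icosahedron), degree 12. -/
def kf (a b : K) : K := a*b*(a^10 + 11*a^5*b^5 - b^10)
/-- Klein's Hessian form (face centres), degree 20. -/
def kH (a b : K) : K := -(a^20 + b^20) + 228*(a^15*b^5 - a^5*b^15) - 494*a^10*b^10
/-- Klein's functional determinant (edge midpoints), degree 30. -/
def kT (a b : K) : K :=
  (a^30 + b^30) + 522*(a^25*b^5 - a^5*b^25) - 10005*(a^20*b^10 + a^10*b^20)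

/-- The icosahedral syzygy. -/
theorem syzygy (a b : K) : kT a b ^ 2 + kH a b ^ 3 = 1728 * kf a b ^ 5 := by
  unfold kT kH kf; ring

theorem kf_smul (c a b : K) : kf (c*a) (c*b) = c^12 * kf a b := by unfold kf; ring
theorem kH_smul (c a b : K) : kH (c*a) (c*b) = c^20 * kH a b := by unfold kH; ring
theorem kT_smul (c a b : K) : kT (c*a) (c*b) = c^30 * kT a b := by unfold kT; ring

/-- first coordinate of the covariant `v1 = (df/db, -df/da)` (degree 11). -/
def w1 (a b : K) : K := a^11 + 66*a^6*b^5 - 11*a*b^10
/-- second coordinate of the covariant `v1 = (df/db, -df/da)`. -/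
def w2 (a b : K) : K := -11*a^10*b - 66*a^5*b^6 + b^11

theorem w1_smul (c a b : K) : w1 (c*a) (c*b) = c^11 * w1 a b := by unfold w1; ring
theorem w2_smul (c a b : K) : w2 (c*a) (c*b) = c^11 * w2 a b := by unfold w2; ring

/-- `det (v, v1) = -12 f(v)` (Euler). -/
theorem det_v_w (a b : K) : a * w2 a b - b * w1 a b = -12 * kf a b := by
  unfold w1 w2 kf; ring

/-- x-coordinate of the rational 5-torsion point `Q(v)` on `y^2 = x^3 + 27 H x + 54 T`. -/
def XQ (a b : K) : K :=
  3*(a^10 - 12*a^9*b + 24*a^8*b^2 - 36*a^7*b^3 + 60*a^6*b^4 - 30*a^5*b^5 + 24*a^4*b^6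
    + 12*a^3*b^7 + 12*a^2*b^8 + b^10)
/-- y-coordinate of the rational 5-torsion point `Q(v)`. -/
def YQ (a b : K) : K :=
  108*(a^14*b - 4*a^13*b^2 + 9*a^12*b^3 - 15*a^11*b^4 + 25*a^10*b^5 - 29*a^9*b^6 + 21*a^8*b^7
    - 6*a^7*b^8 + 5*a^6*b^9 + 4*a^4*b^11 - a^3*b^12 + a^2*b^13)

theorem XQ_smul (c a b : K) : XQ (c*a) (c*b) = c^10 * XQ a b := by unfold XQ; ring
theorem YQ_smul (c a b : K) : YQ (c*a) (c*b) = c^15 * YQ a b := by unfold YQ; ring

/-- `Q(v)` lies on the curve. -/
theorem onCurve_Q (a b : K) :
    YQ a b ^ 2 = XQ a b ^ 3 + 27 * kH a b * XQ a b + 54 * kT a b := by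
  unfold YQ XQ kH kT; ring

/-- Bezout cofactor of `kf` (for `b^31`). -/
def bezS (a b : K) : K :=
  3003*pw a 19 - 684695*pw a 14*pw b 5 + 1485989*pw a 9*pw b 10 + 679478*pw a 4*pw b 15
/-- Bezout cofactor of `kH` (for `b^31`). -/
def bezT (a b : K) : K :=
  3003*pw a 10*b + 33022*pw a 5*pw b 6 - 3125*pw b 11

/-- `f` and `H` have no common zero away from characteristic 5 (second coordinate). -/
theorem bezout_b (a b : K) : bezS a b * kf a b + bezT a b * kH a b = 3125 * b^31 := by
  unfold bezS bezT kf kH; simp only [pw]; ring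

/-- `f` and `H` have no common zero away from characteristic 5 (first coordinate). -/
theorem bezout_a (a b : K) : bezS (-b) a * kf a b + bezT (-b) a * kH a b = 3125 * a^31 := by
  unfold bezS bezT kf kH; simp only [pw]; ring

end Fermat.Agent.S52K
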