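import Mathlib
import Fermat.Agent.S52K.Forms

/-!
# Programme K (S52), brick B0: the point R(v) over Z[zeta5], addition and doubling identities

GENERATED by helper94's exact polynomial toolkit (python, Q(zeta5) arithmetic); every identity below was
verified symbolically before emission and is re-proved here by `ring` / `linear_combination`.
-/

set_option autoImplicit false
set_option maxHeartbeats 4000000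
set_option maxRecDepth 100000

namespace Fermat.Agent.S52K

variable {K : Type*} [CommRing K]

/-- `ζ` is a primitive 5th root of unity (root of the 5th cyclotomic polynomial). -/
def IsZ5 (ζ : K) : Prop := ζ^4 + ζ^3 + ζ^2 + ζ + 1 = 0

theorem IsZ5.pow_five {ζ : K} (h : IsZ5 ζ) : ζ^5 = 1 := by
  unfold IsZ5 at h; linear_combination (ζ - 1) * h

theorem IsZ5.sq {ζ : K} (h : IsZ5 ζ) : IsZ5 (ζ^2) := by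
  unfold IsZ5 at h ⊢; linear_combination (ζ^4 - ζ^3 + ζ^2 - ζ + 1) * h

/-- `sqrt 5 = 1 + 2ζ + 2ζ^4`. -/
def s5 (ζ : K) : K := 1 + 2*ζ + 2*ζ^4
theorem s5_sq {ζ : K} (h : IsZ5 ζ) : s5 ζ ^ 2 = 5 := by
  unfold IsZ5 at h; unfold s5; linear_combination (norm := (simp only [pw]; ring1)) (4*pw ζ 4 - 4*pw ζ 3 + 8*ζ - 4) * h

/-- `5 * X_R`: x-coordinate (times 5) of the 5-torsion point `R(v)` (generator of the `μ5`-part). -/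
def xr5 (ζ a b : K) : K :=
  -(75*(a^10 + b^10) + 18*(1 + 2*ζ + 2*ζ^4)*(a^10 + 11*a^5*b^5 - b^10))
/-- `5 * Y_R`. -/
def yr5 (ζ a b : K) : K :=
  108*(2*ζ + ζ^2 - ζ^3 - 2*ζ^4)*(a^15 + (19 + 5*(ζ^2+ζ^3))*a^10*b^5 + (87 + 55*(ζ^2+ζ^3))*a^5*b^10
    - (8 + 5*(ζ^2+ζ^3))*b^15)
/-- `5 *` slope of the chord through `Q(v)` and `-R(v)` (a form of degree 5). -/
def lam5 (ζ a b : K) : K :=
  (9 + 18*ζ + 12*ζ^2 + 6*ζ^3)*a^5 + 5*(12 + 6*ζ + 6*ζ^2 + 6*ζ^3)*a^4*b + 5*(-6 + 6*ζ^3)*a^3*b^2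
    + 5*(6 - 6*ζ^2)*a^2*b^3 + (-3 - 6*ζ + 6*ζ^2 - 12*ζ^3)*b^5
/-- `5 *` slope of the tangent at `R(v)` (a form of degree 5). -/
def mu5 (ζ a b : K) : K :=
  (-21 - 42*ζ - 18*ζ^2 - 24*ζ^3)*a^5 + (-3 - 6*ζ - 24*ζ^2 + 18*ζ^3)*b^5
/-- cofactor: `(5 XQ - xr5) * nvL = 180 f^2`. -/
def nvL (ζ a b : K) : K :=
  (3 + (ζ^2+ζ^3))*a^12*b^2 + (10 + 5*(ζ^2+ζ^3))*a^11*b^3 + (15 + 10*(ζ^2+ζ^3))*a^10*b^4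
    + (15 + 10*(ζ^2+ζ^3))*a^9*b^5 + (-7 - 14*(ζ^2+ζ^3))*a^7*b^7 + (5 - 10*(ζ^2+ζ^3))*a^6*b^8
    + (-5 + 5*(ζ^2+ζ^3))*a^5*b^9 + (-5 + 5*(ζ^2+ζ^3))*a^4*b^10 + (2 - (ζ^2+ζ^3))*a^2*b^12

theorem xr5_smul (ζ c a b : K) : xr5 ζ (c*a) (c*b) = c^10 * xr5 ζ a b := by unfold xr5; ring
theorem yr5_smul (ζ c a b : K) : yr5 ζ (c*a) (c*b) = c^15 * yr5 ζ a b := by unfold yr5; ring

/-- `R(v)` lies on the curve (scaled by `5^3`). -/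
theorem onCurve_R {ζ : K} (hζ : IsZ5 ζ) (a b : K) :
    5 * yr5 ζ a b ^ 2 = xr5 ζ a b ^ 3 + 675 * kH a b * xr5 ζ a b + 6750 * kT a b := by
  unfold IsZ5 at hζ
  unfold yr5 xr5 kH kT
  linear_combination (norm := (simp only [pw]; ring1))
    (
      46656*pw a 30*pw ζ 8 - 46656*pw a 30*pw ζ 7 + 139968*pw a 30*pw ζ 5 + 454896*pw a 30*pw ζ 4
      - 314928*pw a 30*pw ζ 3 - 314928*pw a 30*pw ζ 2 + 174960*pw a 30*ζ + 734832*pw a 30 + 1539648*pw a 25*pw b 5*pw ζ 8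
      + 793152*pw a 25*pw b 5*pw ζ 7 + 2332800*pw a 25*pw b 5*pw ζ 6 + 536544*pw a 25*pw b 5*pw ζ 5
      + 4805568*pw a 25*pw b 5*pw ζ 4 - 7185024*pw a 25*pw b 5*pw ζ 3 - 1936224*pw a 25*pw b 5*pw ζ 2
      + 3732480*pw a 25*pw b 5*ζ + 15793056*pw a 25*pw b 5 + 5832000*pw a 20*pw b 10*pw ζ 10 + 11664000*pw a 20*pw b 10*pw ζ 9
      + 12422160*pw a 20*pw b 10*pw ζ 8 + 22569840*pw a 20*pw b 10*pw ζ 7 + 49572000*pw a 20*pw b 10*pw ζ 6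
      - 45839520*pw a 20*pw b 10*pw ζ 5 - 68059440*pw a 20*pw b 10*pw ζ 4 - 43390080*pw a 20*pw b 10*pw ζ 3
      + 87829920*pw a 20*pw b 10*pw ζ 2 + 17787600*pw a 20*pw b 10*ζ + 79373520*pw a 20*pw b 10 + 128304000*pw a 15*pw b 15*pw ζ 10
      + 256608000*pw a 15*pw b 15*pw ζ 9 - 37208160*pw a 15*pw b 15*pw ζ 8 - 44439840*pw a 15*pw b 15*pw ζ 7
      + 239112000*pw a 15*pw b 15*pw ζ 6 - 449880480*pw a 15*pw b 15*pw ζ 5 - 799450560*pw a 15*pw b 15*pw ζ 4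
      - 29509920*pw a 15*pw b 15*pw ζ 3 + 941518080*pw a 15*pw b 15*pw ζ 2 - 27993600*pw a 15*pw b 15*ζ
      - 57503520*pw a 15*pw b 15 + 694008000*pw a 10*pw b 20*pw ζ 10 + 1388016000*pw a 10*pw b 20*pw ζ 9
      - 537302160*pw a 10*pw b 20*pw ζ 8 - 1457241840*pw a 10*pw b 20*pw ζ 7 - 259524000*pw a 10*pw b 20*pw ζ 6
      - 723984480*pw a 10*pw b 20*pw ζ 5 - 806740560*pw a 10*pw b 20*pw ζ 4 - 26593920*pw a 10*pw b 20*pw ζ 3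
      + 1731754080*pw a 10*pw b 20*pw ζ 2 - 52779600*pw a 10*pw b 20*ζ + 25602480*pw a 10*pw b 20
      - 128304000*pw a 5*pw b 25*pw ζ 10 - 256608000*pw a 5*pw b 25*pw ζ 9 + 97767648*pw a 5*pw b 25*pw ζ 8
      + 263816352*pw a 5*pw b 25*pw ζ 7 + 40824000*pw a 5*pw b 25*pw ζ 6 + 141670944*pw a 5*pw b 25*pw ζ 5
      + 165185568*pw a 5*pw b 25*pw ζ 4 + 5645376*pw a 5*pw b 25*pw ζ 3 - 335526624*pw a 5*pw b 25*pw ζ 2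
      + 10147680*pw a 5*pw b 25*ζ - 3452544*pw a 5*pw b 25 + 5832000*pw b 30*pw ζ 10 + 11664000*pw b 30*pw ζ 9
      - 4420656*pw b 30*pw ζ 8 - 11908944*pw b 30*pw ζ 7 - 1749600*pw b 30*pw ζ 6 - 6555168*pw b 30*pw ζ 5
      - 7744896*pw b 30*pw ζ 4 - 268272*pw b 30*pw ζ 3 + 15478128*pw b 30*pw ζ 2 - 466560*pw b 30*ζ
      + 139968*pw b 30
    ) * hζ

/-- `kf` is invariant under `T5 = diag(ζ^3, ζ^2)`. -/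
theorem kf_T5 {ζ : K} (hζ : IsZ5 ζ) (a b : K) :
    kf (ζ^3*a) (ζ^2*b) = kf a b := by
  unfold IsZ5 at hζ
  unfold kf
  linear_combination (norm := (simp only [pw]; ring1))
    (
      pw a 11*b*pw ζ 31 - pw a 11*b*pw ζ 30 + pw a 11*b*pw ζ 26 - pw a 11*b*pw ζ 25 + pw a 11*b*pw ζ 21
      - pw a 11*b*pw ζ 20 + pw a 11*b*pw ζ 16 - pw a 11*b*pw ζ 15 + pw a 11*b*pw ζ 11 - pw a 11*b*pw ζ 10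
      + pw a 11*b*pw ζ 6 - pw a 11*b*pw ζ 5 + pw a 11*b*ζ - pw a 11*b + 11*pw a 6*pw b 6*pw ζ 26
      - 11*pw a 6*pw b 6*pw ζ 25 + 11*pw a 6*pw b 6*pw ζ 21 - 11*pw a 6*pw b 6*pw ζ 20 + 11*pw a 6*pw b 6*pw ζ 16
      - 11*pw a 6*pw b 6*pw ζ 15 + 11*pw a 6*pw b 6*pw ζ 11 - 11*pw a 6*pw b 6*pw ζ 10 + 11*pw a 6*pw b 6*pw ζ 6
      - 11*pw a 6*pw b 6*pw ζ 5 + 11*pw a 6*pw b 6*ζ - 11*pw a 6*pw b 6 - a*pw b 11*pw ζ 21 + a*pw b 11*pw ζ 20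
      - a*pw b 11*pw ζ 16 + a*pw b 11*pw ζ 15 - a*pw b 11*pw ζ 11 + a*pw b 11*pw ζ 10 - a*pw b 11*pw ζ 6
      + a*pw b 11*pw ζ 5 - a*pw b 11*ζ + a*pw b 11
    ) * hζ

/-- `kH` is invariant under `T5 = diag(ζ^3, ζ^2)`. -/
theorem kH_T5 {ζ : K} (hζ : IsZ5 ζ) (a b : K) :
    kH (ζ^3*a) (ζ^2*b) = kH a b := by
  unfold IsZ5 at hζ
  unfold kH
  linear_combination (norm := (simp only [pw]; ring1))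
    (
      -pw a 20*pw ζ 56 + pw a 20*pw ζ 55 - pw a 20*pw ζ 51 + pw a 20*pw ζ 50 - pw a 20*pw ζ 46 + pw a 20*pw ζ 45
      - pw a 20*pw ζ 41 + pw a 20*pw ζ 40 - pw a 20*pw ζ 36 + pw a 20*pw ζ 35 - pw a 20*pw ζ 31 + pw a 20*pw ζ 30
      - pw a 20*pw ζ 26 + pw a 20*pw ζ 25 - pw a 20*pw ζ 21 + pw a 20*pw ζ 20 - pw a 20*pw ζ 16 + pw a 20*pw ζ 15
      - pw a 20*pw ζ 11 + pw a 20*pw ζ 10 - pw a 20*pw ζ 6 + pw a 20*pw ζ 5 - pw a 20*ζ + pw a 20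
      + 228*pw a 15*pw b 5*pw ζ 51 - 228*pw a 15*pw b 5*pw ζ 50 + 228*pw a 15*pw b 5*pw ζ 46 - 228*pw a 15*pw b 5*pw ζ 45
      + 228*pw a 15*pw b 5*pw ζ 41 - 228*pw a 15*pw b 5*pw ζ 40 + 228*pw a 15*pw b 5*pw ζ 36 - 228*pw a 15*pw b 5*pw ζ 35
      + 228*pw a 15*pw b 5*pw ζ 31 - 228*pw a 15*pw b 5*pw ζ 30 + 228*pw a 15*pw b 5*pw ζ 26 - 228*pw a 15*pw b 5*pw ζ 25
      + 228*pw a 15*pw b 5*pw ζ 21 - 228*pw a 15*pw b 5*pw ζ 20 + 228*pw a 15*pw b 5*pw ζ 16 - 228*pw a 15*pw b 5*pw ζ 15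
      + 228*pw a 15*pw b 5*pw ζ 11 - 228*pw a 15*pw b 5*pw ζ 10 + 228*pw a 15*pw b 5*pw ζ 6 - 228*pw a 15*pw b 5*pw ζ 5
      + 228*pw a 15*pw b 5*ζ - 228*pw a 15*pw b 5 - 494*pw a 10*pw b 10*pw ζ 46 + 494*pw a 10*pw b 10*pw ζ 45
      - 494*pw a 10*pw b 10*pw ζ 41 + 494*pw a 10*pw b 10*pw ζ 40 - 494*pw a 10*pw b 10*pw ζ 36 + 494*pw a 10*pw b 10*pw ζ 35
      - 494*pw a 10*pw b 10*pw ζ 31 + 494*pw a 10*pw b 10*pw ζ 30 - 494*pw a 10*pw b 10*pw ζ 26 + 494*pw a 10*pw b 10*pw ζ 25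
      - 494*pw a 10*pw b 10*pw ζ 21 + 494*pw a 10*pw b 10*pw ζ 20 - 494*pw a 10*pw b 10*pw ζ 16 + 494*pw a 10*pw b 10*pw ζ 15
      - 494*pw a 10*pw b 10*pw ζ 11 + 494*pw a 10*pw b 10*pw ζ 10 - 494*pw a 10*pw b 10*pw ζ 6 + 494*pw a 10*pw b 10*pw ζ 5
      - 494*pw a 10*pw b 10*ζ + 494*pw a 10*pw b 10 - 228*pw a 5*pw b 15*pw ζ 41 + 228*pw a 5*pw b 15*pw ζ 40
      - 228*pw a 5*pw b 15*pw ζ 36 + 228*pw a 5*pw b 15*pw ζ 35 - 228*pw a 5*pw b 15*pw ζ 31 + 228*pw a 5*pw b 15*pw ζ 30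
      - 228*pw a 5*pw b 15*pw ζ 26 + 228*pw a 5*pw b 15*pw ζ 25 - 228*pw a 5*pw b 15*pw ζ 21 + 228*pw a 5*pw b 15*pw ζ 20
      - 228*pw a 5*pw b 15*pw ζ 16 + 228*pw a 5*pw b 15*pw ζ 15 - 228*pw a 5*pw b 15*pw ζ 11 + 228*pw a 5*pw b 15*pw ζ 10
      - 228*pw a 5*pw b 15*pw ζ 6 + 228*pw a 5*pw b 15*pw ζ 5 - 228*pw a 5*pw b 15*ζ + 228*pw a 5*pw b 15
      - pw b 20*pw ζ 36 + pw b 20*pw ζ 35 - pw b 20*pw ζ 31 + pw b 20*pw ζ 30 - pw b 20*pw ζ 26 + pw b 20*pw ζ 25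
      - pw b 20*pw ζ 21 + pw b 20*pw ζ 20 - pw b 20*pw ζ 16 + pw b 20*pw ζ 15 - pw b 20*pw ζ 11 + pw b 20*pw ζ 10
      - pw b 20*pw ζ 6 + pw b 20*pw ζ 5 - pw b 20*ζ + pw b 20
    ) * hζ

/-- `kT` is invariant under `T5 = diag(ζ^3, ζ^2)`. -/
theorem kT_T5 {ζ : K} (hζ : IsZ5 ζ) (a b : K) :
    kT (ζ^3*a) (ζ^2*b) = kT a b := by
  unfold IsZ5 at hζ
  unfold kT
  linear_combination (norm := (simp only [pw]; ring1))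
    (
      pw a 30*pw ζ 86 - pw a 30*pw ζ 85 + pw a 30*pw ζ 81 - pw a 30*pw ζ 80 + pw a 30*pw ζ 76 - pw a 30*pw ζ 75
      + pw a 30*pw ζ 71 - pw a 30*pw ζ 70 + pw a 30*pw ζ 66 - pw a 30*pw ζ 65 + pw a 30*pw ζ 61 - pw a 30*pw ζ 60
      + pw a 30*pw ζ 56 - pw a 30*pw ζ 55 + pw a 30*pw ζ 51 - pw a 30*pw ζ 50 + pw a 30*pw ζ 46 - pw a 30*pw ζ 45
      + pw a 30*pw ζ 41 - pw a 30*pw ζ 40 + pw a 30*pw ζ 36 - pw a 30*pw ζ 35 + pw a 30*pw ζ 31 - pw a 30*pw ζ 30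
      + pw a 30*pw ζ 26 - pw a 30*pw ζ 25 + pw a 30*pw ζ 21 - pw a 30*pw ζ 20 + pw a 30*pw ζ 16 - pw a 30*pw ζ 15
      + pw a 30*pw ζ 11 - pw a 30*pw ζ 10 + pw a 30*pw ζ 6 - pw a 30*pw ζ 5 + pw a 30*ζ - pw a 30
      + 522*pw a 25*pw b 5*pw ζ 81 - 522*pw a 25*pw b 5*pw ζ 80 + 522*pw a 25*pw b 5*pw ζ 76 - 522*pw a 25*pw b 5*pw ζ 75
      + 522*pw a 25*pw b 5*pw ζ 71 - 522*pw a 25*pw b 5*pw ζ 70 + 522*pw a 25*pw b 5*pw ζ 66 - 522*pw a 25*pw b 5*pw ζ 65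
      + 522*pw a 25*pw b 5*pw ζ 61 - 522*pw a 25*pw b 5*pw ζ 60 + 522*pw a 25*pw b 5*pw ζ 56 - 522*pw a 25*pw b 5*pw ζ 55
      + 522*pw a 25*pw b 5*pw ζ 51 - 522*pw a 25*pw b 5*pw ζ 50 + 522*pw a 25*pw b 5*pw ζ 46 - 522*pw a 25*pw b 5*pw ζ 45
      + 522*pw a 25*pw b 5*pw ζ 41 - 522*pw a 25*pw b 5*pw ζ 40 + 522*pw a 25*pw b 5*pw ζ 36 - 522*pw a 25*pw b 5*pw ζ 35
      + 522*pw a 25*pw b 5*pw ζ 31 - 522*pw a 25*pw b 5*pw ζ 30 + 522*pw a 25*pw b 5*pw ζ 26 - 522*pw a 25*pw b 5*pw ζ 25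
      + 522*pw a 25*pw b 5*pw ζ 21 - 522*pw a 25*pw b 5*pw ζ 20 + 522*pw a 25*pw b 5*pw ζ 16 - 522*pw a 25*pw b 5*pw ζ 15
      + 522*pw a 25*pw b 5*pw ζ 11 - 522*pw a 25*pw b 5*pw ζ 10 + 522*pw a 25*pw b 5*pw ζ 6 - 522*pw a 25*pw b 5*pw ζ 5
      + 522*pw a 25*pw b 5*ζ - 522*pw a 25*pw b 5 - 10005*pw a 20*pw b 10*pw ζ 76 + 10005*pw a 20*pw b 10*pw ζ 75
      - 10005*pw a 20*pw b 10*pw ζ 71 + 10005*pw a 20*pw b 10*pw ζ 70 - 10005*pw a 20*pw b 10*pw ζ 66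
      + 10005*pw a 20*pw b 10*pw ζ 65 - 10005*pw a 20*pw b 10*pw ζ 61 + 10005*pw a 20*pw b 10*pw ζ 60
      - 10005*pw a 20*pw b 10*pw ζ 56 + 10005*pw a 20*pw b 10*pw ζ 55 - 10005*pw a 20*pw b 10*pw ζ 51
      + 10005*pw a 20*pw b 10*pw ζ 50 - 10005*pw a 20*pw b 10*pw ζ 46 + 10005*pw a 20*pw b 10*pw ζ 45
      - 10005*pw a 20*pw b 10*pw ζ 41 + 10005*pw a 20*pw b 10*pw ζ 40 - 10005*pw a 20*pw b 10*pw ζ 36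
      + 10005*pw a 20*pw b 10*pw ζ 35 - 10005*pw a 20*pw b 10*pw ζ 31 + 10005*pw a 20*pw b 10*pw ζ 30
      - 10005*pw a 20*pw b 10*pw ζ 26 + 10005*pw a 20*pw b 10*pw ζ 25 - 10005*pw a 20*pw b 10*pw ζ 21
      + 10005*pw a 20*pw b 10*pw ζ 20 - 10005*pw a 20*pw b 10*pw ζ 16 + 10005*pw a 20*pw b 10*pw ζ 15
      - 10005*pw a 20*pw b 10*pw ζ 11 + 10005*pw a 20*pw b 10*pw ζ 10 - 10005*pw a 20*pw b 10*pw ζ 6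
      + 10005*pw a 20*pw b 10*pw ζ 5 - 10005*pw a 20*pw b 10*ζ + 10005*pw a 20*pw b 10 - 10005*pw a 10*pw b 20*pw ζ 66
      + 10005*pw a 10*pw b 20*pw ζ 65 - 10005*pw a 10*pw b 20*pw ζ 61 + 10005*pw a 10*pw b 20*pw ζ 60
      - 10005*pw a 10*pw b 20*pw ζ 56 + 10005*pw a 10*pw b 20*pw ζ 55 - 10005*pw a 10*pw b 20*pw ζ 51
      + 10005*pw a 10*pw b 20*pw ζ 50 - 10005*pw a 10*pw b 20*pw ζ 46 + 10005*pw a 10*pw b 20*pw ζ 45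
      - 10005*pw a 10*pw b 20*pw ζ 41 + 10005*pw a 10*pw b 20*pw ζ 40 - 10005*pw a 10*pw b 20*pw ζ 36
      + 10005*pw a 10*pw b 20*pw ζ 35 - 10005*pw a 10*pw b 20*pw ζ 31 + 10005*pw a 10*pw b 20*pw ζ 30
      - 10005*pw a 10*pw b 20*pw ζ 26 + 10005*pw a 10*pw b 20*pw ζ 25 - 10005*pw a 10*pw b 20*pw ζ 21
      + 10005*pw a 10*pw b 20*pw ζ 20 - 10005*pw a 10*pw b 20*pw ζ 16 + 10005*pw a 10*pw b 20*pw ζ 15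
      - 10005*pw a 10*pw b 20*pw ζ 11 + 10005*pw a 10*pw b 20*pw ζ 10 - 10005*pw a 10*pw b 20*pw ζ 6
      + 10005*pw a 10*pw b 20*pw ζ 5 - 10005*pw a 10*pw b 20*ζ + 10005*pw a 10*pw b 20 - 522*pw a 5*pw b 25*pw ζ 61
      + 522*pw a 5*pw b 25*pw ζ 60 - 522*pw a 5*pw b 25*pw ζ 56 + 522*pw a 5*pw b 25*pw ζ 55 - 522*pw a 5*pw b 25*pw ζ 51
      + 522*pw a 5*pw b 25*pw ζ 50 - 522*pw a 5*pw b 25*pw ζ 46 + 522*pw a 5*pw b 25*pw ζ 45 - 522*pw a 5*pw b 25*pw ζ 41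
      + 522*pw a 5*pw b 25*pw ζ 40 - 522*pw a 5*pw b 25*pw ζ 36 + 522*pw a 5*pw b 25*pw ζ 35 - 522*pw a 5*pw b 25*pw ζ 31
      + 522*pw a 5*pw b 25*pw ζ 30 - 522*pw a 5*pw b 25*pw ζ 26 + 522*pw a 5*pw b 25*pw ζ 25 - 522*pw a 5*pw b 25*pw ζ 21
      + 522*pw a 5*pw b 25*pw ζ 20 - 522*pw a 5*pw b 25*pw ζ 16 + 522*pw a 5*pw b 25*pw ζ 15 - 522*pw a 5*pw b 25*pw ζ 11
      + 522*pw a 5*pw b 25*pw ζ 10 - 522*pw a 5*pw b 25*pw ζ 6 + 522*pw a 5*pw b 25*pw ζ 5 - 522*pw a 5*pw b 25*ζ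
      + 522*pw a 5*pw b 25 + pw b 30*pw ζ 56 - pw b 30*pw ζ 55 + pw b 30*pw ζ 51 - pw b 30*pw ζ 50
      + pw b 30*pw ζ 46 - pw b 30*pw ζ 45 + pw b 30*pw ζ 41 - pw b 30*pw ζ 40 + pw b 30*pw ζ 36 - pw b 30*pw ζ 35
      + pw b 30*pw ζ 31 - pw b 30*pw ζ 30 + pw b 30*pw ζ 26 - pw b 30*pw ζ 25 + pw b 30*pw ζ 21 - pw b 30*pw ζ 20
      + pw b 30*pw ζ 16 - pw b 30*pw ζ 15 + pw b 30*pw ζ 11 - pw b 30*pw ζ 10 + pw b 30*pw ζ 6 - pw b 30*pw ζ 5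
      + pw b 30*ζ - pw b 30
    ) * hζ

/-- `X_R` is invariant under `T5`. -/
theorem xr5_T5 {ζ : K} (hζ : IsZ5 ζ) (a b : K) :
    xr5 ζ (ζ^3*a) (ζ^2*b) = xr5 ζ a b := by
  unfold IsZ5 at hζ
  unfold xr5
  linear_combination (norm := (simp only [pw]; ring1))
    (
      -36*pw a 10*pw ζ 30 + 36*pw a 10*pw ζ 29 - 36*pw a 10*pw ζ 27 - 57*pw a 10*pw ζ 26 + 57*pw a 10*pw ζ 25
      + 36*pw a 10*pw ζ 24 - 36*pw a 10*pw ζ 22 - 57*pw a 10*pw ζ 21 + 57*pw a 10*pw ζ 20 + 36*pw a 10*pw ζ 19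
      - 36*pw a 10*pw ζ 17 - 57*pw a 10*pw ζ 16 + 57*pw a 10*pw ζ 15 + 36*pw a 10*pw ζ 14 - 36*pw a 10*pw ζ 12
      - 57*pw a 10*pw ζ 11 + 57*pw a 10*pw ζ 10 + 36*pw a 10*pw ζ 9 - 36*pw a 10*pw ζ 7 - 57*pw a 10*pw ζ 6
      + 57*pw a 10*pw ζ 5 + 36*pw a 10*pw ζ 4 - 36*pw a 10*pw ζ 2 - 57*pw a 10*ζ + 93*pw a 10 - 396*pw a 5*pw b 5*pw ζ 25
      + 396*pw a 5*pw b 5*pw ζ 24 - 396*pw a 5*pw b 5*pw ζ 22 + 198*pw a 5*pw b 5*pw ζ 21 - 198*pw a 5*pw b 5*pw ζ 20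
      + 396*pw a 5*pw b 5*pw ζ 19 - 396*pw a 5*pw b 5*pw ζ 17 + 198*pw a 5*pw b 5*pw ζ 16 - 198*pw a 5*pw b 5*pw ζ 15
      + 396*pw a 5*pw b 5*pw ζ 14 - 396*pw a 5*pw b 5*pw ζ 12 + 198*pw a 5*pw b 5*pw ζ 11 - 198*pw a 5*pw b 5*pw ζ 10
      + 396*pw a 5*pw b 5*pw ζ 9 - 396*pw a 5*pw b 5*pw ζ 7 + 198*pw a 5*pw b 5*pw ζ 6 - 198*pw a 5*pw b 5*pw ζ 5
      + 396*pw a 5*pw b 5*pw ζ 4 - 396*pw a 5*pw b 5*pw ζ 2 + 198*pw a 5*pw b 5*ζ + 198*pw a 5*pw b 5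
      + 36*pw b 10*pw ζ 20 - 36*pw b 10*pw ζ 19 + 36*pw b 10*pw ζ 17 - 93*pw b 10*pw ζ 16 + 93*pw b 10*pw ζ 15
      - 36*pw b 10*pw ζ 14 + 36*pw b 10*pw ζ 12 - 93*pw b 10*pw ζ 11 + 93*pw b 10*pw ζ 10 - 36*pw b 10*pw ζ 9
      + 36*pw b 10*pw ζ 7 - 93*pw b 10*pw ζ 6 + 93*pw b 10*pw ζ 5 - 36*pw b 10*pw ζ 4 + 36*pw b 10*pw ζ 2
      - 93*pw b 10*ζ + 57*pw b 10
    ) * hζ

/-- `Y_R` is invariant under `T5`. -/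
theorem yr5_T5 {ζ : K} (hζ : IsZ5 ζ) (a b : K) :
    yr5 ζ (ζ^3*a) (ζ^2*b) = yr5 ζ a b := by
  unfold IsZ5 at hζ
  unfold yr5
  linear_combination (norm := (simp only [pw]; ring1))
    (
      -216*pw a 15*pw ζ 45 + 108*pw a 15*pw ζ 44 + 216*pw a 15*pw ζ 43 + 108*pw a 15*pw ζ 42 - 216*pw a 15*pw ζ 41
      - 216*pw a 15*pw ζ 40 + 108*pw a 15*pw ζ 39 + 216*pw a 15*pw ζ 38 + 108*pw a 15*pw ζ 37 - 216*pw a 15*pw ζ 36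
      - 216*pw a 15*pw ζ 35 + 108*pw a 15*pw ζ 34 + 216*pw a 15*pw ζ 33 + 108*pw a 15*pw ζ 32 - 216*pw a 15*pw ζ 31
      - 216*pw a 15*pw ζ 30 + 108*pw a 15*pw ζ 29 + 216*pw a 15*pw ζ 28 + 108*pw a 15*pw ζ 27 - 216*pw a 15*pw ζ 26
      - 216*pw a 15*pw ζ 25 + 108*pw a 15*pw ζ 24 + 216*pw a 15*pw ζ 23 + 108*pw a 15*pw ζ 22 - 216*pw a 15*pw ζ 21
      - 216*pw a 15*pw ζ 20 + 108*pw a 15*pw ζ 19 + 216*pw a 15*pw ζ 18 + 108*pw a 15*pw ζ 17 - 216*pw a 15*pw ζ 16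
      - 216*pw a 15*pw ζ 15 + 108*pw a 15*pw ζ 14 + 216*pw a 15*pw ζ 13 + 108*pw a 15*pw ζ 12 - 216*pw a 15*pw ζ 11
      - 216*pw a 15*pw ζ 10 + 108*pw a 15*pw ζ 9 + 216*pw a 15*pw ζ 8 + 108*pw a 15*pw ζ 7 - 216*pw a 15*pw ζ 6
      - 216*pw a 15*pw ζ 5 + 108*pw a 15*pw ζ 4 + 216*pw a 15*pw ζ 3 + 108*pw a 15*pw ζ 2 - 216*pw a 15*ζ
      - 1080*pw a 10*pw b 5*pw ζ 43 - 540*pw a 10*pw b 5*pw ζ 42 + 1620*pw a 10*pw b 5*pw ζ 41 - 2484*pw a 10*pw b 5*pw ζ 40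
      + 1512*pw a 10*pw b 5*pw ζ 39 + 1944*pw a 10*pw b 5*pw ζ 38 + 1512*pw a 10*pw b 5*pw ζ 37 - 2484*pw a 10*pw b 5*pw ζ 36
      - 2484*pw a 10*pw b 5*pw ζ 35 + 1512*pw a 10*pw b 5*pw ζ 34 + 1944*pw a 10*pw b 5*pw ζ 33 + 1512*pw a 10*pw b 5*pw ζ 32
      - 2484*pw a 10*pw b 5*pw ζ 31 - 2484*pw a 10*pw b 5*pw ζ 30 + 1512*pw a 10*pw b 5*pw ζ 29 + 1944*pw a 10*pw b 5*pw ζ 28
      + 1512*pw a 10*pw b 5*pw ζ 27 - 2484*pw a 10*pw b 5*pw ζ 26 - 2484*pw a 10*pw b 5*pw ζ 25 + 1512*pw a 10*pw b 5*pw ζ 24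
      + 1944*pw a 10*pw b 5*pw ζ 23 + 1512*pw a 10*pw b 5*pw ζ 22 - 2484*pw a 10*pw b 5*pw ζ 21 - 2484*pw a 10*pw b 5*pw ζ 20
      + 1512*pw a 10*pw b 5*pw ζ 19 + 1944*pw a 10*pw b 5*pw ζ 18 + 1512*pw a 10*pw b 5*pw ζ 17 - 2484*pw a 10*pw b 5*pw ζ 16
      - 2484*pw a 10*pw b 5*pw ζ 15 + 1512*pw a 10*pw b 5*pw ζ 14 + 1944*pw a 10*pw b 5*pw ζ 13 + 1512*pw a 10*pw b 5*pw ζ 12
      - 2484*pw a 10*pw b 5*pw ζ 11 - 2484*pw a 10*pw b 5*pw ζ 10 + 1512*pw a 10*pw b 5*pw ζ 9 + 1944*pw a 10*pw b 5*pw ζ 8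
      + 1512*pw a 10*pw b 5*pw ζ 7 - 2484*pw a 10*pw b 5*pw ζ 6 - 2484*pw a 10*pw b 5*pw ζ 5 + 1512*pw a 10*pw b 5*pw ζ 4
      + 3024*pw a 10*pw b 5*pw ζ 3 + 2052*pw a 10*pw b 5*pw ζ 2 - 4104*pw a 10*pw b 5*ζ - 11880*pw a 5*pw b 10*pw ζ 38
      - 5940*pw a 5*pw b 10*pw ζ 37 + 17820*pw a 5*pw b 10*pw ζ 36 - 972*pw a 5*pw b 10*pw ζ 35 + 3456*pw a 5*pw b 10*pw ζ 34
      - 4968*pw a 5*pw b 10*pw ζ 33 + 3456*pw a 5*pw b 10*pw ζ 32 - 972*pw a 5*pw b 10*pw ζ 31 - 972*pw a 5*pw b 10*pw ζ 30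
      + 3456*pw a 5*pw b 10*pw ζ 29 - 4968*pw a 5*pw b 10*pw ζ 28 + 3456*pw a 5*pw b 10*pw ζ 27 - 972*pw a 5*pw b 10*pw ζ 26
      - 972*pw a 5*pw b 10*pw ζ 25 + 3456*pw a 5*pw b 10*pw ζ 24 - 4968*pw a 5*pw b 10*pw ζ 23 + 3456*pw a 5*pw b 10*pw ζ 22
      - 972*pw a 5*pw b 10*pw ζ 21 - 972*pw a 5*pw b 10*pw ζ 20 + 3456*pw a 5*pw b 10*pw ζ 19 - 4968*pw a 5*pw b 10*pw ζ 18
      + 3456*pw a 5*pw b 10*pw ζ 17 - 972*pw a 5*pw b 10*pw ζ 16 - 972*pw a 5*pw b 10*pw ζ 15 + 3456*pw a 5*pw b 10*pw ζ 14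
      - 4968*pw a 5*pw b 10*pw ζ 13 + 3456*pw a 5*pw b 10*pw ζ 12 - 972*pw a 5*pw b 10*pw ζ 11 - 972*pw a 5*pw b 10*pw ζ 10
      + 3456*pw a 5*pw b 10*pw ζ 9 - 4968*pw a 5*pw b 10*pw ζ 8 + 3456*pw a 5*pw b 10*pw ζ 7 - 972*pw a 5*pw b 10*pw ζ 6
      - 972*pw a 5*pw b 10*pw ζ 5 + 3456*pw a 5*pw b 10*pw ζ 4 + 6912*pw a 5*pw b 10*pw ζ 3 + 9396*pw a 5*pw b 10*pw ζ 2
      - 18792*pw a 5*pw b 10*ζ + 1080*pw b 15*pw ζ 33 + 540*pw b 15*pw ζ 32 - 1620*pw b 15*pw ζ 31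
      + 108*pw b 15*pw ζ 30 - 324*pw b 15*pw ζ 29 + 432*pw b 15*pw ζ 28 - 324*pw b 15*pw ζ 27 + 108*pw b 15*pw ζ 26
      + 108*pw b 15*pw ζ 25 - 324*pw b 15*pw ζ 24 + 432*pw b 15*pw ζ 23 - 324*pw b 15*pw ζ 22 + 108*pw b 15*pw ζ 21
      + 108*pw b 15*pw ζ 20 - 324*pw b 15*pw ζ 19 + 432*pw b 15*pw ζ 18 - 324*pw b 15*pw ζ 17 + 108*pw b 15*pw ζ 16
      + 108*pw b 15*pw ζ 15 - 324*pw b 15*pw ζ 14 + 432*pw b 15*pw ζ 13 - 324*pw b 15*pw ζ 12 + 108*pw b 15*pw ζ 11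
      + 108*pw b 15*pw ζ 10 - 324*pw b 15*pw ζ 9 + 432*pw b 15*pw ζ 8 - 324*pw b 15*pw ζ 7 + 108*pw b 15*pw ζ 6
      + 108*pw b 15*pw ζ 5 - 324*pw b 15*pw ζ 4 - 648*pw b 15*pw ζ 3 - 864*pw b 15*pw ζ 2 + 1728*pw b 15*ζ
    ) * hζ

/-- covariance of `v1` under `T5` (first coordinate). -/
theorem w1_T5 {ζ : K} (hζ : IsZ5 ζ) (a b : K) :
    w1 (ζ^3*a) (ζ^2*b) = ζ^3 * w1 a b := by
  unfold IsZ5 at hζ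
  unfold w1
  linear_combination (norm := (simp only [pw]; ring1))
    (
      pw a 11*pw ζ 29 - pw a 11*pw ζ 28 + pw a 11*pw ζ 24 - pw a 11*pw ζ 23 + pw a 11*pw ζ 19 - pw a 11*pw ζ 18
      + pw a 11*pw ζ 14 - pw a 11*pw ζ 13 + pw a 11*pw ζ 9 - pw a 11*pw ζ 8 + pw a 11*pw ζ 4 - pw a 11*pw ζ 3
      + 66*pw a 6*pw b 5*pw ζ 24 - 66*pw a 6*pw b 5*pw ζ 23 + 66*pw a 6*pw b 5*pw ζ 19 - 66*pw a 6*pw b 5*pw ζ 18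
      + 66*pw a 6*pw b 5*pw ζ 14 - 66*pw a 6*pw b 5*pw ζ 13 + 66*pw a 6*pw b 5*pw ζ 9 - 66*pw a 6*pw b 5*pw ζ 8
      + 66*pw a 6*pw b 5*pw ζ 4 - 66*pw a 6*pw b 5*pw ζ 3 - 11*a*pw b 10*pw ζ 19 + 11*a*pw b 10*pw ζ 18
      - 11*a*pw b 10*pw ζ 14 + 11*a*pw b 10*pw ζ 13 - 11*a*pw b 10*pw ζ 9 + 11*a*pw b 10*pw ζ 8 - 11*a*pw b 10*pw ζ 4
      + 11*a*pw b 10*pw ζ 3
    ) * hζ

/-- covariance of `v1` under `T5` (second coordinate). -/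
theorem w2_T5 {ζ : K} (hζ : IsZ5 ζ) (a b : K) :
    w2 (ζ^3*a) (ζ^2*b) = ζ^2 * w2 a b := by
  unfold IsZ5 at hζ
  unfold w2
  linear_combination (norm := (simp only [pw]; ring1))
    (
      -11*pw a 10*b*pw ζ 28 + 11*pw a 10*b*pw ζ 27 - 11*pw a 10*b*pw ζ 23 + 11*pw a 10*b*pw ζ 22
      - 11*pw a 10*b*pw ζ 18 + 11*pw a 10*b*pw ζ 17 - 11*pw a 10*b*pw ζ 13 + 11*pw a 10*b*pw ζ 12
      - 11*pw a 10*b*pw ζ 8 + 11*pw a 10*b*pw ζ 7 - 11*pw a 10*b*pw ζ 3 + 11*pw a 10*b*pw ζ 2 - 66*pw a 5*pw b 6*pw ζ 23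
      + 66*pw a 5*pw b 6*pw ζ 22 - 66*pw a 5*pw b 6*pw ζ 18 + 66*pw a 5*pw b 6*pw ζ 17 - 66*pw a 5*pw b 6*pw ζ 13
      + 66*pw a 5*pw b 6*pw ζ 12 - 66*pw a 5*pw b 6*pw ζ 8 + 66*pw a 5*pw b 6*pw ζ 7 - 66*pw a 5*pw b 6*pw ζ 3
      + 66*pw a 5*pw b 6*pw ζ 2 + pw b 11*pw ζ 18 - pw b 11*pw ζ 17 + pw b 11*pw ζ 13 - pw b 11*pw ζ 12
      + pw b 11*pw ζ 8 - pw b 11*pw ζ 7 + pw b 11*pw ζ 3 - pw b 11*pw ζ 2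
    ) * hζ

/-- chord through `Q(v)` and `-R(v)`: `lam * (X_Q - X_R) = Y_Q + Y_R` (times 25). -/
theorem add_slope {ζ : K} (hζ : IsZ5 ζ) (a b : K) :
    lam5 ζ a b * (5 * XQ a b - xr5 ζ a b) = 25 * YQ a b + 5 * yr5 ζ a b := by
  unfold IsZ5 at hζ
  unfold lam5 XQ YQ xr5 yr5
  linear_combination (norm := (simp only [pw]; ring1))
    (
      216*pw a 15*pw ζ 3 + 216*pw a 15*pw ζ 2 + 216*pw a 15*ζ + 972*pw a 15 + 1080*pw a 14*b*pw ζ 3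
      + 2160*pw a 14*b + 1080*pw a 13*pw b 2*pw ζ 3 - 1080*pw a 13*pw b 2*pw ζ 2 - 1080*pw a 12*pw b 3*pw ζ 2
      + 1080*pw a 12*pw b 3*ζ + 1080*pw a 12*pw b 3 + 7344*pw a 10*pw b 5*pw ζ 3 + 5724*pw a 10*pw b 5*pw ζ 2
      - 6156*pw a 10*pw b 5*ζ + 10908*pw a 10*pw b 5 + 11880*pw a 9*pw b 6*pw ζ 3 + 23760*pw a 9*pw b 6
      + 11880*pw a 8*pw b 7*pw ζ 3 - 11880*pw a 8*pw b 7*pw ζ 2 - 11880*pw a 7*pw b 8*pw ζ 2 + 11880*pw a 7*pw b 8*ζ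
      + 11880*pw a 7*pw b 8 + 54432*pw a 5*pw b 10*pw ζ 3 + 36612*pw a 5*pw b 10*pw ζ 2 - 94068*pw a 5*pw b 10*ζ
      + 1404*pw a 5*pw b 10 - 1080*pw a 4*pw b 11*pw ζ 3 - 2160*pw a 4*pw b 11 - 1080*pw a 3*pw b 12*pw ζ 3
      + 1080*pw a 3*pw b 12*pw ζ 2 + 1080*pw a 2*pw b 13*pw ζ 2 - 1080*pw a 2*pw b 13*ζ - 1080*pw a 2*pw b 13
      - 4968*pw b 15*pw ζ 3 - 3348*pw b 15*pw ζ 2 + 8532*pw b 15*ζ - 216*pw b 15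
    ) * hζ

/-- `X_Q(T5 v) = lam^2 - X_Q - X_R` (times 25). -/
theorem add_X {ζ : K} (hζ : IsZ5 ζ) (a b : K) :
    25 * XQ (ζ^3*a) (ζ^2*b) = lam5 ζ a b ^ 2 - 25 * XQ a b - 5 * xr5 ζ a b := by
  unfold IsZ5 at hζ
  unfold lam5 XQ xr5
  linear_combination (norm := (simp only [pw]; ring1))
    (
      75*pw a 10*pw ζ 26 - 75*pw a 10*pw ζ 25 + 75*pw a 10*pw ζ 21 - 75*pw a 10*pw ζ 20 + 75*pw a 10*pw ζ 16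
      - 75*pw a 10*pw ζ 15 + 75*pw a 10*pw ζ 11 - 75*pw a 10*pw ζ 10 + 75*pw a 10*pw ζ 6 - 75*pw a 10*pw ζ 5
      - 36*pw a 10*pw ζ 2 - 33*pw a 10*ζ - 471*pw a 10 - 900*pw a 9*b*pw ζ 25 + 900*pw a 9*b*pw ζ 24
      - 900*pw a 9*b*pw ζ 20 + 900*pw a 9*b*pw ζ 19 - 900*pw a 9*b*pw ζ 15 + 900*pw a 9*b*pw ζ 14
      - 900*pw a 9*b*pw ζ 10 + 900*pw a 9*b*pw ζ 9 - 900*pw a 9*b*pw ζ 5 + 900*pw a 9*b*pw ζ 4 - 360*pw a 9*b*pw ζ 2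
      - 720*pw a 9*b*ζ - 1980*pw a 9*b + 1800*pw a 8*pw b 2*pw ζ 24 - 1800*pw a 8*pw b 2*pw ζ 23
      + 1800*pw a 8*pw b 2*pw ζ 19 - 1800*pw a 8*pw b 2*pw ζ 18 + 1800*pw a 8*pw b 2*pw ζ 14 - 1800*pw a 8*pw b 2*pw ζ 13
      + 1800*pw a 8*pw b 2*pw ζ 9 - 1800*pw a 8*pw b 2*pw ζ 8 + 1800*pw a 8*pw b 2*pw ζ 4 - 1800*pw a 8*pw b 2*pw ζ 3
      - 1260*pw a 8*pw b 2*pw ζ 2 - 1260*pw a 8*pw b 2*ζ - 1260*pw a 8*pw b 2 - 2700*pw a 7*pw b 3*pw ζ 23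
      + 2700*pw a 7*pw b 3*pw ζ 22 - 2700*pw a 7*pw b 3*pw ζ 18 + 2700*pw a 7*pw b 3*pw ζ 17 - 2700*pw a 7*pw b 3*pw ζ 13
      + 2700*pw a 7*pw b 3*pw ζ 12 - 2700*pw a 7*pw b 3*pw ζ 8 + 2700*pw a 7*pw b 3*pw ζ 7 - 2700*pw a 7*pw b 3*pw ζ 3
      + 900*pw a 7*pw b 3*pw ζ 2 + 360*pw a 7*pw b 3*ζ + 360*pw a 7*pw b 3 + 4500*pw a 6*pw b 4*pw ζ 22
      - 4500*pw a 6*pw b 4*pw ζ 21 + 4500*pw a 6*pw b 4*pw ζ 17 - 4500*pw a 6*pw b 4*pw ζ 16 + 4500*pw a 6*pw b 4*pw ζ 12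
      - 4500*pw a 6*pw b 4*pw ζ 11 + 4500*pw a 6*pw b 4*pw ζ 7 - 4500*pw a 6*pw b 4*pw ζ 6 + 3600*pw a 6*pw b 4*pw ζ 2
      - 1800*pw a 6*pw b 4*ζ - 2250*pw a 5*pw b 5*pw ζ 21 + 2250*pw a 5*pw b 5*pw ζ 20 - 2250*pw a 5*pw b 5*pw ζ 16
      + 2250*pw a 5*pw b 5*pw ζ 15 - 2250*pw a 5*pw b 5*pw ζ 11 + 2250*pw a 5*pw b 5*pw ζ 10 - 2250*pw a 5*pw b 5*pw ζ 6
      + 2250*pw a 5*pw b 5*pw ζ 5 + 144*pw a 5*pw b 5*pw ζ 2 - 378*pw a 5*pw b 5*ζ - 1386*pw a 5*pw b 5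
      + 1800*pw a 4*pw b 6*pw ζ 20 - 1800*pw a 4*pw b 6*pw ζ 19 + 1800*pw a 4*pw b 6*pw ζ 15 - 1800*pw a 4*pw b 6*pw ζ 14
      + 1800*pw a 4*pw b 6*pw ζ 10 - 1800*pw a 4*pw b 6*pw ζ 9 + 1800*pw a 4*pw b 6*pw ζ 5 - 1800*pw a 4*pw b 6*pw ζ 4
      + 720*pw a 4*pw b 6*pw ζ 2 - 360*pw a 4*pw b 6*ζ + 1260*pw a 4*pw b 6 + 900*pw a 3*pw b 7*pw ζ 19
      - 900*pw a 3*pw b 7*pw ζ 18 + 900*pw a 3*pw b 7*pw ζ 14 - 900*pw a 3*pw b 7*pw ζ 13 + 900*pw a 3*pw b 7*pw ζ 9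
      - 900*pw a 3*pw b 7*pw ζ 8 + 900*pw a 3*pw b 7*pw ζ 4 - 900*pw a 3*pw b 7*pw ζ 3 + 720*pw a 3*pw b 7*pw ζ 2
      - 1080*pw a 3*pw b 7*ζ + 720*pw a 3*pw b 7 + 900*pw a 2*pw b 8*pw ζ 18 - 900*pw a 2*pw b 8*pw ζ 17
      + 900*pw a 2*pw b 8*pw ζ 13 - 900*pw a 2*pw b 8*pw ζ 12 + 900*pw a 2*pw b 8*pw ζ 8 - 900*pw a 2*pw b 8*pw ζ 7
      + 900*pw a 2*pw b 8*pw ζ 3 - 900*pw a 2*pw b 8*pw ζ 2 - 720*pw a 2*pw b 8*ζ + 1080*pw a 2*pw b 8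
      + 75*pw b 10*pw ζ 16 - 75*pw b 10*pw ζ 15 + 75*pw b 10*pw ζ 11 - 75*pw b 10*pw ζ 10 + 75*pw b 10*pw ζ 6
      - 75*pw b 10*pw ζ 5 - 144*pw b 10*pw ζ 2 + 363*pw b 10*ζ - 219*pw b 10
    ) * hζ

/-- `Y_Q(T5 v) = -(lam * (X_Q(T5 v) - X_Q) + Y_Q)` (times 5). -/
theorem add_Y {ζ : K} (hζ : IsZ5 ζ) (a b : K) :
    5 * YQ (ζ^3*a) (ζ^2*b) = -(lam5 ζ a b * (XQ (ζ^3*a) (ζ^2*b) - XQ a b) + 5 * YQ a b) := by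
  unfold IsZ5 at hζ
  unfold lam5 XQ YQ
  linear_combination (norm := (simp only [pw]; ring1))
    (
      18*pw a 15*pw ζ 29 + 18*pw a 15*pw ζ 28 + 18*pw a 15*pw ζ 27 - 27*pw a 15*pw ζ 26 - 27*pw a 15*pw ζ 25
      + 18*pw a 15*pw ζ 24 + 18*pw a 15*pw ζ 23 + 18*pw a 15*pw ζ 22 - 27*pw a 15*pw ζ 21 - 27*pw a 15*pw ζ 20
      + 18*pw a 15*pw ζ 19 + 18*pw a 15*pw ζ 18 + 18*pw a 15*pw ζ 17 - 27*pw a 15*pw ζ 16 - 27*pw a 15*pw ζ 15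
      + 18*pw a 15*pw ζ 14 + 18*pw a 15*pw ζ 13 + 18*pw a 15*pw ζ 12 - 27*pw a 15*pw ζ 11 - 27*pw a 15*pw ζ 10
      + 18*pw a 15*pw ζ 9 + 18*pw a 15*pw ζ 8 + 18*pw a 15*pw ζ 7 - 27*pw a 15*pw ζ 6 - 27*pw a 15*pw ζ 5
      + 18*pw a 15*pw ζ 4 + 18*pw a 15*pw ζ 3 + 18*pw a 15*pw ζ 2 - 27*pw a 15*ζ - 27*pw a 15 + 540*pw a 14*b*pw ζ 40
      - 540*pw a 14*b*pw ζ 39 + 540*pw a 14*b*pw ζ 35 - 540*pw a 14*b*pw ζ 34 + 540*pw a 14*b*pw ζ 30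
      - 450*pw a 14*b*pw ζ 29 - 216*pw a 14*b*pw ζ 28 - 216*pw a 14*b*pw ζ 27 - 126*pw a 14*b*pw ζ 26
      + 684*pw a 14*b*pw ζ 25 - 126*pw a 14*b*pw ζ 24 - 216*pw a 14*b*pw ζ 23 - 216*pw a 14*b*pw ζ 22
      - 126*pw a 14*b*pw ζ 21 + 684*pw a 14*b*pw ζ 20 - 126*pw a 14*b*pw ζ 19 - 216*pw a 14*b*pw ζ 18
      - 216*pw a 14*b*pw ζ 17 - 126*pw a 14*b*pw ζ 16 + 684*pw a 14*b*pw ζ 15 - 126*pw a 14*b*pw ζ 14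
      - 216*pw a 14*b*pw ζ 13 - 216*pw a 14*b*pw ζ 12 - 126*pw a 14*b*pw ζ 11 + 684*pw a 14*b*pw ζ 10
      - 126*pw a 14*b*pw ζ 9 - 216*pw a 14*b*pw ζ 8 - 216*pw a 14*b*pw ζ 7 - 126*pw a 14*b*pw ζ 6
      + 684*pw a 14*b*pw ζ 5 - 126*pw a 14*b*pw ζ 4 - 216*pw a 14*b*pw ζ 3 - 216*pw a 14*b*pw ζ 2
      - 126*pw a 14*b*ζ + 684*pw a 14*b - 2160*pw a 13*pw b 2*pw ζ 39 + 2160*pw a 13*pw b 2*pw ζ 38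
      - 2160*pw a 13*pw b 2*pw ζ 34 + 2160*pw a 13*pw b 2*pw ζ 33 - 2070*pw a 13*pw b 2*pw ζ 29 + 990*pw a 13*pw b 2*pw ζ 28
      + 432*pw a 13*pw b 2*pw ζ 27 + 342*pw a 13*pw b 2*pw ζ 26 - 558*pw a 13*pw b 2*pw ζ 25 - 558*pw a 13*pw b 2*pw ζ 24
      + 342*pw a 13*pw b 2*pw ζ 23 + 432*pw a 13*pw b 2*pw ζ 22 + 342*pw a 13*pw b 2*pw ζ 21 - 558*pw a 13*pw b 2*pw ζ 20
      - 558*pw a 13*pw b 2*pw ζ 19 + 342*pw a 13*pw b 2*pw ζ 18 + 432*pw a 13*pw b 2*pw ζ 17 + 342*pw a 13*pw b 2*pw ζ 16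
      - 558*pw a 13*pw b 2*pw ζ 15 - 558*pw a 13*pw b 2*pw ζ 14 + 342*pw a 13*pw b 2*pw ζ 13 + 432*pw a 13*pw b 2*pw ζ 12
      + 342*pw a 13*pw b 2*pw ζ 11 - 558*pw a 13*pw b 2*pw ζ 10 - 558*pw a 13*pw b 2*pw ζ 9 + 342*pw a 13*pw b 2*pw ζ 8
      + 432*pw a 13*pw b 2*pw ζ 7 + 342*pw a 13*pw b 2*pw ζ 6 - 558*pw a 13*pw b 2*pw ζ 5 - 558*pw a 13*pw b 2*pw ζ 4
      + 342*pw a 13*pw b 2*pw ζ 3 + 432*pw a 13*pw b 2*pw ζ 2 + 342*pw a 13*pw b 2*ζ - 558*pw a 13*pw b 2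
      + 4860*pw a 12*pw b 3*pw ζ 38 - 4860*pw a 12*pw b 3*pw ζ 37 + 4860*pw a 12*pw b 3*pw ζ 33 - 4860*pw a 12*pw b 3*pw ζ 32
      + 3690*pw a 12*pw b 3*pw ζ 28 - 1530*pw a 12*pw b 3*pw ζ 27 - 558*pw a 12*pw b 3*pw ζ 26 + 342*pw a 12*pw b 3*pw ζ 25
      + 432*pw a 12*pw b 3*pw ζ 24 + 342*pw a 12*pw b 3*pw ζ 23 - 558*pw a 12*pw b 3*pw ζ 22 - 558*pw a 12*pw b 3*pw ζ 21
      + 342*pw a 12*pw b 3*pw ζ 20 + 432*pw a 12*pw b 3*pw ζ 19 + 342*pw a 12*pw b 3*pw ζ 18 - 558*pw a 12*pw b 3*pw ζ 17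
      - 558*pw a 12*pw b 3*pw ζ 16 + 342*pw a 12*pw b 3*pw ζ 15 + 432*pw a 12*pw b 3*pw ζ 14 + 342*pw a 12*pw b 3*pw ζ 13
      - 558*pw a 12*pw b 3*pw ζ 12 - 558*pw a 12*pw b 3*pw ζ 11 + 342*pw a 12*pw b 3*pw ζ 10 + 432*pw a 12*pw b 3*pw ζ 9
      + 342*pw a 12*pw b 3*pw ζ 8 - 558*pw a 12*pw b 3*pw ζ 7 - 558*pw a 12*pw b 3*pw ζ 6 + 342*pw a 12*pw b 3*pw ζ 5
      + 432*pw a 12*pw b 3*pw ζ 4 + 342*pw a 12*pw b 3*pw ζ 3 - 558*pw a 12*pw b 3*pw ζ 2 - 558*pw a 12*pw b 3*ζ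
      + 342*pw a 12*pw b 3 - 8100*pw a 11*pw b 4*pw ζ 37 + 8100*pw a 11*pw b 4*pw ζ 36 - 8100*pw a 11*pw b 4*pw ζ 32
      + 8100*pw a 11*pw b 4*pw ζ 31 - 4860*pw a 11*pw b 4*pw ζ 27 + 1620*pw a 11*pw b 4*pw ζ 26 + 13500*pw a 10*pw b 5*pw ζ 36
      - 13500*pw a 10*pw b 5*pw ζ 35 + 13500*pw a 10*pw b 5*pw ζ 31 - 13500*pw a 10*pw b 5*pw ζ 30
      - 36*pw a 10*pw b 5*pw ζ 29 + 54*pw a 10*pw b 5*pw ζ 28 - 36*pw a 10*pw b 5*pw ζ 27 + 8109*pw a 10*pw b 5*pw ζ 26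
      - 2691*pw a 10*pw b 5*pw ζ 25 + 1584*pw a 10*pw b 5*pw ζ 24 + 594*pw a 10*pw b 5*pw ζ 23 + 1584*pw a 10*pw b 5*pw ζ 22
      - 1881*pw a 10*pw b 5*pw ζ 21 - 1881*pw a 10*pw b 5*pw ζ 20 + 1584*pw a 10*pw b 5*pw ζ 19 + 594*pw a 10*pw b 5*pw ζ 18
      + 1584*pw a 10*pw b 5*pw ζ 17 - 1881*pw a 10*pw b 5*pw ζ 16 - 1881*pw a 10*pw b 5*pw ζ 15 + 1584*pw a 10*pw b 5*pw ζ 14
      + 594*pw a 10*pw b 5*pw ζ 13 + 1584*pw a 10*pw b 5*pw ζ 12 - 1881*pw a 10*pw b 5*pw ζ 11 - 1881*pw a 10*pw b 5*pw ζ 10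
      + 1584*pw a 10*pw b 5*pw ζ 9 + 594*pw a 10*pw b 5*pw ζ 8 + 1584*pw a 10*pw b 5*pw ζ 7 - 1881*pw a 10*pw b 5*pw ζ 6
      - 1881*pw a 10*pw b 5*pw ζ 5 + 1584*pw a 10*pw b 5*pw ζ 4 + 594*pw a 10*pw b 5*pw ζ 3 + 1584*pw a 10*pw b 5*pw ζ 2
      - 1881*pw a 10*pw b 5*ζ - 1881*pw a 10*pw b 5 - 15660*pw a 9*pw b 6*pw ζ 35 + 15660*pw a 9*pw b 6*pw ζ 34
      - 15660*pw a 9*pw b 6*pw ζ 30 + 15660*pw a 9*pw b 6*pw ζ 29 + 432*pw a 9*pw b 6*pw ζ 28 - 648*pw a 9*pw b 6*pw ζ 27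
      + 432*pw a 9*pw b 6*pw ζ 26 - 7128*pw a 9*pw b 6*pw ζ 25 + 4212*pw a 9*pw b 6*pw ζ 24 - 2376*pw a 9*pw b 6*pw ζ 23
      - 2376*pw a 9*pw b 6*pw ζ 22 + 3564*pw a 9*pw b 6*pw ζ 21 - 2376*pw a 9*pw b 6*pw ζ 20 + 3564*pw a 9*pw b 6*pw ζ 19
      - 2376*pw a 9*pw b 6*pw ζ 18 - 2376*pw a 9*pw b 6*pw ζ 17 + 3564*pw a 9*pw b 6*pw ζ 16 - 2376*pw a 9*pw b 6*pw ζ 15
      + 3564*pw a 9*pw b 6*pw ζ 14 - 2376*pw a 9*pw b 6*pw ζ 13 - 2376*pw a 9*pw b 6*pw ζ 12 + 3564*pw a 9*pw b 6*pw ζ 11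
      - 2376*pw a 9*pw b 6*pw ζ 10 + 3564*pw a 9*pw b 6*pw ζ 9 - 2376*pw a 9*pw b 6*pw ζ 8 - 2376*pw a 9*pw b 6*pw ζ 7
      + 3564*pw a 9*pw b 6*pw ζ 6 - 2376*pw a 9*pw b 6*pw ζ 5 + 3564*pw a 9*pw b 6*pw ζ 4 - 2376*pw a 9*pw b 6*pw ζ 3
      - 2376*pw a 9*pw b 6*pw ζ 2 + 3564*pw a 9*pw b 6*ζ - 2376*pw a 9*pw b 6 + 11340*pw a 8*pw b 7*pw ζ 34
      - 11340*pw a 8*pw b 7*pw ζ 33 + 11340*pw a 8*pw b 7*pw ζ 29 - 11340*pw a 8*pw b 7*pw ζ 28 - 864*pw a 8*pw b 7*pw ζ 27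
      + 1296*pw a 8*pw b 7*pw ζ 26 - 864*pw a 8*pw b 7*pw ζ 25 + 3456*pw a 8*pw b 7*pw ζ 24 - 864*pw a 8*pw b 7*pw ζ 23
      + 4752*pw a 8*pw b 7*pw ζ 22 - 1188*pw a 8*pw b 7*pw ζ 21 - 1188*pw a 8*pw b 7*pw ζ 20 - 1188*pw a 8*pw b 7*pw ζ 19
      - 1188*pw a 8*pw b 7*pw ζ 18 + 4752*pw a 8*pw b 7*pw ζ 17 - 1188*pw a 8*pw b 7*pw ζ 16 - 1188*pw a 8*pw b 7*pw ζ 15
      - 1188*pw a 8*pw b 7*pw ζ 14 - 1188*pw a 8*pw b 7*pw ζ 13 + 4752*pw a 8*pw b 7*pw ζ 12 - 1188*pw a 8*pw b 7*pw ζ 11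
      - 1188*pw a 8*pw b 7*pw ζ 10 - 1188*pw a 8*pw b 7*pw ζ 9 - 1188*pw a 8*pw b 7*pw ζ 8 + 4752*pw a 8*pw b 7*pw ζ 7
      - 1188*pw a 8*pw b 7*pw ζ 6 - 1188*pw a 8*pw b 7*pw ζ 5 - 1188*pw a 8*pw b 7*pw ζ 4 - 1188*pw a 8*pw b 7*pw ζ 3
      + 4752*pw a 8*pw b 7*pw ζ 2 - 1188*pw a 8*pw b 7*ζ - 1188*pw a 8*pw b 7 - 3240*pw a 7*pw b 8*pw ζ 33
      + 3240*pw a 7*pw b 8*pw ζ 32 - 3240*pw a 7*pw b 8*pw ζ 28 + 3240*pw a 7*pw b 8*pw ζ 27 + 1296*pw a 7*pw b 8*pw ζ 26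
      - 1944*pw a 7*pw b 8*pw ζ 25 + 1296*pw a 7*pw b 8*pw ζ 24 + 1296*pw a 7*pw b 8*pw ζ 23 - 864*pw a 7*pw b 8*pw ζ 22
      - 1188*pw a 7*pw b 8*pw ζ 21 - 1188*pw a 7*pw b 8*pw ζ 20 + 4752*pw a 7*pw b 8*pw ζ 19 - 1188*pw a 7*pw b 8*pw ζ 18
      - 1188*pw a 7*pw b 8*pw ζ 17 - 1188*pw a 7*pw b 8*pw ζ 16 - 1188*pw a 7*pw b 8*pw ζ 15 + 4752*pw a 7*pw b 8*pw ζ 14
      - 1188*pw a 7*pw b 8*pw ζ 13 - 1188*pw a 7*pw b 8*pw ζ 12 - 1188*pw a 7*pw b 8*pw ζ 11 - 1188*pw a 7*pw b 8*pw ζ 10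
      + 4752*pw a 7*pw b 8*pw ζ 9 - 1188*pw a 7*pw b 8*pw ζ 8 - 1188*pw a 7*pw b 8*pw ζ 7 - 1188*pw a 7*pw b 8*pw ζ 6
      - 1188*pw a 7*pw b 8*pw ζ 5 + 4752*pw a 7*pw b 8*pw ζ 4 - 1188*pw a 7*pw b 8*pw ζ 3 - 1188*pw a 7*pw b 8*pw ζ 2
      - 1188*pw a 7*pw b 8*ζ - 1188*pw a 7*pw b 8 + 2700*pw a 6*pw b 9*pw ζ 32 - 2700*pw a 6*pw b 9*pw ζ 31
      + 2700*pw a 6*pw b 9*pw ζ 27 - 2700*pw a 6*pw b 9*pw ζ 26 - 2160*pw a 6*pw b 9*pw ζ 25 + 3240*pw a 6*pw b 9*pw ζ 24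
      - 2160*pw a 6*pw b 9*pw ζ 23 + 2160*pw a 6*pw b 9*pw ζ 22 + 1080*pw a 5*pw b 10*pw ζ 24 - 1620*pw a 5*pw b 10*pw ζ 23
      + 1080*pw a 5*pw b 10*pw ζ 22 - 270*pw a 5*pw b 10*pw ζ 21 - 270*pw a 5*pw b 10*pw ζ 20 + 2178*pw a 5*pw b 10*pw ζ 19
      - 3762*pw a 5*pw b 10*pw ζ 18 + 2178*pw a 5*pw b 10*pw ζ 17 - 297*pw a 5*pw b 10*pw ζ 16 - 297*pw a 5*pw b 10*pw ζ 15
      + 2178*pw a 5*pw b 10*pw ζ 14 - 3762*pw a 5*pw b 10*pw ζ 13 + 2178*pw a 5*pw b 10*pw ζ 12 - 297*pw a 5*pw b 10*pw ζ 11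
      - 297*pw a 5*pw b 10*pw ζ 10 + 2178*pw a 5*pw b 10*pw ζ 9 - 3762*pw a 5*pw b 10*pw ζ 8 + 2178*pw a 5*pw b 10*pw ζ 7
      - 297*pw a 5*pw b 10*pw ζ 6 - 297*pw a 5*pw b 10*pw ζ 5 + 2178*pw a 5*pw b 10*pw ζ 4 - 3762*pw a 5*pw b 10*pw ζ 3
      + 2178*pw a 5*pw b 10*pw ζ 2 - 297*pw a 5*pw b 10*ζ - 297*pw a 5*pw b 10 + 2160*pw a 4*pw b 11*pw ζ 30
      - 2160*pw a 4*pw b 11*pw ζ 29 + 2160*pw a 4*pw b 11*pw ζ 25 - 2160*pw a 4*pw b 11*pw ζ 24 - 864*pw a 4*pw b 11*pw ζ 23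
      + 1296*pw a 4*pw b 11*pw ζ 22 - 864*pw a 4*pw b 11*pw ζ 21 + 1296*pw a 4*pw b 11*pw ζ 20 - 774*pw a 4*pw b 11*pw ζ 19
      + 216*pw a 4*pw b 11*pw ζ 18 + 216*pw a 4*pw b 11*pw ζ 17 - 774*pw a 4*pw b 11*pw ζ 16 + 1116*pw a 4*pw b 11*pw ζ 15
      - 774*pw a 4*pw b 11*pw ζ 14 + 216*pw a 4*pw b 11*pw ζ 13 + 216*pw a 4*pw b 11*pw ζ 12 - 774*pw a 4*pw b 11*pw ζ 11
      + 1116*pw a 4*pw b 11*pw ζ 10 - 774*pw a 4*pw b 11*pw ζ 9 + 216*pw a 4*pw b 11*pw ζ 8 + 216*pw a 4*pw b 11*pw ζ 7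
      - 774*pw a 4*pw b 11*pw ζ 6 + 1116*pw a 4*pw b 11*pw ζ 5 - 774*pw a 4*pw b 11*pw ζ 4 + 216*pw a 4*pw b 11*pw ζ 3
      + 216*pw a 4*pw b 11*pw ζ 2 - 774*pw a 4*pw b 11*ζ + 1116*pw a 4*pw b 11 - 540*pw a 3*pw b 12*pw ζ 29
      + 540*pw a 3*pw b 12*pw ζ 28 - 540*pw a 3*pw b 12*pw ζ 24 + 540*pw a 3*pw b 12*pw ζ 23 - 432*pw a 3*pw b 12*pw ζ 22
      + 648*pw a 3*pw b 12*pw ζ 21 - 432*pw a 3*pw b 12*pw ζ 20 - 342*pw a 3*pw b 12*pw ζ 19 + 558*pw a 3*pw b 12*pw ζ 18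
      - 432*pw a 3*pw b 12*pw ζ 17 + 558*pw a 3*pw b 12*pw ζ 16 - 342*pw a 3*pw b 12*pw ζ 15 - 342*pw a 3*pw b 12*pw ζ 14
      + 558*pw a 3*pw b 12*pw ζ 13 - 432*pw a 3*pw b 12*pw ζ 12 + 558*pw a 3*pw b 12*pw ζ 11 - 342*pw a 3*pw b 12*pw ζ 10
      - 342*pw a 3*pw b 12*pw ζ 9 + 558*pw a 3*pw b 12*pw ζ 8 - 432*pw a 3*pw b 12*pw ζ 7 + 558*pw a 3*pw b 12*pw ζ 6
      - 342*pw a 3*pw b 12*pw ζ 5 - 342*pw a 3*pw b 12*pw ζ 4 + 558*pw a 3*pw b 12*pw ζ 3 - 432*pw a 3*pw b 12*pw ζ 2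
      + 558*pw a 3*pw b 12*ζ - 342*pw a 3*pw b 12 + 540*pw a 2*pw b 13*pw ζ 28 - 540*pw a 2*pw b 13*pw ζ 27
      + 540*pw a 2*pw b 13*pw ζ 23 - 540*pw a 2*pw b 13*pw ζ 22 - 432*pw a 2*pw b 13*pw ζ 21 + 648*pw a 2*pw b 13*pw ζ 20
      - 432*pw a 2*pw b 13*pw ζ 19 + 558*pw a 2*pw b 13*pw ζ 18 - 342*pw a 2*pw b 13*pw ζ 17 - 342*pw a 2*pw b 13*pw ζ 16
      + 558*pw a 2*pw b 13*pw ζ 15 - 432*pw a 2*pw b 13*pw ζ 14 + 558*pw a 2*pw b 13*pw ζ 13 - 342*pw a 2*pw b 13*pw ζ 12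
      - 342*pw a 2*pw b 13*pw ζ 11 + 558*pw a 2*pw b 13*pw ζ 10 - 432*pw a 2*pw b 13*pw ζ 9 + 558*pw a 2*pw b 13*pw ζ 8
      - 342*pw a 2*pw b 13*pw ζ 7 - 342*pw a 2*pw b 13*pw ζ 6 + 558*pw a 2*pw b 13*pw ζ 5 - 432*pw a 2*pw b 13*pw ζ 4
      + 558*pw a 2*pw b 13*pw ζ 3 - 342*pw a 2*pw b 13*pw ζ 2 - 342*pw a 2*pw b 13*ζ + 558*pw a 2*pw b 13
      - 36*pw b 15*pw ζ 19 + 54*pw b 15*pw ζ 18 - 36*pw b 15*pw ζ 17 + 9*pw b 15*pw ζ 16 + 9*pw b 15*pw ζ 15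
      - 36*pw b 15*pw ζ 14 + 54*pw b 15*pw ζ 13 - 36*pw b 15*pw ζ 12 + 9*pw b 15*pw ζ 11 + 9*pw b 15*pw ζ 10
      - 36*pw b 15*pw ζ 9 + 54*pw b 15*pw ζ 8 - 36*pw b 15*pw ζ 7 + 9*pw b 15*pw ζ 6 + 9*pw b 15*pw ζ 5
      - 36*pw b 15*pw ζ 4 + 54*pw b 15*pw ζ 3 - 36*pw b 15*pw ζ 2 + 9*pw b 15*ζ + 9*pw b 15
    ) * hζ

/-- tangent at `R(v)`: `mu * (2 Y_R) = 3 X_R^2 + 27 H` (times 25). -/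
theorem dbl_slope {ζ : K} (hζ : IsZ5 ζ) (a b : K) :
    mu5 ζ a b * (2 * yr5 ζ a b) = 3 * xr5 ζ a b ^ 2 + 675 * kH a b := by
  unfold IsZ5 at hζ
  unfold mu5 xr5 yr5 kH
  linear_combination (norm := (simp only [pw]; ring1))
    (
      -3888*pw a 20*pw ζ 4 + 14256*pw a 20*pw ζ 3 + 2592*pw a 20*pw ζ 2 - 3888*pw a 20*ζ - 25272*pw a 20
      + 51840*pw a 15*pw b 5*pw ζ 6 + 64800*pw a 15*pw b 5*pw ζ 5 - 53136*pw a 15*pw b 5*pw ζ 4 + 229392*pw a 15*pw b 5*pw ζ 3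
      - 82296*pw a 15*pw b 5*pw ζ 2 - 173016*pw a 15*pw b 5*ζ - 264384*pw a 15*pw b 5 + 531360*pw a 10*pw b 10*pw ζ 6
      + 745200*pw a 10*pw b 10*pw ζ 5 - 9072*pw a 10*pw b 10*pw ζ 4 + 711504*pw a 10*pw b 10*pw ζ 3
      - 1220832*pw a 10*pw b 10*pw ζ 2 - 1460592*pw a 10*pw b 10*ζ + 184032*pw a 10*pw b 10 - 479520*pw a 5*pw b 15*pw ζ 6
      + 291600*pw a 5*pw b 15*pw ζ 5 + 1122336*pw a 5*pw b 15*pw ζ 4 - 870912*pw a 5*pw b 15*pw ζ 3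
      + 117936*pw a 5*pw b 15*pw ζ 2 - 219024*pw a 5*pw b 15*ζ + 86184*pw a 5*pw b 15 + 38880*pw b 20*pw ζ 6
      - 32400*pw b 20*pw ζ 5 - 101088*pw b 20*pw ζ 4 + 72576*pw b 20*pw ζ 3 - 648*pw b 20*pw ζ 2
      + 31752*pw b 20*ζ - 9072*pw b 20
    ) * hζ

/-- `X_{R,ζ^2} = mu^2 - 2 X_R` (times 25): the conjugate point is `2 R`. -/
theorem dbl_X {ζ : K} (hζ : IsZ5 ζ) (a b : K) :
    5 * xr5 (ζ^2) a b = mu5 ζ a b ^ 2 - 10 * xr5 ζ a b := by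
  unfold IsZ5 at hζ
  unfold mu5 xr5
  linear_combination (norm := (simp only [pw]; ring1))
    (
      -180*pw a 10*pw ζ 4 + 180*pw a 10*pw ζ 3 - 576*pw a 10*pw ζ 2 - 288*pw a 10*ζ - 1836*pw a 10
      - 1980*pw a 5*pw b 5*pw ζ 4 + 1980*pw a 5*pw b 5*pw ζ 3 + 864*pw a 5*pw b 5*pw ζ 2 - 1368*pw a 5*pw b 5*ζ
      - 3096*pw a 5*pw b 5 + 180*pw b 10*pw ζ 4 - 180*pw b 10*pw ζ 3 - 324*pw b 10*pw ζ 2 + 1188*pw b 10*ζ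
      - 864*pw b 10
    ) * hζ

/-- `Y_{R,ζ^2} = -(mu * (X_{R,ζ^2} - X_R) + Y_R)` (times 25). -/
theorem dbl_Y {ζ : K} (hζ : IsZ5 ζ) (a b : K) :
    5 * yr5 (ζ^2) a b = -(mu5 ζ a b * (xr5 (ζ^2) a b - xr5 ζ a b) + 5 * yr5 ζ a b) := by
  unfold IsZ5 at hζ
  unfold mu5 xr5 yr5
  linear_combination (norm := (simp only [pw]; ring1))
    (
      864*pw a 15*pw ζ 7 - 216*pw a 15*pw ζ 6 + 864*pw a 15*pw ζ 5 - 1836*pw a 15*pw ζ 4 - 540*pw a 15*pw ζ 3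
      + 540*pw a 15*pw ζ 2 + 324*pw a 15*ζ - 5400*pw a 10*pw b 5*pw ζ 10 + 5400*pw a 10*pw b 5*pw ζ 9
      - 8100*pw a 10*pw b 5*pw ζ 8 + 16956*pw a 10*pw b 5*pw ζ 7 - 864*pw a 10*pw b 5*pw ζ 6 + 3456*pw a 10*pw b 5*pw ζ 5
      - 15444*pw a 10*pw b 5*pw ζ 4 - 18360*pw a 10*pw b 5*pw ζ 3 + 10260*pw a 10*pw b 5*pw ζ 2 + 12096*pw a 10*pw b 5*ζ
      - 59400*pw a 5*pw b 10*pw ζ 10 + 59400*pw a 5*pw b 10*pw ζ 9 - 89100*pw a 5*pw b 10*pw ζ 8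
      + 81108*pw a 5*pw b 10*pw ζ 7 + 16848*pw a 5*pw b 10*pw ζ 6 - 67392*pw a 5*pw b 10*pw ζ 5 + 54108*pw a 5*pw b 10*pw ζ 4
      - 136080*pw a 5*pw b 10*pw ζ 3 + 46980*pw a 5*pw b 10*pw ζ 2 + 93528*pw a 5*pw b 10*ζ + 5400*pw b 15*pw ζ 10
      - 5400*pw b 15*pw ζ 9 + 8100*pw b 15*pw ζ 8 - 7452*pw b 15*pw ζ 7 - 1512*pw b 15*pw ζ 6 + 6048*pw b 15*pw ζ 5
      - 4752*pw b 15*pw ζ 4 + 12420*pw b 15*pw ζ 3 - 4320*pw b 15*pw ζ 2 - 8532*pw b 15*ζ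
    ) * hζ

/-- `X_Q - X_R` divides `f^2`: so `X_Q ≠ X_R` when `f ≠ 0`. -/
theorem XQ_sub_XR_mul {ζ : K} (hζ : IsZ5 ζ) (a b : K) :
    (5 * XQ a b - xr5 ζ a b) * nvL ζ a b = 180 * kf a b ^ 2 := by
  unfold IsZ5 at hζ
  unfold XQ xr5 nvL kf
  linear_combination (norm := (simp only [pw]; ring1))
    (
      36*pw a 22*pw b 2*pw ζ 3 - 36*pw a 22*pw b 2*ζ + 144*pw a 22*pw b 2 + 180*pw a 21*pw b 3*pw ζ 3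
      - 180*pw a 21*pw b 3*ζ + 540*pw a 21*pw b 3 + 360*pw a 20*pw b 4*pw ζ 3 - 360*pw a 20*pw b 4*ζ
      + 900*pw a 20*pw b 4 + 360*pw a 19*pw b 5*pw ζ 3 - 360*pw a 19*pw b 5*ζ + 900*pw a 19*pw b 5
      - 108*pw a 17*pw b 7*pw ζ 3 + 108*pw a 17*pw b 7*ζ + 828*pw a 17*pw b 7 + 1620*pw a 16*pw b 8*pw ζ 3
      - 1620*pw a 16*pw b 8*ζ + 5760*pw a 16*pw b 8 + 4140*pw a 15*pw b 9*pw ζ 3 - 4140*pw a 15*pw b 9*ζ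
      + 9900*pw a 15*pw b 9 + 4140*pw a 14*pw b 10*pw ζ 3 - 4140*pw a 14*pw b 10*ζ + 9900*pw a 14*pw b 10
      - 5616*pw a 12*pw b 12*pw ζ 3 + 5616*pw a 12*pw b 12*ζ - 8424*pw a 12*pw b 12 - 4140*pw a 11*pw b 13*pw ζ 3
      + 4140*pw a 11*pw b 13*ζ - 2520*pw a 11*pw b 13 + 1620*pw a 10*pw b 14*pw ζ 3 - 1620*pw a 10*pw b 14*ζ
      - 900*pw a 10*pw b 14 + 1620*pw a 9*pw b 15*pw ζ 3 - 1620*pw a 9*pw b 15*ζ - 900*pw a 9*pw b 15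
      + 108*pw a 7*pw b 17*pw ζ 3 - 108*pw a 7*pw b 17*ζ + 1152*pw a 7*pw b 17 + 360*pw a 6*pw b 18*pw ζ 3
      - 360*pw a 6*pw b 18*ζ + 180*pw a 6*pw b 18 - 180*pw a 5*pw b 19*pw ζ 3 + 180*pw a 5*pw b 19*ζ
      - 180*pw a 4*pw b 20*pw ζ 3 + 180*pw a 4*pw b 20*ζ + 36*pw a 2*pw b 22*pw ζ 3 - 36*pw a 2*pw b 22*ζ
      - 36*pw a 2*pw b 22
    ) * hζ

end Fermat.Agent.S52K
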