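import Mathlib
import Fermat.Agent.S52K.IdZ

/-!
# Programme K (S52), brick B0: generator S' = [[-p, r],[r, p]] (p = ζ-ζ^4, r = ζ^2-ζ^3; S = S'/sqrt5): definitions, reduced monomial forms

GENERATED by helper94's exact polynomial toolkit (python, Q(zeta5) arithmetic); every identity below was
verified symbolically before emission and is re-proved here by `ring` / `linear_combination`.
-/

set_option autoImplicit false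
set_option maxHeartbeats 4000000
set_option maxRecDepth 100000

namespace Fermat.Agent.S52K

variable {K : Type*} [CommRing K]

/-- `p = ζ - ζ^4`. -/
def sp (ζ : K) : K := ζ - ζ^4
/-- `r = ζ^2 - ζ^3`. -/
def sr (ζ : K) : K := ζ^2 - ζ^3
/-- first coordinate of `S' v`. -/
def S1 (ζ a b : K) : K := -(sp ζ) * a + sr ζ * b
/-- second coordinate of `S' v`. -/
def S2 (ζ a b : K) : K := sr ζ * a + sp ζ * b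

/-- reduced form (ζ-degree ≤ 3) of `S1^5 * S2^0`. -/
def SP10 (ζ a b : K) : K :=
  -5*pw a 5*pw ζ 3 - 15*pw a 5*pw ζ 2 - 20*pw a 5*ζ - 10*pw a 5 + 50*pw a 4*b*pw ζ 2 + 50*pw a 4*b*ζ
  + 25*pw a 4*b - 50*pw a 3*pw b 2*pw ζ 3 - 50*pw a 3*pw b 2*pw ζ 2 - 100*pw a 3*pw b 2*ζ - 50*pw a 3*pw b 2
  - 50*pw a 2*pw b 3*pw ζ 3 + 50*pw a 2*pw b 3*pw ζ 2 - 50*a*pw b 4*pw ζ 3 - 50*a*pw b 4*ζ - 25*a*pw b 4
  - 15*pw b 5*pw ζ 3 + 5*pw b 5*pw ζ 2 - 10*pw b 5*ζ - 5*pw b 5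

/-- reduced form (ζ-degree ≤ 3) of `S1^0 * S2^5`. -/
def SP01 (ζ a b : K) : K :=
  -15*pw a 5*pw ζ 3 + 5*pw a 5*pw ζ 2 - 10*pw a 5*ζ - 5*pw a 5 + 50*pw a 4*b*pw ζ 3 + 50*pw a 4*b*ζ
  + 25*pw a 4*b - 50*pw a 3*pw b 2*pw ζ 3 + 50*pw a 3*pw b 2*pw ζ 2 + 50*pw a 2*pw b 3*pw ζ 3 + 50*pw a 2*pw b 3*pw ζ 2
  + 100*pw a 2*pw b 3*ζ + 50*pw a 2*pw b 3 + 50*a*pw b 4*pw ζ 2 + 50*a*pw b 4*ζ + 25*a*pw b 4 + 5*pw b 5*pw ζ 3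
  + 15*pw b 5*pw ζ 2 + 20*pw b 5*ζ + 10*pw b 5

/-- reduced form (ζ-degree ≤ 3) of `S1^10 * S2^0`. -/
def SP20 (ζ a b : K) : K :=
  275*pw a 10*pw ζ 3 + 275*pw a 10*pw ζ 2 - 175*pw a 10 - 1750*pw a 9*b*pw ζ 3 - 1750*pw a 9*b*pw ζ 2
  + 1000*pw a 9*b + 4500*pw a 8*pw b 2*pw ζ 3 + 4500*pw a 8*pw b 2*pw ζ 2 - 3375*pw a 8*pw b 2 - 9000*pw a 7*pw b 3*pw ζ 3
  - 9000*pw a 7*pw b 3*pw ζ 2 + 3000*pw a 7*pw b 3 + 5250*pw a 6*pw b 4*pw ζ 3 + 5250*pw a 6*pw b 4*pw ζ 2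
  - 10500*pw a 6*pw b 4 - 12600*pw a 5*pw b 5*pw ζ 3 - 12600*pw a 5*pw b 5*pw ζ 2 - 6300*pw a 5*pw b 5
  - 5250*pw a 4*pw b 6*pw ζ 3 - 5250*pw a 4*pw b 6*pw ζ 2 - 15750*pw a 4*pw b 6 - 9000*pw a 3*pw b 7*pw ζ 3
  - 9000*pw a 3*pw b 7*pw ζ 2 - 12000*pw a 3*pw b 7 - 4500*pw a 2*pw b 8*pw ζ 3 - 4500*pw a 2*pw b 8*pw ζ 2
  - 7875*pw a 2*pw b 8 - 1750*a*pw b 9*pw ζ 3 - 1750*a*pw b 9*pw ζ 2 - 2750*a*pw b 9 - 275*pw b 10*pw ζ 3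
  - 275*pw b 10*pw ζ 2 - 450*pw b 10

/-- reduced form (ζ-degree ≤ 3) of `S1^5 * S2^5`. -/
def SP11 (ζ a b : K) : K :=
  -50*pw a 10*pw ζ 3 - 50*pw a 10*pw ζ 2 - 25*pw a 10 - 250*pw a 9*b*pw ζ 3 - 250*pw a 9*b*pw ζ 2
  - 125*pw a 9*b - 250*pw a 8*pw b 2*pw ζ 3 - 250*pw a 8*pw b 2*pw ζ 2 - 125*pw a 8*pw b 2 + 500*pw a 7*pw b 3*pw ζ 3
  + 500*pw a 7*pw b 3*pw ζ 2 + 250*pw a 7*pw b 3 + 750*pw a 6*pw b 4*pw ζ 3 + 750*pw a 6*pw b 4*pw ζ 2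
  + 375*pw a 6*pw b 4 - 550*pw a 5*pw b 5*pw ζ 3 - 550*pw a 5*pw b 5*pw ζ 2 - 275*pw a 5*pw b 5 - 750*pw a 4*pw b 6*pw ζ 3
  - 750*pw a 4*pw b 6*pw ζ 2 - 375*pw a 4*pw b 6 + 500*pw a 3*pw b 7*pw ζ 3 + 500*pw a 3*pw b 7*pw ζ 2
  + 250*pw a 3*pw b 7 + 250*pw a 2*pw b 8*pw ζ 3 + 250*pw a 2*pw b 8*pw ζ 2 + 125*pw a 2*pw b 8 - 250*a*pw b 9*pw ζ 3
  - 250*a*pw b 9*pw ζ 2 - 125*a*pw b 9 + 50*pw b 10*pw ζ 3 + 50*pw b 10*pw ζ 2 + 25*pw b 10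

/-- reduced form (ζ-degree ≤ 3) of `S1^0 * S2^10`. -/
def SP02 (ζ a b : K) : K :=
  -275*pw a 10*pw ζ 3 - 275*pw a 10*pw ζ 2 - 450*pw a 10 + 1750*pw a 9*b*pw ζ 3 + 1750*pw a 9*b*pw ζ 2
  + 2750*pw a 9*b - 4500*pw a 8*pw b 2*pw ζ 3 - 4500*pw a 8*pw b 2*pw ζ 2 - 7875*pw a 8*pw b 2 + 9000*pw a 7*pw b 3*pw ζ 3
  + 9000*pw a 7*pw b 3*pw ζ 2 + 12000*pw a 7*pw b 3 - 5250*pw a 6*pw b 4*pw ζ 3 - 5250*pw a 6*pw b 4*pw ζ 2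
  - 15750*pw a 6*pw b 4 + 12600*pw a 5*pw b 5*pw ζ 3 + 12600*pw a 5*pw b 5*pw ζ 2 + 6300*pw a 5*pw b 5
  + 5250*pw a 4*pw b 6*pw ζ 3 + 5250*pw a 4*pw b 6*pw ζ 2 - 10500*pw a 4*pw b 6 + 9000*pw a 3*pw b 7*pw ζ 3
  + 9000*pw a 3*pw b 7*pw ζ 2 - 3000*pw a 3*pw b 7 + 4500*pw a 2*pw b 8*pw ζ 3 + 4500*pw a 2*pw b 8*pw ζ 2
  - 3375*pw a 2*pw b 8 + 1750*a*pw b 9*pw ζ 3 + 1750*a*pw b 9*pw ζ 2 - 1000*a*pw b 9 + 275*pw b 10*pw ζ 3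
  + 275*pw b 10*pw ζ 2 - 175*pw b 10

/-- reduced form (ζ-degree ≤ 3) of `S1^15 * S2^0`. -/
def SP30 (ζ a b : K) : K :=
  2250*pw a 15*pw ζ 3 + 9500*pw a 15*pw ζ 2 + 11750*pw a 15*ζ + 5875*pw a 15 - 20625*pw a 14*b*pw ζ 3
  - 88125*pw a 14*b*pw ζ 2 - 108750*pw a 14*b*ζ - 54375*pw a 14*b + 91875*pw a 13*pw b 2*pw ζ 3 + 380625*pw a 13*pw b 2*pw ζ 2
  + 472500*pw a 13*pw b 2*ζ + 236250*pw a 13*pw b 2 - 227500*pw a 12*pw b 3*pw ζ 3 - 1023750*pw a 12*pw b 3*pw ζ 2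
  - 1251250*pw a 12*pw b 3*ζ - 625625*pw a 12*pw b 3 + 511875*pw a 11*pw b 4*pw ζ 3 + 1876875*pw a 11*pw b 4*pw ζ 2
  + 2388750*pw a 11*pw b 4*ζ + 1194375*pw a 11*pw b 4 - 375375*pw a 10*pw b 5*pw ζ 3 - 2627625*pw a 10*pw b 5*pw ζ 2
  - 3003000*pw a 10*pw b 5*ζ - 1501500*pw a 10*pw b 5 + 1251250*pw a 9*pw b 6*pw ζ 3 + 2502500*pw a 9*pw b 6*pw ζ 2
  + 3753750*pw a 9*pw b 6*ζ + 1876875*pw a 9*pw b 6 + 804375*pw a 8*pw b 7*pw ζ 3 - 2413125*pw a 8*pw b 7*pw ζ 2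
  - 1608750*pw a 8*pw b 7*ζ - 804375*pw a 8*pw b 7 + 2413125*pw a 7*pw b 8*pw ζ 3 + 804375*pw a 7*pw b 8*pw ζ 2
  + 3217500*pw a 7*pw b 8*ζ + 1608750*pw a 7*pw b 8 + 2502500*pw a 6*pw b 9*pw ζ 3 - 1251250*pw a 6*pw b 9*pw ζ 2
  + 1251250*pw a 6*pw b 9*ζ + 625625*pw a 6*pw b 9 + 2627625*pw a 5*pw b 10*pw ζ 3 - 375375*pw a 5*pw b 10*pw ζ 2
  + 2252250*pw a 5*pw b 10*ζ + 1126125*pw a 5*pw b 10 + 1876875*pw a 4*pw b 11*pw ζ 3 - 511875*pw a 4*pw b 11*pw ζ 2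
  + 1365000*pw a 4*pw b 11*ζ + 682500*pw a 4*pw b 11 + 1023750*pw a 3*pw b 12*pw ζ 3 - 227500*pw a 3*pw b 12*pw ζ 2
  + 796250*pw a 3*pw b 12*ζ + 398125*pw a 3*pw b 12 + 380625*pw a 2*pw b 13*pw ζ 3 - 91875*pw a 2*pw b 13*pw ζ 2
  + 288750*pw a 2*pw b 13*ζ + 144375*pw a 2*pw b 13 + 88125*a*pw b 14*pw ζ 3 - 20625*a*pw b 14*pw ζ 2
  + 67500*a*pw b 14*ζ + 33750*a*pw b 14 + 9500*pw b 15*pw ζ 3 - 2250*pw b 15*pw ζ 2 + 7250*pw b 15*ζ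
  + 3625*pw b 15

/-- reduced form (ζ-degree ≤ 3) of `S1^10 * S2^5`. -/
def SP21 (ζ a b : K) : K :=
  -125*pw a 15*pw ζ 3 - 875*pw a 15*pw ζ 2 - 1000*pw a 15*ζ - 500*pw a 15 + 625*pw a 14*b*pw ζ 3
  - 1875*pw a 14*b*pw ζ 2 - 1250*pw a 14*b*ζ - 625*pw a 14*b + 6875*pw a 13*pw b 2*pw ζ 3 + 4375*pw a 13*pw b 2*pw ζ 2
  + 11250*pw a 13*pw b 2*ζ + 5625*pw a 13*pw b 2 + 17500*pw a 12*pw b 3*pw ζ 3 + 3750*pw a 12*pw b 3*pw ζ 2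
  + 21250*pw a 12*pw b 3*ζ + 10625*pw a 12*pw b 3 + 16875*pw a 11*pw b 4*pw ζ 3 - 25625*pw a 11*pw b 4*pw ζ 2
  - 8750*pw a 11*pw b 4*ζ - 4375*pw a 11*pw b 4 - 500*pw a 10*pw b 5*pw ζ 3 - 9750*pw a 10*pw b 5*pw ζ 2
  - 10250*pw a 10*pw b 5*ζ - 5125*pw a 10*pw b 5 - 27500*pw a 9*pw b 6*pw ζ 3 + 51250*pw a 9*pw b 6*pw ζ 2
  + 23750*pw a 9*pw b 6*ζ + 11875*pw a 9*pw b 6 - 43125*pw a 8*pw b 7*pw ζ 3 - 1875*pw a 8*pw b 7*pw ζ 2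
  - 45000*pw a 8*pw b 7*ζ - 22500*pw a 8*pw b 7 + 1875*pw a 7*pw b 8*pw ζ 3 - 43125*pw a 7*pw b 8*pw ζ 2
  - 41250*pw a 7*pw b 8*ζ - 20625*pw a 7*pw b 8 + 51250*pw a 6*pw b 9*pw ζ 3 + 27500*pw a 6*pw b 9*pw ζ 2
  + 78750*pw a 6*pw b 9*ζ + 39375*pw a 6*pw b 9 + 9750*pw a 5*pw b 10*pw ζ 3 - 500*pw a 5*pw b 10*pw ζ 2
  + 9250*pw a 5*pw b 10*ζ + 4625*pw a 5*pw b 10 - 25625*pw a 4*pw b 11*pw ζ 3 - 16875*pw a 4*pw b 11*pw ζ 2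
  - 42500*pw a 4*pw b 11*ζ - 21250*pw a 4*pw b 11 - 3750*pw a 3*pw b 12*pw ζ 3 + 17500*pw a 3*pw b 12*pw ζ 2
  + 13750*pw a 3*pw b 12*ζ + 6875*pw a 3*pw b 12 + 4375*pw a 2*pw b 13*pw ζ 3 - 6875*pw a 2*pw b 13*pw ζ 2
  - 2500*pw a 2*pw b 13*ζ - 1250*pw a 2*pw b 13 + 1875*a*pw b 14*pw ζ 3 + 625*a*pw b 14*pw ζ 2 + 2500*a*pw b 14*ζ
  + 1250*a*pw b 14 - 875*pw b 15*pw ζ 3 + 125*pw b 15*pw ζ 2 - 750*pw b 15*ζ - 375*pw b 15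

/-- reduced form (ζ-degree ≤ 3) of `S1^5 * S2^10`. -/
def SP12 (ζ a b : K) : K :=
  875*pw a 15*pw ζ 3 - 125*pw a 15*pw ζ 2 + 750*pw a 15*ζ + 375*pw a 15 + 1875*pw a 14*b*pw ζ 3 + 625*pw a 14*b*pw ζ 2
  + 2500*pw a 14*b*ζ + 1250*pw a 14*b - 4375*pw a 13*pw b 2*pw ζ 3 + 6875*pw a 13*pw b 2*pw ζ 2 + 2500*pw a 13*pw b 2*ζ
  + 1250*pw a 13*pw b 2 - 3750*pw a 12*pw b 3*pw ζ 3 + 17500*pw a 12*pw b 3*pw ζ 2 + 13750*pw a 12*pw b 3*ζ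
  + 6875*pw a 12*pw b 3 + 25625*pw a 11*pw b 4*pw ζ 3 + 16875*pw a 11*pw b 4*pw ζ 2 + 42500*pw a 11*pw b 4*ζ
  + 21250*pw a 11*pw b 4 + 9750*pw a 10*pw b 5*pw ζ 3 - 500*pw a 10*pw b 5*pw ζ 2 + 9250*pw a 10*pw b 5*ζ
  + 4625*pw a 10*pw b 5 - 51250*pw a 9*pw b 6*pw ζ 3 - 27500*pw a 9*pw b 6*pw ζ 2 - 78750*pw a 9*pw b 6*ζ
  - 39375*pw a 9*pw b 6 + 1875*pw a 8*pw b 7*pw ζ 3 - 43125*pw a 8*pw b 7*pw ζ 2 - 41250*pw a 8*pw b 7*ζ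
  - 20625*pw a 8*pw b 7 + 43125*pw a 7*pw b 8*pw ζ 3 + 1875*pw a 7*pw b 8*pw ζ 2 + 45000*pw a 7*pw b 8*ζ
  + 22500*pw a 7*pw b 8 - 27500*pw a 6*pw b 9*pw ζ 3 + 51250*pw a 6*pw b 9*pw ζ 2 + 23750*pw a 6*pw b 9*ζ
  + 11875*pw a 6*pw b 9 + 500*pw a 5*pw b 10*pw ζ 3 + 9750*pw a 5*pw b 10*pw ζ 2 + 10250*pw a 5*pw b 10*ζ
  + 5125*pw a 5*pw b 10 + 16875*pw a 4*pw b 11*pw ζ 3 - 25625*pw a 4*pw b 11*pw ζ 2 - 8750*pw a 4*pw b 11*ζ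
  - 4375*pw a 4*pw b 11 - 17500*pw a 3*pw b 12*pw ζ 3 - 3750*pw a 3*pw b 12*pw ζ 2 - 21250*pw a 3*pw b 12*ζ
  - 10625*pw a 3*pw b 12 + 6875*pw a 2*pw b 13*pw ζ 3 + 4375*pw a 2*pw b 13*pw ζ 2 + 11250*pw a 2*pw b 13*ζ
  + 5625*pw a 2*pw b 13 - 625*a*pw b 14*pw ζ 3 + 1875*a*pw b 14*pw ζ 2 + 1250*a*pw b 14*ζ + 625*a*pw b 14
  - 125*pw b 15*pw ζ 3 - 875*pw b 15*pw ζ 2 - 1000*pw b 15*ζ - 500*pw b 15

/-- reduced form (ζ-degree ≤ 3) of `S1^0 * S2^15`. -/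
def SP03 (ζ a b : K) : K :=
  9500*pw a 15*pw ζ 3 - 2250*pw a 15*pw ζ 2 + 7250*pw a 15*ζ + 3625*pw a 15 - 88125*pw a 14*b*pw ζ 3
  + 20625*pw a 14*b*pw ζ 2 - 67500*pw a 14*b*ζ - 33750*pw a 14*b + 380625*pw a 13*pw b 2*pw ζ 3 - 91875*pw a 13*pw b 2*pw ζ 2
  + 288750*pw a 13*pw b 2*ζ + 144375*pw a 13*pw b 2 - 1023750*pw a 12*pw b 3*pw ζ 3 + 227500*pw a 12*pw b 3*pw ζ 2
  - 796250*pw a 12*pw b 3*ζ - 398125*pw a 12*pw b 3 + 1876875*pw a 11*pw b 4*pw ζ 3 - 511875*pw a 11*pw b 4*pw ζ 2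
  + 1365000*pw a 11*pw b 4*ζ + 682500*pw a 11*pw b 4 - 2627625*pw a 10*pw b 5*pw ζ 3 + 375375*pw a 10*pw b 5*pw ζ 2
  - 2252250*pw a 10*pw b 5*ζ - 1126125*pw a 10*pw b 5 + 2502500*pw a 9*pw b 6*pw ζ 3 - 1251250*pw a 9*pw b 6*pw ζ 2
  + 1251250*pw a 9*pw b 6*ζ + 625625*pw a 9*pw b 6 - 2413125*pw a 8*pw b 7*pw ζ 3 - 804375*pw a 8*pw b 7*pw ζ 2
  - 3217500*pw a 8*pw b 7*ζ - 1608750*pw a 8*pw b 7 + 804375*pw a 7*pw b 8*pw ζ 3 - 2413125*pw a 7*pw b 8*pw ζ 2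
  - 1608750*pw a 7*pw b 8*ζ - 804375*pw a 7*pw b 8 - 1251250*pw a 6*pw b 9*pw ζ 3 - 2502500*pw a 6*pw b 9*pw ζ 2
  - 3753750*pw a 6*pw b 9*ζ - 1876875*pw a 6*pw b 9 - 375375*pw a 5*pw b 10*pw ζ 3 - 2627625*pw a 5*pw b 10*pw ζ 2
  - 3003000*pw a 5*pw b 10*ζ - 1501500*pw a 5*pw b 10 - 511875*pw a 4*pw b 11*pw ζ 3 - 1876875*pw a 4*pw b 11*pw ζ 2
  - 2388750*pw a 4*pw b 11*ζ - 1194375*pw a 4*pw b 11 - 227500*pw a 3*pw b 12*pw ζ 3 - 1023750*pw a 3*pw b 12*pw ζ 2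
  - 1251250*pw a 3*pw b 12*ζ - 625625*pw a 3*pw b 12 - 91875*pw a 2*pw b 13*pw ζ 3 - 380625*pw a 2*pw b 13*pw ζ 2
  - 472500*pw a 2*pw b 13*ζ - 236250*pw a 2*pw b 13 - 20625*a*pw b 14*pw ζ 3 - 88125*a*pw b 14*pw ζ 2
  - 108750*a*pw b 14*ζ - 54375*a*pw b 14 - 2250*pw b 15*pw ζ 3 - 9500*pw b 15*pw ζ 2 - 11750*pw b 15*ζ
  - 5875*pw b 15

/-- reduced form (ζ-degree ≤ 3) of `S1^20 * S2^0`. -/
def SP40 (ζ a b : K) : K :=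
  -171875*pw a 20*pw ζ 3 - 171875*pw a 20*pw ζ 2 + 106250*pw a 20 + 2125000*pw a 19*b*pw ζ 3 + 2125000*pw a 19*b*pw ζ 2
  - 1312500*pw a 19*b - 12468750*pw a 18*pw b 2*pw ζ 3 - 12468750*pw a 18*pw b 2*pw ζ 2 + 7718750*pw a 18*pw b 2
  + 46312500*pw a 17*pw b 3*pw ζ 3 + 46312500*pw a 17*pw b 3*pw ζ 2 - 28500000*pw a 17*pw b 3 - 121125000*pw a 16*pw b 4*pw ζ 3
  - 121125000*pw a 16*pw b 4*pw ζ 2 + 75703125*pw a 16*pw b 4 + 242250000*pw a 15*pw b 5*pw ζ 3 + 242250000*pw a 15*pw b 5*pw ζ 2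
  - 145350000*pw a 15*pw b 5 - 363375000*pw a 14*pw b 6*pw ζ 3 - 363375000*pw a 14*pw b 6*pw ζ 2
  + 242250000*pw a 14*pw b 6 + 484500000*pw a 13*pw b 7*pw ζ 3 + 484500000*pw a 13*pw b 7*pw ζ 2
  - 242250000*pw a 13*pw b 7 - 393656250*pw a 12*pw b 8*pw ζ 3 - 393656250*pw a 12*pw b 8*pw ζ 2
  + 393656250*pw a 12*pw b 8 + 524875000*pw a 11*pw b 9*pw ζ 3 + 524875000*pw a 11*pw b 9*pw ζ 2
  + 577362500*pw a 10*pw b 10 + 524875000*pw a 9*pw b 11*pw ζ 3 + 524875000*pw a 9*pw b 11*pw ζ 2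
  + 524875000*pw a 9*pw b 11 + 393656250*pw a 8*pw b 12*pw ζ 3 + 393656250*pw a 8*pw b 12*pw ζ 2
  + 787312500*pw a 8*pw b 12 + 484500000*pw a 7*pw b 13*pw ζ 3 + 484500000*pw a 7*pw b 13*pw ζ 2
  + 726750000*pw a 7*pw b 13 + 363375000*pw a 6*pw b 14*pw ζ 3 + 363375000*pw a 6*pw b 14*pw ζ 2
  + 605625000*pw a 6*pw b 14 + 242250000*pw a 5*pw b 15*pw ζ 3 + 242250000*pw a 5*pw b 15*pw ζ 2
  + 387600000*pw a 5*pw b 15 + 121125000*pw a 4*pw b 16*pw ζ 3 + 121125000*pw a 4*pw b 16*pw ζ 2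
  + 196828125*pw a 4*pw b 16 + 46312500*pw a 3*pw b 17*pw ζ 3 + 46312500*pw a 3*pw b 17*pw ζ 2 + 74812500*pw a 3*pw b 17
  + 12468750*pw a 2*pw b 18*pw ζ 3 + 12468750*pw a 2*pw b 18*pw ζ 2 + 20187500*pw a 2*pw b 18 + 2125000*a*pw b 19*pw ζ 3
  + 2125000*a*pw b 19*pw ζ 2 + 3437500*a*pw b 19 + 171875*pw b 20*pw ζ 3 + 171875*pw b 20*pw ζ 2
  + 278125*pw b 20

/-- reduced form (ζ-degree ≤ 3) of `S1^15 * S2^5`. -/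
def SP31 (ζ a b : K) : K :=
  15625*pw a 20*pw ζ 3 + 15625*pw a 20*pw ζ 2 - 9375*pw a 20 - 15625*pw a 19*b*pw ζ 3 - 15625*pw a 19*b*pw ζ 2
  + 15625*pw a 19*b - 109375*pw a 18*pw b 2*pw ζ 3 - 109375*pw a 18*pw b 2*pw ζ 2 + 125000*pw a 18*pw b 2
  + 406250*pw a 17*pw b 3*pw ζ 3 + 406250*pw a 17*pw b 3*pw ζ 2 + 78125*pw a 17*pw b 3 + 890625*pw a 16*pw b 4*pw ζ 3
  + 890625*pw a 16*pw b 4*pw ζ 2 + 687500*pw a 16*pw b 4 + 171875*pw a 15*pw b 5*pw ζ 3 + 171875*pw a 15*pw b 5*pw ζ 2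
  + 3028125*pw a 15*pw b 5 + 2671875*pw a 14*pw b 6*pw ζ 3 + 2671875*pw a 14*pw b 6*pw ζ 2 + 3500000*pw a 14*pw b 6
  + 4250000*pw a 13*pw b 7*pw ζ 3 + 4250000*pw a 13*pw b 7*pw ζ 2 + 1828125*pw a 13*pw b 7 - 3453125*pw a 12*pw b 8*pw ζ 3
  - 3453125*pw a 12*pw b 8*pw ζ 2 + 1015625*pw a 12*pw b 8 - 3859375*pw a 11*pw b 9*pw ζ 3 - 3859375*pw a 11*pw b 9*pw ζ 2
  - 5687500*pw a 11*pw b 9 - 8490625*pw a 10*pw b 10 - 3859375*pw a 9*pw b 11*pw ζ 3 - 3859375*pw a 9*pw b 11*pw ζ 2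
  + 1828125*pw a 9*pw b 11 + 3453125*pw a 8*pw b 12*pw ζ 3 + 3453125*pw a 8*pw b 12*pw ζ 2 + 4468750*pw a 8*pw b 12
  + 4250000*pw a 7*pw b 13*pw ζ 3 + 4250000*pw a 7*pw b 13*pw ζ 2 + 2421875*pw a 7*pw b 13 - 2671875*pw a 6*pw b 14*pw ζ 3
  - 2671875*pw a 6*pw b 14*pw ζ 2 + 828125*pw a 6*pw b 14 + 171875*pw a 5*pw b 15*pw ζ 3 + 171875*pw a 5*pw b 15*pw ζ 2
  - 2856250*pw a 5*pw b 15 - 890625*pw a 4*pw b 16*pw ζ 3 - 890625*pw a 4*pw b 16*pw ζ 2 - 203125*pw a 4*pw b 16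
  + 406250*pw a 3*pw b 17*pw ζ 3 + 406250*pw a 3*pw b 17*pw ζ 2 + 328125*pw a 3*pw b 17 + 109375*pw a 2*pw b 18*pw ζ 3
  + 109375*pw a 2*pw b 18*pw ζ 2 + 234375*pw a 2*pw b 18 - 15625*a*pw b 19*pw ζ 3 - 15625*a*pw b 19*pw ζ 2
  - 31250*a*pw b 19 - 15625*pw b 20*pw ζ 3 - 15625*pw b 20*pw ζ 2 - 25000*pw b 20

/-- reduced form (ζ-degree ≤ 3) of `S1^10 * S2^10`. -/
def SP22 (ζ a b : K) : K :=
  3125*pw a 20 + 31250*pw a 19*b + 109375*pw a 18*pw b 2 + 93750*pw a 17*pw b 3 - 328125*pw a 16*pw b 4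
  - 712500*pw a 15*pw b 5 + 281250*pw a 14*pw b 6 + 1687500*pw a 13*pw b 7 + 140625*pw a 12*pw b 8
  - 2406250*pw a 11*pw b 9 - 409375*pw a 10*pw b 10 + 2406250*pw a 9*pw b 11 + 140625*pw a 8*pw b 12
  - 1687500*pw a 7*pw b 13 + 281250*pw a 6*pw b 14 + 712500*pw a 5*pw b 15 - 328125*pw a 4*pw b 16
  - 93750*pw a 3*pw b 17 + 109375*pw a 2*pw b 18 - 31250*a*pw b 19 + 3125*pw b 20

/-- reduced form (ζ-degree ≤ 3) of `S1^5 * S2^15`. -/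
def SP13 (ζ a b : K) : K :=
  15625*pw a 20*pw ζ 3 + 15625*pw a 20*pw ζ 2 + 25000*pw a 20 - 15625*pw a 19*b*pw ζ 3 - 15625*pw a 19*b*pw ζ 2
  - 31250*pw a 19*b - 109375*pw a 18*pw b 2*pw ζ 3 - 109375*pw a 18*pw b 2*pw ζ 2 - 234375*pw a 18*pw b 2
  + 406250*pw a 17*pw b 3*pw ζ 3 + 406250*pw a 17*pw b 3*pw ζ 2 + 328125*pw a 17*pw b 3 + 890625*pw a 16*pw b 4*pw ζ 3
  + 890625*pw a 16*pw b 4*pw ζ 2 + 203125*pw a 16*pw b 4 + 171875*pw a 15*pw b 5*pw ζ 3 + 171875*pw a 15*pw b 5*pw ζ 2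
  - 2856250*pw a 15*pw b 5 + 2671875*pw a 14*pw b 6*pw ζ 3 + 2671875*pw a 14*pw b 6*pw ζ 2 - 828125*pw a 14*pw b 6
  + 4250000*pw a 13*pw b 7*pw ζ 3 + 4250000*pw a 13*pw b 7*pw ζ 2 + 2421875*pw a 13*pw b 7 - 3453125*pw a 12*pw b 8*pw ζ 3
  - 3453125*pw a 12*pw b 8*pw ζ 2 - 4468750*pw a 12*pw b 8 - 3859375*pw a 11*pw b 9*pw ζ 3 - 3859375*pw a 11*pw b 9*pw ζ 2
  + 1828125*pw a 11*pw b 9 + 8490625*pw a 10*pw b 10 - 3859375*pw a 9*pw b 11*pw ζ 3 - 3859375*pw a 9*pw b 11*pw ζ 2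
  - 5687500*pw a 9*pw b 11 + 3453125*pw a 8*pw b 12*pw ζ 3 + 3453125*pw a 8*pw b 12*pw ζ 2 - 1015625*pw a 8*pw b 12
  + 4250000*pw a 7*pw b 13*pw ζ 3 + 4250000*pw a 7*pw b 13*pw ζ 2 + 1828125*pw a 7*pw b 13 - 2671875*pw a 6*pw b 14*pw ζ 3
  - 2671875*pw a 6*pw b 14*pw ζ 2 - 3500000*pw a 6*pw b 14 + 171875*pw a 5*pw b 15*pw ζ 3 + 171875*pw a 5*pw b 15*pw ζ 2
  + 3028125*pw a 5*pw b 15 - 890625*pw a 4*pw b 16*pw ζ 3 - 890625*pw a 4*pw b 16*pw ζ 2 - 687500*pw a 4*pw b 16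
  + 406250*pw a 3*pw b 17*pw ζ 3 + 406250*pw a 3*pw b 17*pw ζ 2 + 78125*pw a 3*pw b 17 + 109375*pw a 2*pw b 18*pw ζ 3
  + 109375*pw a 2*pw b 18*pw ζ 2 - 125000*pw a 2*pw b 18 - 15625*a*pw b 19*pw ζ 3 - 15625*a*pw b 19*pw ζ 2
  + 15625*a*pw b 19 - 15625*pw b 20*pw ζ 3 - 15625*pw b 20*pw ζ 2 + 9375*pw b 20

/-- reduced form (ζ-degree ≤ 3) of `S1^0 * S2^20`. -/
def SP04 (ζ a b : K) : K :=
  171875*pw a 20*pw ζ 3 + 171875*pw a 20*pw ζ 2 + 278125*pw a 20 - 2125000*pw a 19*b*pw ζ 3 - 2125000*pw a 19*b*pw ζ 2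
  - 3437500*pw a 19*b + 12468750*pw a 18*pw b 2*pw ζ 3 + 12468750*pw a 18*pw b 2*pw ζ 2 + 20187500*pw a 18*pw b 2
  - 46312500*pw a 17*pw b 3*pw ζ 3 - 46312500*pw a 17*pw b 3*pw ζ 2 - 74812500*pw a 17*pw b 3 + 121125000*pw a 16*pw b 4*pw ζ 3
  + 121125000*pw a 16*pw b 4*pw ζ 2 + 196828125*pw a 16*pw b 4 - 242250000*pw a 15*pw b 5*pw ζ 3
  - 242250000*pw a 15*pw b 5*pw ζ 2 - 387600000*pw a 15*pw b 5 + 363375000*pw a 14*pw b 6*pw ζ 3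
  + 363375000*pw a 14*pw b 6*pw ζ 2 + 605625000*pw a 14*pw b 6 - 484500000*pw a 13*pw b 7*pw ζ 3
  - 484500000*pw a 13*pw b 7*pw ζ 2 - 726750000*pw a 13*pw b 7 + 393656250*pw a 12*pw b 8*pw ζ 3
  + 393656250*pw a 12*pw b 8*pw ζ 2 + 787312500*pw a 12*pw b 8 - 524875000*pw a 11*pw b 9*pw ζ 3
  - 524875000*pw a 11*pw b 9*pw ζ 2 - 524875000*pw a 11*pw b 9 + 577362500*pw a 10*pw b 10 - 524875000*pw a 9*pw b 11*pw ζ 3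
  - 524875000*pw a 9*pw b 11*pw ζ 2 - 393656250*pw a 8*pw b 12*pw ζ 3 - 393656250*pw a 8*pw b 12*pw ζ 2
  + 393656250*pw a 8*pw b 12 - 484500000*pw a 7*pw b 13*pw ζ 3 - 484500000*pw a 7*pw b 13*pw ζ 2
  + 242250000*pw a 7*pw b 13 - 363375000*pw a 6*pw b 14*pw ζ 3 - 363375000*pw a 6*pw b 14*pw ζ 2
  + 242250000*pw a 6*pw b 14 - 242250000*pw a 5*pw b 15*pw ζ 3 - 242250000*pw a 5*pw b 15*pw ζ 2
  + 145350000*pw a 5*pw b 15 - 121125000*pw a 4*pw b 16*pw ζ 3 - 121125000*pw a 4*pw b 16*pw ζ 2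
  + 75703125*pw a 4*pw b 16 - 46312500*pw a 3*pw b 17*pw ζ 3 - 46312500*pw a 3*pw b 17*pw ζ 2 + 28500000*pw a 3*pw b 17
  - 12468750*pw a 2*pw b 18*pw ζ 3 - 12468750*pw a 2*pw b 18*pw ζ 2 + 7718750*pw a 2*pw b 18 - 2125000*a*pw b 19*pw ζ 3
  - 2125000*a*pw b 19*pw ζ 2 + 1312500*a*pw b 19 - 171875*pw b 20*pw ζ 3 - 171875*pw b 20*pw ζ 2
  + 106250*pw b 20

/-- reduced form (ζ-degree ≤ 3) of `S1^30 * S2^0`. -/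
def SP60 (ζ a b : K) : K :=
  106562500*pw a 30*pw ζ 3 + 106562500*pw a 30*pw ζ 2 - 65859375*pw a 30 - 1975781250*pw a 29*b*pw ζ 3
  - 1975781250*pw a 29*b*pw ζ 2 + 1221093750*pw a 29*b + 17705859375*pw a 28*pw b 2*pw ζ 3 + 17705859375*pw a 28*pw b 2*pw ζ 2
  - 10942968750*pw a 28*pw b 2 - 102134375000*pw a 27*pw b 3*pw ζ 3 - 102134375000*pw a 27*pw b 3*pw ζ 2
  + 63120312500*pw a 27*pw b 3 + 426062109375*pw a 26*pw b 4*pw ζ 3 + 426062109375*pw a 26*pw b 4*pw ζ 2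
  - 263344921875*pw a 26*pw b 4 - 1369393593750*pw a 25*pw b 5*pw ζ 3 - 1369393593750*pw a 25*pw b 5*pw ζ 2
  + 846129375000*pw a 25*pw b 5 + 3525539062500*pw a 24*pw b 6*pw ζ 3 + 3525539062500*pw a 24*pw b 6*pw ζ 2
  - 2180267578125*pw a 24*pw b 6 - 7475203125000*pw a 23*pw b 7*pw ζ 3 - 7475203125000*pw a 23*pw b 7*pw ζ 2
  + 4612359375000*pw a 23*pw b 7 + 13260533203125*pw a 22*pw b 8*pw ζ 3 + 13260533203125*pw a 22*pw b 8*pw ζ 2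
  - 8230675781250*pw a 22*pw b 8 - 20119429687500*pw a 21*pw b 9*pw ζ 3 - 20119429687500*pw a 21*pw b 9*pw ζ 2
  + 12295207031250*pw a 21*pw b 9 + 25819934765625*pw a 20*pw b 10*pw ζ 3 + 25819934765625*pw a 20*pw b 10*pw ζ 2
  - 16430867578125*pw a 20*pw b 10 - 29874304687500*pw a 19*pw b 11*pw ζ 3 - 29874304687500*pw a 19*pw b 11*pw ζ 2
  + 17071031250000*pw a 19*pw b 11 + 27029132812500*pw a 18*pw b 12*pw ζ 3 + 27029132812500*pw a 18*pw b 12*pw ζ 2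
  - 20271849609375*pw a 18*pw b 12 - 28068714843750*pw a 17*pw b 13*pw ζ 3 - 28068714843750*pw a 17*pw b 13*pw ζ 2
  + 9356238281250*pw a 17*pw b 13 + 11361146484375*pw a 16*pw b 14*pw ζ 3 + 11361146484375*pw a 16*pw b 14*pw ζ 2
  - 22722292968750*pw a 16*pw b 14 - 24237112500000*pw a 15*pw b 15*pw ζ 3 - 24237112500000*pw a 15*pw b 15*pw ζ 2
  - 12118556250000*pw a 15*pw b 15 - 11361146484375*pw a 14*pw b 16*pw ζ 3 - 11361146484375*pw a 14*pw b 16*pw ζ 2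
  - 34083439453125*pw a 14*pw b 16 - 28068714843750*pw a 13*pw b 17*pw ζ 3 - 28068714843750*pw a 13*pw b 17*pw ζ 2
  - 37424953125000*pw a 13*pw b 17 - 27029132812500*pw a 12*pw b 18*pw ζ 3 - 27029132812500*pw a 12*pw b 18*pw ζ 2
  - 47300982421875*pw a 12*pw b 18 - 29874304687500*pw a 11*pw b 19*pw ζ 3 - 29874304687500*pw a 11*pw b 19*pw ζ 2
  - 46945335937500*pw a 11*pw b 19 - 25819934765625*pw a 10*pw b 20*pw ζ 3 - 25819934765625*pw a 10*pw b 20*pw ζ 2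
  - 42250802343750*pw a 10*pw b 20 - 20119429687500*pw a 9*pw b 21*pw ζ 3 - 20119429687500*pw a 9*pw b 21*pw ζ 2
  - 32414636718750*pw a 9*pw b 21 - 13260533203125*pw a 8*pw b 22*pw ζ 3 - 13260533203125*pw a 8*pw b 22*pw ζ 2
  - 21491208984375*pw a 8*pw b 22 - 7475203125000*pw a 7*pw b 23*pw ζ 3 - 7475203125000*pw a 7*pw b 23*pw ζ 2
  - 12087562500000*pw a 7*pw b 23 - 3525539062500*pw a 6*pw b 24*pw ζ 3 - 3525539062500*pw a 6*pw b 24*pw ζ 2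
  - 5705806640625*pw a 6*pw b 24 - 1369393593750*pw a 5*pw b 25*pw ζ 3 - 1369393593750*pw a 5*pw b 25*pw ζ 2
  - 2215522968750*pw a 5*pw b 25 - 426062109375*pw a 4*pw b 26*pw ζ 3 - 426062109375*pw a 4*pw b 26*pw ζ 2
  - 689407031250*pw a 4*pw b 26 - 102134375000*pw a 3*pw b 27*pw ζ 3 - 102134375000*pw a 3*pw b 27*pw ζ 2
  - 165254687500*pw a 3*pw b 27 - 17705859375*pw a 2*pw b 28*pw ζ 3 - 17705859375*pw a 2*pw b 28*pw ζ 2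
  - 28648828125*pw a 2*pw b 28 - 1975781250*a*pw b 29*pw ζ 3 - 1975781250*a*pw b 29*pw ζ 2 - 3196875000*a*pw b 29
  - 106562500*pw b 30*pw ζ 3 - 106562500*pw b 30*pw ζ 2 - 172421875*pw b 30

/-- reduced form (ζ-degree ≤ 3) of `S1^25 * S2^5`. -/
def SP51 (ζ a b : K) : K :=
  -9609375*pw a 30*pw ζ 3 - 9609375*pw a 30*pw ζ 2 + 5937500*pw a 30 + 70703125*pw a 29*b*pw ζ 3
  + 70703125*pw a 29*b*pw ζ 2 - 43750000*pw a 29*b - 151953125*pw a 28*pw b 2*pw ζ 3 - 151953125*pw a 28*pw b 2*pw ζ 2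
  + 92968750*pw a 28*pw b 2 - 215625000*pw a 27*pw b 3*pw ζ 3 - 215625000*pw a 27*pw b 3*pw ζ 2 + 122656250*pw a 27*pw b 3
  + 1569140625*pw a 26*pw b 4*pw ζ 3 + 1569140625*pw a 26*pw b 4*pw ζ 2 - 1054296875*pw a 26*pw b 4
  - 2738984375*pw a 25*pw b 5*pw ζ 3 - 2738984375*pw a 25*pw b 5*pw ζ 2 + 1186171875*pw a 25*pw b 5
  - 2845703125*pw a 24*pw b 6*pw ζ 3 - 2845703125*pw a 24*pw b 6*pw ζ 2 - 607421875*pw a 24*pw b 6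
  + 8453125000*pw a 23*pw b 7*pw ζ 3 + 8453125000*pw a 23*pw b 7*pw ζ 2 - 14015625000*pw a 23*pw b 7
  - 28615234375*pw a 22*pw b 8*pw ζ 3 - 28615234375*pw a 22*pw b 8*pw ζ 2 - 8580078125*pw a 22*pw b 8
  - 31130859375*pw a 21*pw b 9*pw ζ 3 - 31130859375*pw a 21*pw b 9*pw ζ 2 - 43978515625*pw a 21*pw b 9
  - 12551171875*pw a 20*pw b 10*pw ζ 3 - 12551171875*pw a 20*pw b 10*pw ζ 2 - 113751171875*pw a 20*pw b 10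
  - 141683593750*pw a 19*pw b 11*pw ζ 3 - 141683593750*pw a 19*pw b 11*pw ζ 2 - 93976562500*pw a 19*pw b 11
  - 64867187500*pw a 18*pw b 12*pw ζ 3 - 64867187500*pw a 18*pw b 12*pw ζ 2 - 156193359375*pw a 18*pw b 12
  + 1707031250*pw a 17*pw b 13*pw ζ 3 + 1707031250*pw a 17*pw b 13*pw ζ 2 - 118638671875*pw a 17*pw b 13
  - 87058593750*pw a 16*pw b 14*pw ζ 3 - 87058593750*pw a 16*pw b 14*pw ζ 2 + 101568359375*pw a 16*pw b 14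
  + 185725000000*pw a 15*pw b 15*pw ζ 3 + 185725000000*pw a 15*pw b 15*pw ζ 2 + 92862500000*pw a 15*pw b 15
  + 87058593750*pw a 14*pw b 16*pw ζ 3 + 87058593750*pw a 14*pw b 16*pw ζ 2 + 188626953125*pw a 14*pw b 16
  + 1707031250*pw a 13*pw b 17*pw ζ 3 + 1707031250*pw a 13*pw b 17*pw ζ 2 + 120345703125*pw a 13*pw b 17
  + 64867187500*pw a 12*pw b 18*pw ζ 3 + 64867187500*pw a 12*pw b 18*pw ζ 2 - 91326171875*pw a 12*pw b 18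
  - 141683593750*pw a 11*pw b 19*pw ζ 3 - 141683593750*pw a 11*pw b 19*pw ζ 2 - 47707031250*pw a 11*pw b 19
  + 12551171875*pw a 10*pw b 20*pw ζ 3 + 12551171875*pw a 10*pw b 20*pw ζ 2 - 101200000000*pw a 10*pw b 20
  - 31130859375*pw a 9*pw b 21*pw ζ 3 - 31130859375*pw a 9*pw b 21*pw ζ 2 + 12847656250*pw a 9*pw b 21
  + 28615234375*pw a 8*pw b 22*pw ζ 3 + 28615234375*pw a 8*pw b 22*pw ζ 2 + 20035156250*pw a 8*pw b 22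
  + 8453125000*pw a 7*pw b 23*pw ζ 3 + 8453125000*pw a 7*pw b 23*pw ζ 2 + 22468750000*pw a 7*pw b 23
  + 2845703125*pw a 6*pw b 24*pw ζ 3 + 2845703125*pw a 6*pw b 24*pw ζ 2 + 2238281250*pw a 6*pw b 24
  - 2738984375*pw a 5*pw b 25*pw ζ 3 - 2738984375*pw a 5*pw b 25*pw ζ 2 - 3925156250*pw a 5*pw b 25
  - 1569140625*pw a 4*pw b 26*pw ζ 3 - 1569140625*pw a 4*pw b 26*pw ζ 2 - 2623437500*pw a 4*pw b 26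
  - 215625000*pw a 3*pw b 27*pw ζ 3 - 215625000*pw a 3*pw b 27*pw ζ 2 - 338281250*pw a 3*pw b 27
  + 151953125*pw a 2*pw b 28*pw ζ 3 + 151953125*pw a 2*pw b 28*pw ζ 2 + 244921875*pw a 2*pw b 28
  + 70703125*a*pw b 29*pw ζ 3 + 70703125*a*pw b 29*pw ζ 2 + 114453125*a*pw b 29 + 9609375*pw b 30*pw ζ 3
  + 9609375*pw b 30*pw ζ 2 + 15546875*pw b 30

/-- reduced form (ζ-degree ≤ 3) of `S1^20 * S2^10`. -/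
def SP42 (ζ a b : K) : K :=
  859375*pw a 30*pw ζ 3 + 859375*pw a 30*pw ζ 2 - 546875*pw a 30 + 3125000*pw a 29*b*pw ζ 3 + 3125000*pw a 29*b*pw ζ 2
  - 2343750*pw a 29*b - 10546875*pw a 28*pw b 2*pw ζ 3 - 10546875*pw a 28*pw b 2*pw ζ 2 + 1562500*pw a 28*pw b 2
  - 53125000*pw a 27*pw b 3*pw ζ 3 - 53125000*pw a 27*pw b 3*pw ζ 2 - 3125000*pw a 27*pw b 3 - 26953125*pw a 26*pw b 4*pw ζ 3
  - 26953125*pw a 26*pw b 4*pw ζ 2 - 157031250*pw a 26*pw b 4 - 59531250*pw a 25*pw b 5*pw ζ 3 - 59531250*pw a 25*pw b 5*pw ζ 2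
  - 539531250*pw a 25*pw b 5 - 832031250*pw a 24*pw b 6*pw ζ 3 - 832031250*pw a 24*pw b 6*pw ζ 2
  - 767578125*pw a 24*pw b 6 - 1359375000*pw a 23*pw b 7*pw ζ 3 - 1359375000*pw a 23*pw b 7*pw ζ 2
  - 796875000*pw a 23*pw b 7 + 990234375*pw a 22*pw b 8*pw ζ 3 + 990234375*pw a 22*pw b 8*pw ζ 2
  - 691406250*pw a 22*pw b 8 + 2925781250*pw a 21*pw b 9*pw ζ 3 + 2925781250*pw a 21*pw b 9*pw ζ 2
  + 2214843750*pw a 21*pw b 9 + 328906250*pw a 20*pw b 10*pw ζ 3 + 328906250*pw a 20*pw b 10*pw ζ 2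
  + 6883203125*pw a 20*pw b 10 + 671875000*pw a 19*pw b 11*pw ζ 3 + 671875000*pw a 19*pw b 11*pw ζ 2
  + 2328125000*pw a 19*pw b 11 + 1335937500*pw a 18*pw b 12*pw ζ 3 + 1335937500*pw a 18*pw b 12*pw ζ 2
  - 9166015625*pw a 18*pw b 12 - 8238281250*pw a 17*pw b 13*pw ζ 3 - 8238281250*pw a 17*pw b 13*pw ζ 2
  - 8015625000*pw a 17*pw b 13 - 5677734375*pw a 16*pw b 14*pw ζ 3 - 5677734375*pw a 16*pw b 14*pw ζ 2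
  + 1892578125*pw a 16*pw b 14 + 12112500000*pw a 15*pw b 15*pw ζ 3 + 12112500000*pw a 15*pw b 15*pw ζ 2
  + 6056250000*pw a 15*pw b 15 + 5677734375*pw a 14*pw b 16*pw ζ 3 + 5677734375*pw a 14*pw b 16*pw ζ 2
  + 7570312500*pw a 14*pw b 16 - 8238281250*pw a 13*pw b 17*pw ζ 3 - 8238281250*pw a 13*pw b 17*pw ζ 2
  - 222656250*pw a 13*pw b 17 - 1335937500*pw a 12*pw b 18*pw ζ 3 - 1335937500*pw a 12*pw b 18*pw ζ 2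
  - 10501953125*pw a 12*pw b 18 + 671875000*pw a 11*pw b 19*pw ζ 3 + 671875000*pw a 11*pw b 19*pw ζ 2
  - 1656250000*pw a 11*pw b 19 - 328906250*pw a 10*pw b 20*pw ζ 3 - 328906250*pw a 10*pw b 20*pw ζ 2
  + 6554296875*pw a 10*pw b 20 + 2925781250*pw a 9*pw b 21*pw ζ 3 + 2925781250*pw a 9*pw b 21*pw ζ 2
  + 710937500*pw a 9*pw b 21 - 990234375*pw a 8*pw b 22*pw ζ 3 - 990234375*pw a 8*pw b 22*pw ζ 2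
  - 1681640625*pw a 8*pw b 22 - 1359375000*pw a 7*pw b 23*pw ζ 3 - 1359375000*pw a 7*pw b 23*pw ζ 2
  - 562500000*pw a 7*pw b 23 + 832031250*pw a 6*pw b 24*pw ζ 3 + 832031250*pw a 6*pw b 24*pw ζ 2
  + 64453125*pw a 6*pw b 24 - 59531250*pw a 5*pw b 25*pw ζ 3 - 59531250*pw a 5*pw b 25*pw ζ 2 + 480000000*pw a 5*pw b 25
  + 26953125*pw a 4*pw b 26*pw ζ 3 + 26953125*pw a 4*pw b 26*pw ζ 2 - 130078125*pw a 4*pw b 26 - 53125000*pw a 3*pw b 27*pw ζ 3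
  - 53125000*pw a 3*pw b 27*pw ζ 2 - 50000000*pw a 3*pw b 27 + 10546875*pw a 2*pw b 28*pw ζ 3 + 10546875*pw a 2*pw b 28*pw ζ 2
  + 12109375*pw a 2*pw b 28 + 3125000*a*pw b 29*pw ζ 3 + 3125000*a*pw b 29*pw ζ 2 + 5468750*a*pw b 29
  - 859375*pw b 30*pw ζ 3 - 859375*pw b 30*pw ζ 2 - 1406250*pw b 30

/-- reduced form (ζ-degree ≤ 3) of `S1^10 * S2^20`. -/
def SP24 (ζ a b : K) : K :=
  -859375*pw a 30*pw ζ 3 - 859375*pw a 30*pw ζ 2 - 1406250*pw a 30 - 3125000*pw a 29*b*pw ζ 3 - 3125000*pw a 29*b*pw ζ 2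
  - 5468750*pw a 29*b + 10546875*pw a 28*pw b 2*pw ζ 3 + 10546875*pw a 28*pw b 2*pw ζ 2 + 12109375*pw a 28*pw b 2
  + 53125000*pw a 27*pw b 3*pw ζ 3 + 53125000*pw a 27*pw b 3*pw ζ 2 + 50000000*pw a 27*pw b 3 + 26953125*pw a 26*pw b 4*pw ζ 3
  + 26953125*pw a 26*pw b 4*pw ζ 2 - 130078125*pw a 26*pw b 4 + 59531250*pw a 25*pw b 5*pw ζ 3 + 59531250*pw a 25*pw b 5*pw ζ 2
  - 480000000*pw a 25*pw b 5 + 832031250*pw a 24*pw b 6*pw ζ 3 + 832031250*pw a 24*pw b 6*pw ζ 2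
  + 64453125*pw a 24*pw b 6 + 1359375000*pw a 23*pw b 7*pw ζ 3 + 1359375000*pw a 23*pw b 7*pw ζ 2
  + 562500000*pw a 23*pw b 7 - 990234375*pw a 22*pw b 8*pw ζ 3 - 990234375*pw a 22*pw b 8*pw ζ 2
  - 1681640625*pw a 22*pw b 8 - 2925781250*pw a 21*pw b 9*pw ζ 3 - 2925781250*pw a 21*pw b 9*pw ζ 2
  - 710937500*pw a 21*pw b 9 - 328906250*pw a 20*pw b 10*pw ζ 3 - 328906250*pw a 20*pw b 10*pw ζ 2
  + 6554296875*pw a 20*pw b 10 - 671875000*pw a 19*pw b 11*pw ζ 3 - 671875000*pw a 19*pw b 11*pw ζ 2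
  + 1656250000*pw a 19*pw b 11 - 1335937500*pw a 18*pw b 12*pw ζ 3 - 1335937500*pw a 18*pw b 12*pw ζ 2
  - 10501953125*pw a 18*pw b 12 + 8238281250*pw a 17*pw b 13*pw ζ 3 + 8238281250*pw a 17*pw b 13*pw ζ 2
  + 222656250*pw a 17*pw b 13 + 5677734375*pw a 16*pw b 14*pw ζ 3 + 5677734375*pw a 16*pw b 14*pw ζ 2
  + 7570312500*pw a 16*pw b 14 - 12112500000*pw a 15*pw b 15*pw ζ 3 - 12112500000*pw a 15*pw b 15*pw ζ 2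
  - 6056250000*pw a 15*pw b 15 - 5677734375*pw a 14*pw b 16*pw ζ 3 - 5677734375*pw a 14*pw b 16*pw ζ 2
  + 1892578125*pw a 14*pw b 16 + 8238281250*pw a 13*pw b 17*pw ζ 3 + 8238281250*pw a 13*pw b 17*pw ζ 2
  + 8015625000*pw a 13*pw b 17 + 1335937500*pw a 12*pw b 18*pw ζ 3 + 1335937500*pw a 12*pw b 18*pw ζ 2
  - 9166015625*pw a 12*pw b 18 - 671875000*pw a 11*pw b 19*pw ζ 3 - 671875000*pw a 11*pw b 19*pw ζ 2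
  - 2328125000*pw a 11*pw b 19 + 328906250*pw a 10*pw b 20*pw ζ 3 + 328906250*pw a 10*pw b 20*pw ζ 2
  + 6883203125*pw a 10*pw b 20 - 2925781250*pw a 9*pw b 21*pw ζ 3 - 2925781250*pw a 9*pw b 21*pw ζ 2
  - 2214843750*pw a 9*pw b 21 + 990234375*pw a 8*pw b 22*pw ζ 3 + 990234375*pw a 8*pw b 22*pw ζ 2
  - 691406250*pw a 8*pw b 22 + 1359375000*pw a 7*pw b 23*pw ζ 3 + 1359375000*pw a 7*pw b 23*pw ζ 2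
  + 796875000*pw a 7*pw b 23 - 832031250*pw a 6*pw b 24*pw ζ 3 - 832031250*pw a 6*pw b 24*pw ζ 2
  - 767578125*pw a 6*pw b 24 + 59531250*pw a 5*pw b 25*pw ζ 3 + 59531250*pw a 5*pw b 25*pw ζ 2 + 539531250*pw a 5*pw b 25
  - 26953125*pw a 4*pw b 26*pw ζ 3 - 26953125*pw a 4*pw b 26*pw ζ 2 - 157031250*pw a 4*pw b 26 + 53125000*pw a 3*pw b 27*pw ζ 3
  + 53125000*pw a 3*pw b 27*pw ζ 2 + 3125000*pw a 3*pw b 27 - 10546875*pw a 2*pw b 28*pw ζ 3 - 10546875*pw a 2*pw b 28*pw ζ 2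
  + 1562500*pw a 2*pw b 28 - 3125000*a*pw b 29*pw ζ 3 - 3125000*a*pw b 29*pw ζ 2 + 2343750*a*pw b 29
  + 859375*pw b 30*pw ζ 3 + 859375*pw b 30*pw ζ 2 - 546875*pw b 30

/-- reduced form (ζ-degree ≤ 3) of `S1^5 * S2^25`. -/
def SP15 (ζ a b : K) : K :=
  -9609375*pw a 30*pw ζ 3 - 9609375*pw a 30*pw ζ 2 - 15546875*pw a 30 + 70703125*pw a 29*b*pw ζ 3
  + 70703125*pw a 29*b*pw ζ 2 + 114453125*pw a 29*b - 151953125*pw a 28*pw b 2*pw ζ 3 - 151953125*pw a 28*pw b 2*pw ζ 2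
  - 244921875*pw a 28*pw b 2 - 215625000*pw a 27*pw b 3*pw ζ 3 - 215625000*pw a 27*pw b 3*pw ζ 2
  - 338281250*pw a 27*pw b 3 + 1569140625*pw a 26*pw b 4*pw ζ 3 + 1569140625*pw a 26*pw b 4*pw ζ 2
  + 2623437500*pw a 26*pw b 4 - 2738984375*pw a 25*pw b 5*pw ζ 3 - 2738984375*pw a 25*pw b 5*pw ζ 2
  - 3925156250*pw a 25*pw b 5 - 2845703125*pw a 24*pw b 6*pw ζ 3 - 2845703125*pw a 24*pw b 6*pw ζ 2
  - 2238281250*pw a 24*pw b 6 + 8453125000*pw a 23*pw b 7*pw ζ 3 + 8453125000*pw a 23*pw b 7*pw ζ 2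
  + 22468750000*pw a 23*pw b 7 - 28615234375*pw a 22*pw b 8*pw ζ 3 - 28615234375*pw a 22*pw b 8*pw ζ 2
  - 20035156250*pw a 22*pw b 8 - 31130859375*pw a 21*pw b 9*pw ζ 3 - 31130859375*pw a 21*pw b 9*pw ζ 2
  + 12847656250*pw a 21*pw b 9 - 12551171875*pw a 20*pw b 10*pw ζ 3 - 12551171875*pw a 20*pw b 10*pw ζ 2
  + 101200000000*pw a 20*pw b 10 - 141683593750*pw a 19*pw b 11*pw ζ 3 - 141683593750*pw a 19*pw b 11*pw ζ 2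
  - 47707031250*pw a 19*pw b 11 - 64867187500*pw a 18*pw b 12*pw ζ 3 - 64867187500*pw a 18*pw b 12*pw ζ 2
  + 91326171875*pw a 18*pw b 12 + 1707031250*pw a 17*pw b 13*pw ζ 3 + 1707031250*pw a 17*pw b 13*pw ζ 2
  + 120345703125*pw a 17*pw b 13 - 87058593750*pw a 16*pw b 14*pw ζ 3 - 87058593750*pw a 16*pw b 14*pw ζ 2
  - 188626953125*pw a 16*pw b 14 + 185725000000*pw a 15*pw b 15*pw ζ 3 + 185725000000*pw a 15*pw b 15*pw ζ 2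
  + 92862500000*pw a 15*pw b 15 + 87058593750*pw a 14*pw b 16*pw ζ 3 + 87058593750*pw a 14*pw b 16*pw ζ 2
  - 101568359375*pw a 14*pw b 16 + 1707031250*pw a 13*pw b 17*pw ζ 3 + 1707031250*pw a 13*pw b 17*pw ζ 2
  - 118638671875*pw a 13*pw b 17 + 64867187500*pw a 12*pw b 18*pw ζ 3 + 64867187500*pw a 12*pw b 18*pw ζ 2
  + 156193359375*pw a 12*pw b 18 - 141683593750*pw a 11*pw b 19*pw ζ 3 - 141683593750*pw a 11*pw b 19*pw ζ 2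
  - 93976562500*pw a 11*pw b 19 + 12551171875*pw a 10*pw b 20*pw ζ 3 + 12551171875*pw a 10*pw b 20*pw ζ 2
  + 113751171875*pw a 10*pw b 20 - 31130859375*pw a 9*pw b 21*pw ζ 3 - 31130859375*pw a 9*pw b 21*pw ζ 2
  - 43978515625*pw a 9*pw b 21 + 28615234375*pw a 8*pw b 22*pw ζ 3 + 28615234375*pw a 8*pw b 22*pw ζ 2
  + 8580078125*pw a 8*pw b 22 + 8453125000*pw a 7*pw b 23*pw ζ 3 + 8453125000*pw a 7*pw b 23*pw ζ 2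
  - 14015625000*pw a 7*pw b 23 + 2845703125*pw a 6*pw b 24*pw ζ 3 + 2845703125*pw a 6*pw b 24*pw ζ 2
  + 607421875*pw a 6*pw b 24 - 2738984375*pw a 5*pw b 25*pw ζ 3 - 2738984375*pw a 5*pw b 25*pw ζ 2
  + 1186171875*pw a 5*pw b 25 - 1569140625*pw a 4*pw b 26*pw ζ 3 - 1569140625*pw a 4*pw b 26*pw ζ 2
  + 1054296875*pw a 4*pw b 26 - 215625000*pw a 3*pw b 27*pw ζ 3 - 215625000*pw a 3*pw b 27*pw ζ 2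
  + 122656250*pw a 3*pw b 27 + 151953125*pw a 2*pw b 28*pw ζ 3 + 151953125*pw a 2*pw b 28*pw ζ 2
  - 92968750*pw a 2*pw b 28 + 70703125*a*pw b 29*pw ζ 3 + 70703125*a*pw b 29*pw ζ 2 - 43750000*a*pw b 29
  + 9609375*pw b 30*pw ζ 3 + 9609375*pw b 30*pw ζ 2 - 5937500*pw b 30

/-- reduced form (ζ-degree ≤ 3) of `S1^0 * S2^30`. -/
def SP06 (ζ a b : K) : K :=
  -106562500*pw a 30*pw ζ 3 - 106562500*pw a 30*pw ζ 2 - 172421875*pw a 30 + 1975781250*pw a 29*b*pw ζ 3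
  + 1975781250*pw a 29*b*pw ζ 2 + 3196875000*pw a 29*b - 17705859375*pw a 28*pw b 2*pw ζ 3 - 17705859375*pw a 28*pw b 2*pw ζ 2
  - 28648828125*pw a 28*pw b 2 + 102134375000*pw a 27*pw b 3*pw ζ 3 + 102134375000*pw a 27*pw b 3*pw ζ 2
  + 165254687500*pw a 27*pw b 3 - 426062109375*pw a 26*pw b 4*pw ζ 3 - 426062109375*pw a 26*pw b 4*pw ζ 2
  - 689407031250*pw a 26*pw b 4 + 1369393593750*pw a 25*pw b 5*pw ζ 3 + 1369393593750*pw a 25*pw b 5*pw ζ 2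
  + 2215522968750*pw a 25*pw b 5 - 3525539062500*pw a 24*pw b 6*pw ζ 3 - 3525539062500*pw a 24*pw b 6*pw ζ 2
  - 5705806640625*pw a 24*pw b 6 + 7475203125000*pw a 23*pw b 7*pw ζ 3 + 7475203125000*pw a 23*pw b 7*pw ζ 2
  + 12087562500000*pw a 23*pw b 7 - 13260533203125*pw a 22*pw b 8*pw ζ 3 - 13260533203125*pw a 22*pw b 8*pw ζ 2
  - 21491208984375*pw a 22*pw b 8 + 20119429687500*pw a 21*pw b 9*pw ζ 3 + 20119429687500*pw a 21*pw b 9*pw ζ 2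
  + 32414636718750*pw a 21*pw b 9 - 25819934765625*pw a 20*pw b 10*pw ζ 3 - 25819934765625*pw a 20*pw b 10*pw ζ 2
  - 42250802343750*pw a 20*pw b 10 + 29874304687500*pw a 19*pw b 11*pw ζ 3 + 29874304687500*pw a 19*pw b 11*pw ζ 2
  + 46945335937500*pw a 19*pw b 11 - 27029132812500*pw a 18*pw b 12*pw ζ 3 - 27029132812500*pw a 18*pw b 12*pw ζ 2
  - 47300982421875*pw a 18*pw b 12 + 28068714843750*pw a 17*pw b 13*pw ζ 3 + 28068714843750*pw a 17*pw b 13*pw ζ 2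
  + 37424953125000*pw a 17*pw b 13 - 11361146484375*pw a 16*pw b 14*pw ζ 3 - 11361146484375*pw a 16*pw b 14*pw ζ 2
  - 34083439453125*pw a 16*pw b 14 + 24237112500000*pw a 15*pw b 15*pw ζ 3 + 24237112500000*pw a 15*pw b 15*pw ζ 2
  + 12118556250000*pw a 15*pw b 15 + 11361146484375*pw a 14*pw b 16*pw ζ 3 + 11361146484375*pw a 14*pw b 16*pw ζ 2
  - 22722292968750*pw a 14*pw b 16 + 28068714843750*pw a 13*pw b 17*pw ζ 3 + 28068714843750*pw a 13*pw b 17*pw ζ 2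
  - 9356238281250*pw a 13*pw b 17 + 27029132812500*pw a 12*pw b 18*pw ζ 3 + 27029132812500*pw a 12*pw b 18*pw ζ 2
  - 20271849609375*pw a 12*pw b 18 + 29874304687500*pw a 11*pw b 19*pw ζ 3 + 29874304687500*pw a 11*pw b 19*pw ζ 2
  - 17071031250000*pw a 11*pw b 19 + 25819934765625*pw a 10*pw b 20*pw ζ 3 + 25819934765625*pw a 10*pw b 20*pw ζ 2
  - 16430867578125*pw a 10*pw b 20 + 20119429687500*pw a 9*pw b 21*pw ζ 3 + 20119429687500*pw a 9*pw b 21*pw ζ 2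
  - 12295207031250*pw a 9*pw b 21 + 13260533203125*pw a 8*pw b 22*pw ζ 3 + 13260533203125*pw a 8*pw b 22*pw ζ 2
  - 8230675781250*pw a 8*pw b 22 + 7475203125000*pw a 7*pw b 23*pw ζ 3 + 7475203125000*pw a 7*pw b 23*pw ζ 2
  - 4612359375000*pw a 7*pw b 23 + 3525539062500*pw a 6*pw b 24*pw ζ 3 + 3525539062500*pw a 6*pw b 24*pw ζ 2
  - 2180267578125*pw a 6*pw b 24 + 1369393593750*pw a 5*pw b 25*pw ζ 3 + 1369393593750*pw a 5*pw b 25*pw ζ 2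
  - 846129375000*pw a 5*pw b 25 + 426062109375*pw a 4*pw b 26*pw ζ 3 + 426062109375*pw a 4*pw b 26*pw ζ 2
  - 263344921875*pw a 4*pw b 26 + 102134375000*pw a 3*pw b 27*pw ζ 3 + 102134375000*pw a 3*pw b 27*pw ζ 2
  - 63120312500*pw a 3*pw b 27 + 17705859375*pw a 2*pw b 28*pw ζ 3 + 17705859375*pw a 2*pw b 28*pw ζ 2
  - 10942968750*pw a 2*pw b 28 + 1975781250*a*pw b 29*pw ζ 3 + 1975781250*a*pw b 29*pw ζ 2 - 1221093750*a*pw b 29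
  + 106562500*pw b 30*pw ζ 3 + 106562500*pw b 30*pw ζ 2 - 65859375*pw b 30

/-- `det S' = -(p^2 + r^2) = 5`. -/
theorem sp_sq_add_sr_sq {ζ : K} (hζ : IsZ5 ζ)  :
    sp ζ ^ 2 + sr ζ ^ 2 = -5 := by
  unfold IsZ5 at hζ
  unfold sp sr
  linear_combination (norm := (simp only [pw]; ring1))
    (
      pw ζ 4 - pw ζ 3 + pw ζ 2 - 5*ζ + 5
    ) * hζ

/-- `S'^2 = -5` (first coordinate). -/
theorem S_S1 {ζ : K} (hζ : IsZ5 ζ) (a b : K) :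
    S1 ζ (S1 ζ a b) (S2 ζ a b) = -5 * a := by
  unfold IsZ5 at hζ
  unfold S1 S2 sp sr
  linear_combination (norm := (simp only [pw]; ring1))
    (
      a*pw ζ 4 - a*pw ζ 3 + a*pw ζ 2 - 5*a*ζ + 5*a
    ) * hζ

/-- `S'^2 = -5` (second coordinate). -/
theorem S_S2 {ζ : K} (hζ : IsZ5 ζ) (a b : K) :
    S2 ζ (S1 ζ a b) (S2 ζ a b) = -5 * b := by
  unfold IsZ5 at hζ
  unfold S1 S2 sp sr
  linear_combination (norm := (simp only [pw]; ring1))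
    (
      b*pw ζ 4 - b*pw ζ 3 + b*pw ζ 2 - 5*b*ζ + 5*b
    ) * hζ

/-- fifth power of the first coordinate of `S' v`. -/
theorem S1_pow5 {ζ : K} (hζ : IsZ5 ζ) (a b : K) :
    S1 ζ a b ^ 5 = SP10 ζ a b := by
  unfold IsZ5 at hζ
  unfold S1 SP10 sp sr
  linear_combination (norm := (simp only [pw]; ring1))
    (
      pw a 5*pw ζ 16 - pw a 5*pw ζ 15 - 5*pw a 5*pw ζ 13 + 5*pw a 5*pw ζ 12 + pw a 5*pw ζ 11 + 9*pw a 5*pw ζ 10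
      - 10*pw a 5*pw ζ 9 - 5*pw a 5*pw ζ 8 - 5*pw a 5*pw ζ 7 + 11*pw a 5*pw ζ 6 + 9*pw a 5*pw ζ 5
      - 5*pw a 5*pw ζ 4 - 10*pw a 5*pw ζ 3 - 5*pw a 5*pw ζ 2 + 10*pw a 5*ζ + 10*pw a 5 - 5*pw a 4*b*pw ζ 15
      + 10*pw a 4*b*pw ζ 14 - 5*pw a 4*b*pw ζ 13 + 20*pw a 4*b*pw ζ 12 - 40*pw a 4*b*pw ζ 11 + 15*pw a 4*b*pw ζ 10
      - 20*pw a 4*b*pw ζ 9 + 55*pw a 4*b*pw ζ 8 - 10*pw a 4*b*pw ζ 7 - 20*pw a 4*b*pw ζ 6 - 25*pw a 4*b*pw ζ 5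
      + 50*pw a 4*b*pw ζ 3 - 25*pw a 4*b*ζ - 25*pw a 4*b + 10*pw a 3*pw b 2*pw ζ 14 - 30*pw a 3*pw b 2*pw ζ 13
      + 30*pw a 3*pw b 2*pw ζ 12 - 40*pw a 3*pw b 2*pw ζ 11 + 90*pw a 3*pw b 2*pw ζ 10 - 80*pw a 3*pw b 2*pw ζ 9
      + 30*pw a 3*pw b 2*pw ζ 8 - 60*pw a 3*pw b 2*pw ζ 7 + 50*pw a 3*pw b 2*pw ζ 6 + 50*pw a 3*pw b 2*pw ζ 5
      - 50*pw a 3*pw b 2*pw ζ 4 - 50*pw a 3*pw b 2*pw ζ 2 + 50*pw a 3*pw b 2*ζ + 50*pw a 3*pw b 2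
      - 10*pw a 2*pw b 3*pw ζ 13 + 40*pw a 2*pw b 3*pw ζ 12 - 60*pw a 2*pw b 3*pw ζ 11 + 60*pw a 2*pw b 3*pw ζ 10
      - 90*pw a 2*pw b 3*pw ζ 9 + 110*pw a 2*pw b 3*pw ζ 8 - 50*pw a 2*pw b 3*pw ζ 7 - 50*pw a 2*pw b 3*pw ζ 4
      + 100*pw a 2*pw b 3*pw ζ 3 - 50*pw a 2*pw b 3*pw ζ 2 + 5*a*pw b 4*pw ζ 12 - 25*a*pw b 4*pw ζ 11
      + 50*a*pw b 4*pw ζ 10 - 55*a*pw b 4*pw ζ 9 + 50*a*pw b 4*pw ζ 8 - 50*a*pw b 4*pw ζ 7 + 25*a*pw b 4*pw ζ 6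
      + 25*a*pw b 4*pw ζ 5 - 50*a*pw b 4*pw ζ 4 + 50*a*pw b 4*pw ζ 3 - 50*a*pw b 4*pw ζ 2 + 25*a*pw b 4*ζ
      + 25*a*pw b 4 - pw b 5*pw ζ 11 + 6*pw b 5*pw ζ 10 - 15*pw b 5*pw ζ 9 + 20*pw b 5*pw ζ 8 - 15*pw b 5*pw ζ 7
      + 5*pw b 5*pw ζ 6 + 5*pw b 5*pw ζ 5 - 15*pw b 5*pw ζ 4 + 20*pw b 5*pw ζ 3 - 15*pw b 5*pw ζ 2
      + 5*pw b 5*ζ + 5*pw b 5
    ) * hζ

/-- fifth power of the second coordinate of `S' v`. -/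
theorem S2_pow5 {ζ : K} (hζ : IsZ5 ζ) (a b : K) :
    S2 ζ a b ^ 5 = SP01 ζ a b := by
  unfold IsZ5 at hζ
  unfold S2 SP01 sp sr
  linear_combination (norm := (simp only [pw]; ring1))
    (
      -pw a 5*pw ζ 11 + 6*pw a 5*pw ζ 10 - 15*pw a 5*pw ζ 9 + 20*pw a 5*pw ζ 8 - 15*pw a 5*pw ζ 7
      + 5*pw a 5*pw ζ 6 + 5*pw a 5*pw ζ 5 - 15*pw a 5*pw ζ 4 + 20*pw a 5*pw ζ 3 - 15*pw a 5*pw ζ 2
      + 5*pw a 5*ζ + 5*pw a 5 - 5*pw a 4*b*pw ζ 12 + 25*pw a 4*b*pw ζ 11 - 50*pw a 4*b*pw ζ 10 + 55*pw a 4*b*pw ζ 9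
      - 50*pw a 4*b*pw ζ 8 + 50*pw a 4*b*pw ζ 7 - 25*pw a 4*b*pw ζ 6 - 25*pw a 4*b*pw ζ 5 + 50*pw a 4*b*pw ζ 4
      - 50*pw a 4*b*pw ζ 3 + 50*pw a 4*b*pw ζ 2 - 25*pw a 4*b*ζ - 25*pw a 4*b - 10*pw a 3*pw b 2*pw ζ 13
      + 40*pw a 3*pw b 2*pw ζ 12 - 60*pw a 3*pw b 2*pw ζ 11 + 60*pw a 3*pw b 2*pw ζ 10 - 90*pw a 3*pw b 2*pw ζ 9
      + 110*pw a 3*pw b 2*pw ζ 8 - 50*pw a 3*pw b 2*pw ζ 7 - 50*pw a 3*pw b 2*pw ζ 4 + 100*pw a 3*pw b 2*pw ζ 3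
      - 50*pw a 3*pw b 2*pw ζ 2 - 10*pw a 2*pw b 3*pw ζ 14 + 30*pw a 2*pw b 3*pw ζ 13 - 30*pw a 2*pw b 3*pw ζ 12
      + 40*pw a 2*pw b 3*pw ζ 11 - 90*pw a 2*pw b 3*pw ζ 10 + 80*pw a 2*pw b 3*pw ζ 9 - 30*pw a 2*pw b 3*pw ζ 8
      + 60*pw a 2*pw b 3*pw ζ 7 - 50*pw a 2*pw b 3*pw ζ 6 - 50*pw a 2*pw b 3*pw ζ 5 + 50*pw a 2*pw b 3*pw ζ 4
      + 50*pw a 2*pw b 3*pw ζ 2 - 50*pw a 2*pw b 3*ζ - 50*pw a 2*pw b 3 - 5*a*pw b 4*pw ζ 15 + 10*a*pw b 4*pw ζ 14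
      - 5*a*pw b 4*pw ζ 13 + 20*a*pw b 4*pw ζ 12 - 40*a*pw b 4*pw ζ 11 + 15*a*pw b 4*pw ζ 10 - 20*a*pw b 4*pw ζ 9
      + 55*a*pw b 4*pw ζ 8 - 10*a*pw b 4*pw ζ 7 - 20*a*pw b 4*pw ζ 6 - 25*a*pw b 4*pw ζ 5 + 50*a*pw b 4*pw ζ 3
      - 25*a*pw b 4*ζ - 25*a*pw b 4 - pw b 5*pw ζ 16 + pw b 5*pw ζ 15 + 5*pw b 5*pw ζ 13 - 5*pw b 5*pw ζ 12
      - pw b 5*pw ζ 11 - 9*pw b 5*pw ζ 10 + 10*pw b 5*pw ζ 9 + 5*pw b 5*pw ζ 8 + 5*pw b 5*pw ζ 7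
      - 11*pw b 5*pw ζ 6 - 9*pw b 5*pw ζ 5 + 5*pw b 5*pw ζ 4 + 10*pw b 5*pw ζ 3 + 5*pw b 5*pw ζ 2
      - 10*pw b 5*ζ - 10*pw b 5
    ) * hζ

/-- product of the coordinates of `S' v`. -/
theorem S1_mul_S2 {ζ : K} (hζ : IsZ5 ζ) (a b : K) :
    S1 ζ a b * S2 ζ a b = s5 ζ * (a^2 + a*b - b^2) := by
  unfold IsZ5 at hζ
  unfold S1 S2 sp sr s5
  linear_combination (norm := (simp only [pw]; ring1))
    (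
      -pw a 2*pw ζ 3 + 2*pw a 2*pw ζ 2 - pw a 2*ζ - pw a 2 - a*b*pw ζ 4 + a*b*pw ζ 3 + a*b*pw ζ 2
      - a*b*ζ - a*b + pw b 2*pw ζ 3 - 2*pw b 2*pw ζ 2 + pw b 2*ζ + pw b 2
    ) * hζ

end Fermat.Agent.S52K
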