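import Mathlib
import Fermat.Agent.S52K.IdS0

/-!
# Programme K (S52), brick B0: products of reduced monomial forms

GENERATED by helper94's exact polynomial toolkit (python, Q(zeta5) arithmetic); every identity below was
verified symbolically before emission and is re-proved here by `ring` / `linear_combination`.
-/

set_option autoImplicit false
set_option maxHeartbeats 4000000
set_option maxRecDepth 100000

namespace Fermat.Agent.S52K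

variable {K : Type*} [CommRing K]

/-- `SP10 * SP10 = SP20` modulo the cyclotomic relation. -/
theorem SP20_eq {ζ : K} (hζ : IsZ5 ζ) (a b : K) :
    SP10 ζ a b * SP10 ζ a b = SP20 ζ a b := by
  unfold IsZ5 at hζ
  unfold SP10 SP20
  linear_combination (norm := (simp only [pw]; ring1))
    (
      25*pw a 10*pw ζ 2 + 125*pw a 10*ζ + 275*pw a 10 - 500*pw a 9*b*ζ - 1500*pw a 9*b + 500*pw a 8*pw b 2*pw ζ 2
      + 1500*pw a 8*pw b 2*ζ + 5000*pw a 8*pw b 2 + 500*pw a 7*pw b 3*pw ζ 2 - 4500*pw a 7*pw b 3*ζ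
      - 5500*pw a 7*pw b 3 + 3000*pw a 6*pw b 4*pw ζ 2 - 1500*pw a 6*pw b 4*ζ + 13500*pw a 6*pw b 4
      + 5150*pw a 5*pw b 5*pw ζ 2 - 9750*pw a 5*pw b 5*ζ + 5150*pw a 5*pw b 5 + 7500*pw a 4*pw b 6*pw ζ 2
      - 9000*pw a 4*pw b 6*ζ + 18000*pw a 4*pw b 6 + 6500*pw a 3*pw b 7*pw ζ 2 - 10500*pw a 3*pw b 7*ζ
      + 12500*pw a 3*pw b 7 + 4000*pw a 2*pw b 8*pw ζ 2 - 6000*pw a 2*pw b 8*ζ + 8500*pw a 2*pw b 8
      + 1500*a*pw b 9*pw ζ 2 - 2000*a*pw b 9*ζ + 3000*a*pw b 9 + 225*pw b 10*pw ζ 2 - 375*pw b 10*ζ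
      + 475*pw b 10
    ) * hζ

/-- `SP10 * SP01 = SP11` modulo the cyclotomic relation. -/
theorem SP11_eq {ζ : K} (hζ : IsZ5 ζ) (a b : K) :
    SP10 ζ a b * SP01 ζ a b = SP11 ζ a b := by
  unfold IsZ5 at hζ
  unfold SP10 SP01 SP11
  linear_combination (norm := (simp only [pw]; ring1))
    (
      75*pw a 10*pw ζ 2 + 125*pw a 10*ζ + 75*pw a 10 - 250*pw a 9*b*pw ζ 2 - 1250*pw a 9*b*ζ - 250*pw a 9*b
      + 1000*pw a 8*pw b 2*pw ζ 2 + 2500*pw a 8*pw b 2*ζ + 1000*pw a 8*pw b 2 - 2000*pw a 7*pw b 3*pw ζ 2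
      - 5000*pw a 7*pw b 3*ζ - 2000*pw a 7*pw b 3 + 750*pw a 6*pw b 4*pw ζ 2 + 3750*pw a 6*pw b 4*ζ
      + 750*pw a 6*pw b 4 - 2300*pw a 5*pw b 5*pw ζ 2 - 8000*pw a 5*pw b 5*ζ - 2300*pw a 5*pw b 5
      - 750*pw a 4*pw b 6*pw ζ 2 - 3750*pw a 4*pw b 6*ζ - 750*pw a 4*pw b 6 - 2000*pw a 3*pw b 7*pw ζ 2
      - 5000*pw a 3*pw b 7*ζ - 2000*pw a 3*pw b 7 - 1000*pw a 2*pw b 8*pw ζ 2 - 2500*pw a 2*pw b 8*ζ
      - 1000*pw a 2*pw b 8 - 250*a*pw b 9*pw ζ 2 - 1250*a*pw b 9*ζ - 250*a*pw b 9 - 75*pw b 10*pw ζ 2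
      - 125*pw b 10*ζ - 75*pw b 10
    ) * hζ

/-- `SP01 * SP01 = SP02` modulo the cyclotomic relation. -/
theorem SP02_eq {ζ : K} (hζ : IsZ5 ζ) (a b : K) :
    SP01 ζ a b * SP01 ζ a b = SP02 ζ a b := by
  unfold IsZ5 at hζ
  unfold SP01 SP02
  linear_combination (norm := (simp only [pw]; ring1))
    (
      225*pw a 10*pw ζ 2 - 375*pw a 10*ζ + 475*pw a 10 - 1500*pw a 9*b*pw ζ 2 + 2000*pw a 9*b*ζ - 3000*pw a 9*b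
      + 4000*pw a 8*pw b 2*pw ζ 2 - 6000*pw a 8*pw b 2*ζ + 8500*pw a 8*pw b 2 - 6500*pw a 7*pw b 3*pw ζ 2
      + 10500*pw a 7*pw b 3*ζ - 12500*pw a 7*pw b 3 + 7500*pw a 6*pw b 4*pw ζ 2 - 9000*pw a 6*pw b 4*ζ
      + 18000*pw a 6*pw b 4 - 5150*pw a 5*pw b 5*pw ζ 2 + 9750*pw a 5*pw b 5*ζ - 5150*pw a 5*pw b 5
      + 3000*pw a 4*pw b 6*pw ζ 2 - 1500*pw a 4*pw b 6*ζ + 13500*pw a 4*pw b 6 - 500*pw a 3*pw b 7*pw ζ 2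
      + 4500*pw a 3*pw b 7*ζ + 5500*pw a 3*pw b 7 + 500*pw a 2*pw b 8*pw ζ 2 + 1500*pw a 2*pw b 8*ζ
      + 5000*pw a 2*pw b 8 + 500*a*pw b 9*ζ + 1500*a*pw b 9 + 25*pw b 10*pw ζ 2 + 125*pw b 10*ζ + 275*pw b 10
    ) * hζ

/-- `SP20 * SP10 = SP30` modulo the cyclotomic relation. -/
theorem SP30_eq {ζ : K} (hζ : IsZ5 ζ) (a b : K) :
    SP20 ζ a b * SP10 ζ a b = SP30 ζ a b := by
  unfold IsZ5 at hζ
  unfold SP20 SP10 SP30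
  linear_combination (norm := (simp only [pw]; ring1))
    (
      -1375*pw a 15*pw ζ 2 - 4125*pw a 15*ζ - 4125*pw a 15 + 8750*pw a 14*b*pw ζ 2 + 40000*pw a 14*b*ζ
      + 40000*pw a 14*b - 36250*pw a 13*pw b 2*pw ζ 2 - 168750*pw a 13*pw b 2*ζ - 168750*pw a 13*pw b 2
      + 118750*pw a 12*pw b 3*pw ζ 2 + 461250*pw a 12*pw b 3*ζ + 461250*pw a 12*pw b 3 - 177500*pw a 11*pw b 4*pw ζ 2
      - 841250*pw a 11*pw b 4*ζ - 841250*pw a 11*pw b 4 + 371375*pw a 10*pw b 5*pw ζ 2 + 1127875*pw a 10*pw b 5*ζ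
      + 1127875*pw a 10*pw b 5 + 15000*pw a 9*pw b 6*pw ζ 2 - 1272500*pw a 9*pw b 6*ζ - 1272500*pw a 9*pw b 6
      + 795000*pw a 8*pw b 7*pw ζ 2 + 787500*pw a 8*pw b 7*ζ + 787500*pw a 8*pw b 7 + 787500*pw a 7*pw b 8*pw ζ 2
      - 795000*pw a 7*pw b 8*ζ - 795000*pw a 7*pw b 8 + 1272500*pw a 6*pw b 9*pw ζ 2 + 15000*pw a 6*pw b 9*ζ
      + 15000*pw a 6*pw b 9 + 1127875*pw a 5*pw b 10*pw ζ 2 - 371375*pw a 5*pw b 10*ζ - 371375*pw a 5*pw b 10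
      + 841250*pw a 4*pw b 11*pw ζ 2 - 177500*pw a 4*pw b 11*ζ - 177500*pw a 4*pw b 11 + 461250*pw a 3*pw b 12*pw ζ 2
      - 118750*pw a 3*pw b 12*ζ - 118750*pw a 3*pw b 12 + 168750*pw a 2*pw b 13*pw ζ 2 - 36250*pw a 2*pw b 13*ζ
      - 36250*pw a 2*pw b 13 + 40000*a*pw b 14*pw ζ 2 - 8750*a*pw b 14*ζ - 8750*a*pw b 14 + 4125*pw b 15*pw ζ 2
      - 1375*pw b 15*ζ - 1375*pw b 15
    ) * hζ

/-- `SP20 * SP01 = SP21` modulo the cyclotomic relation. -/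
theorem SP21_eq {ζ : K} (hζ : IsZ5 ζ) (a b : K) :
    SP20 ζ a b * SP01 ζ a b = SP21 ζ a b := by
  unfold IsZ5 at hζ
  unfold SP20 SP01 SP21
  linear_combination (norm := (simp only [pw]; ring1))
    (
      -4125*pw a 15*pw ζ 2 + 1375*pw a 15*ζ + 1375*pw a 15 + 40000*pw a 14*b*pw ζ 2 - 8750*pw a 14*b*ζ
      - 8750*pw a 14*b - 168750*pw a 13*pw b 2*pw ζ 2 + 36250*pw a 13*pw b 2*ζ + 36250*pw a 13*pw b 2
      + 461250*pw a 12*pw b 3*pw ζ 2 - 118750*pw a 12*pw b 3*ζ - 118750*pw a 12*pw b 3 - 841250*pw a 11*pw b 4*pw ζ 2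
      + 177500*pw a 11*pw b 4*ζ + 177500*pw a 11*pw b 4 + 1127875*pw a 10*pw b 5*pw ζ 2 - 371375*pw a 10*pw b 5*ζ
      - 371375*pw a 10*pw b 5 - 1272500*pw a 9*pw b 6*pw ζ 2 - 15000*pw a 9*pw b 6*ζ - 15000*pw a 9*pw b 6
      + 787500*pw a 8*pw b 7*pw ζ 2 - 795000*pw a 8*pw b 7*ζ - 795000*pw a 8*pw b 7 - 795000*pw a 7*pw b 8*pw ζ 2
      - 787500*pw a 7*pw b 8*ζ - 787500*pw a 7*pw b 8 + 15000*pw a 6*pw b 9*pw ζ 2 - 1272500*pw a 6*pw b 9*ζ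
      - 1272500*pw a 6*pw b 9 - 371375*pw a 5*pw b 10*pw ζ 2 - 1127875*pw a 5*pw b 10*ζ - 1127875*pw a 5*pw b 10
      - 177500*pw a 4*pw b 11*pw ζ 2 - 841250*pw a 4*pw b 11*ζ - 841250*pw a 4*pw b 11 - 118750*pw a 3*pw b 12*pw ζ 2
      - 461250*pw a 3*pw b 12*ζ - 461250*pw a 3*pw b 12 - 36250*pw a 2*pw b 13*pw ζ 2 - 168750*pw a 2*pw b 13*ζ
      - 168750*pw a 2*pw b 13 - 8750*a*pw b 14*pw ζ 2 - 40000*a*pw b 14*ζ - 40000*a*pw b 14 - 1375*pw b 15*pw ζ 2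
      - 4125*pw b 15*ζ - 4125*pw b 15
    ) * hζ

/-- `SP02 * SP10 = SP12` modulo the cyclotomic relation. -/
theorem SP12_eq {ζ : K} (hζ : IsZ5 ζ) (a b : K) :
    SP02 ζ a b * SP10 ζ a b = SP12 ζ a b := by
  unfold IsZ5 at hζ
  unfold SP02 SP10 SP12
  linear_combination (norm := (simp only [pw]; ring1))
    (
      1375*pw a 15*pw ζ 2 + 4125*pw a 15*ζ + 4125*pw a 15 - 8750*pw a 14*b*pw ζ 2 - 40000*pw a 14*b*ζ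
      - 40000*pw a 14*b + 36250*pw a 13*pw b 2*pw ζ 2 + 168750*pw a 13*pw b 2*ζ + 168750*pw a 13*pw b 2
      - 118750*pw a 12*pw b 3*pw ζ 2 - 461250*pw a 12*pw b 3*ζ - 461250*pw a 12*pw b 3 + 177500*pw a 11*pw b 4*pw ζ 2
      + 841250*pw a 11*pw b 4*ζ + 841250*pw a 11*pw b 4 - 371375*pw a 10*pw b 5*pw ζ 2 - 1127875*pw a 10*pw b 5*ζ
      - 1127875*pw a 10*pw b 5 - 15000*pw a 9*pw b 6*pw ζ 2 + 1272500*pw a 9*pw b 6*ζ + 1272500*pw a 9*pw b 6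
      - 795000*pw a 8*pw b 7*pw ζ 2 - 787500*pw a 8*pw b 7*ζ - 787500*pw a 8*pw b 7 - 787500*pw a 7*pw b 8*pw ζ 2
      + 795000*pw a 7*pw b 8*ζ + 795000*pw a 7*pw b 8 - 1272500*pw a 6*pw b 9*pw ζ 2 - 15000*pw a 6*pw b 9*ζ
      - 15000*pw a 6*pw b 9 - 1127875*pw a 5*pw b 10*pw ζ 2 + 371375*pw a 5*pw b 10*ζ + 371375*pw a 5*pw b 10
      - 841250*pw a 4*pw b 11*pw ζ 2 + 177500*pw a 4*pw b 11*ζ + 177500*pw a 4*pw b 11 - 461250*pw a 3*pw b 12*pw ζ 2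
      + 118750*pw a 3*pw b 12*ζ + 118750*pw a 3*pw b 12 - 168750*pw a 2*pw b 13*pw ζ 2 + 36250*pw a 2*pw b 13*ζ
      + 36250*pw a 2*pw b 13 - 40000*a*pw b 14*pw ζ 2 + 8750*a*pw b 14*ζ + 8750*a*pw b 14 - 4125*pw b 15*pw ζ 2
      + 1375*pw b 15*ζ + 1375*pw b 15
    ) * hζ

/-- `SP02 * SP01 = SP03` modulo the cyclotomic relation. -/
theorem SP03_eq {ζ : K} (hζ : IsZ5 ζ) (a b : K) :
    SP02 ζ a b * SP01 ζ a b = SP03 ζ a b := by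
  unfold IsZ5 at hζ
  unfold SP02 SP01 SP03
  linear_combination (norm := (simp only [pw]; ring1))
    (
      4125*pw a 15*pw ζ 2 - 1375*pw a 15*ζ - 1375*pw a 15 - 40000*pw a 14*b*pw ζ 2 + 8750*pw a 14*b*ζ
      + 8750*pw a 14*b + 168750*pw a 13*pw b 2*pw ζ 2 - 36250*pw a 13*pw b 2*ζ - 36250*pw a 13*pw b 2
      - 461250*pw a 12*pw b 3*pw ζ 2 + 118750*pw a 12*pw b 3*ζ + 118750*pw a 12*pw b 3 + 841250*pw a 11*pw b 4*pw ζ 2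
      - 177500*pw a 11*pw b 4*ζ - 177500*pw a 11*pw b 4 - 1127875*pw a 10*pw b 5*pw ζ 2 + 371375*pw a 10*pw b 5*ζ
      + 371375*pw a 10*pw b 5 + 1272500*pw a 9*pw b 6*pw ζ 2 + 15000*pw a 9*pw b 6*ζ + 15000*pw a 9*pw b 6
      - 787500*pw a 8*pw b 7*pw ζ 2 + 795000*pw a 8*pw b 7*ζ + 795000*pw a 8*pw b 7 + 795000*pw a 7*pw b 8*pw ζ 2
      + 787500*pw a 7*pw b 8*ζ + 787500*pw a 7*pw b 8 - 15000*pw a 6*pw b 9*pw ζ 2 + 1272500*pw a 6*pw b 9*ζ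
      + 1272500*pw a 6*pw b 9 + 371375*pw a 5*pw b 10*pw ζ 2 + 1127875*pw a 5*pw b 10*ζ + 1127875*pw a 5*pw b 10
      + 177500*pw a 4*pw b 11*pw ζ 2 + 841250*pw a 4*pw b 11*ζ + 841250*pw a 4*pw b 11 + 118750*pw a 3*pw b 12*pw ζ 2
      + 461250*pw a 3*pw b 12*ζ + 461250*pw a 3*pw b 12 + 36250*pw a 2*pw b 13*pw ζ 2 + 168750*pw a 2*pw b 13*ζ
      + 168750*pw a 2*pw b 13 + 8750*a*pw b 14*pw ζ 2 + 40000*a*pw b 14*ζ + 40000*a*pw b 14 + 1375*pw b 15*pw ζ 2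
      + 4125*pw b 15*ζ + 4125*pw b 15
    ) * hζ

end Fermat.Agent.S52K
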