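import Mathlib
import Fermat.Agent.S52K.IdS0

/-!
# Programme K (S52), brick B0: products of reduced monomial forms

GENERATED by helper94's exact polynomial toolkit (python, Q(zeta5) arithmetic); every identity below was
verified symbolically before emission and is re-proved here by `ring` / `linear_combination`.
-/

set_option autoImplicit false
set_option maxHeartbeats 4000000
set_option maxRecDepth 100000

namespace Fermat.Agent.S52K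

variable {K : Type*} [CommRing K]

/-- `SP20 * SP20 = SP40` modulo the cyclotomic relation. -/
theorem SP40_eq {ζ : K} (hζ : IsZ5 ζ) (a b : K) :
    SP20 ζ a b * SP20 ζ a b = SP40 ζ a b := by
  unfold IsZ5 at hζ
  unfold SP20 SP40
  linear_combination (norm := (simp only [pw]; ring1))
    (
      75625*pw a 20*pw ζ 2 + 75625*pw a 20*ζ - 75625*pw a 20 - 962500*pw a 19*b*pw ζ 2 - 962500*pw a 19*b*ζ
      + 962500*pw a 19*b + 5537500*pw a 18*pw b 2*pw ζ 2 + 5537500*pw a 18*pw b 2*ζ - 5537500*pw a 18*pw b 2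
      - 20700000*pw a 17*pw b 3*pw ζ 2 - 20700000*pw a 17*pw b 3*ζ + 20700000*pw a 17*pw b 3 + 54637500*pw a 16*pw b 4*pw ζ 2
      + 54637500*pw a 16*pw b 4*ζ - 54637500*pw a 16*pw b 4 - 106305000*pw a 15*pw b 5*pw ζ 2 - 106305000*pw a 15*pw b 5*ζ
      + 106305000*pw a 15*pw b 5 + 169462500*pw a 14*pw b 6*pw ζ 2 + 169462500*pw a 14*pw b 6*ζ - 169462500*pw a 14*pw b 6
      - 194475000*pw a 13*pw b 7*pw ζ 2 - 194475000*pw a 13*pw b 7*ζ + 194475000*pw a 13*pw b 7 + 236137500*pw a 12*pw b 8*pw ζ 2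
      + 236137500*pw a 12*pw b 8*ζ - 236137500*pw a 12*pw b 8 - 104012500*pw a 11*pw b 9*pw ζ 2 - 104012500*pw a 11*pw b 9*ζ
      + 104012500*pw a 11*pw b 9 + 231108750*pw a 10*pw b 10*pw ζ 2 + 231108750*pw a 10*pw b 10*ζ
      - 231108750*pw a 10*pw b 10 + 104012500*pw a 9*pw b 11*pw ζ 2 + 104012500*pw a 9*pw b 11*ζ
      - 104012500*pw a 9*pw b 11 + 236137500*pw a 8*pw b 12*pw ζ 2 + 236137500*pw a 8*pw b 12*ζ - 236137500*pw a 8*pw b 12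
      + 194475000*pw a 7*pw b 13*pw ζ 2 + 194475000*pw a 7*pw b 13*ζ - 194475000*pw a 7*pw b 13 + 169462500*pw a 6*pw b 14*pw ζ 2
      + 169462500*pw a 6*pw b 14*ζ - 169462500*pw a 6*pw b 14 + 106305000*pw a 5*pw b 15*pw ζ 2 + 106305000*pw a 5*pw b 15*ζ
      - 106305000*pw a 5*pw b 15 + 54637500*pw a 4*pw b 16*pw ζ 2 + 54637500*pw a 4*pw b 16*ζ - 54637500*pw a 4*pw b 16
      + 20700000*pw a 3*pw b 17*pw ζ 2 + 20700000*pw a 3*pw b 17*ζ - 20700000*pw a 3*pw b 17 + 5537500*pw a 2*pw b 18*pw ζ 2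
      + 5537500*pw a 2*pw b 18*ζ - 5537500*pw a 2*pw b 18 + 962500*a*pw b 19*pw ζ 2 + 962500*a*pw b 19*ζ
      - 962500*a*pw b 19 + 75625*pw b 20*pw ζ 2 + 75625*pw b 20*ζ - 75625*pw b 20
    ) * hζ

/-- `SP20 * SP11 = SP31` modulo the cyclotomic relation. -/
theorem SP31_eq {ζ : K} (hζ : IsZ5 ζ) (a b : K) :
    SP20 ζ a b * SP11 ζ a b = SP31 ζ a b := by
  unfold IsZ5 at hζ
  unfold SP20 SP11 SP31
  linear_combination (norm := (simp only [pw]; ring1))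
    (
      -13750*pw a 20*pw ζ 2 - 13750*pw a 20*ζ + 13750*pw a 20 + 18750*pw a 19*b*pw ζ 2 + 18750*pw a 19*b*ζ
      - 18750*pw a 19*b + 143750*pw a 18*pw b 2*pw ζ 2 + 143750*pw a 18*pw b 2*ζ - 143750*pw a 18*pw b 2
      - 100000*pw a 17*pw b 3*pw ζ 2 - 100000*pw a 17*pw b 3*ζ + 100000*pw a 17*pw b 3 + 193750*pw a 16*pw b 4*pw ζ 2
      + 193750*pw a 16*pw b 4*ζ - 193750*pw a 16*pw b 4 + 2353750*pw a 15*pw b 5*pw ζ 2 + 2353750*pw a 15*pw b 5*ζ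
      - 2353750*pw a 15*pw b 5 + 1731250*pw a 14*pw b 6*pw ζ 2 + 1731250*pw a 14*pw b 6*ζ - 1731250*pw a 14*pw b 6
      - 237500*pw a 13*pw b 7*pw ζ 2 - 237500*pw a 13*pw b 7*ζ + 237500*pw a 13*pw b 7 + 2193750*pw a 12*pw b 8*pw ζ 2
      + 2193750*pw a 12*pw b 8*ζ - 2193750*pw a 12*pw b 8 - 3006250*pw a 11*pw b 9*pw ζ 2 - 3006250*pw a 11*pw b 9*ζ
      + 3006250*pw a 11*pw b 9 - 6792500*pw a 10*pw b 10*pw ζ 2 - 6792500*pw a 10*pw b 10*ζ + 6792500*pw a 10*pw b 10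
      + 3006250*pw a 9*pw b 11*pw ζ 2 + 3006250*pw a 9*pw b 11*ζ - 3006250*pw a 9*pw b 11 + 2193750*pw a 8*pw b 12*pw ζ 2
      + 2193750*pw a 8*pw b 12*ζ - 2193750*pw a 8*pw b 12 + 237500*pw a 7*pw b 13*pw ζ 2 + 237500*pw a 7*pw b 13*ζ
      - 237500*pw a 7*pw b 13 + 1731250*pw a 6*pw b 14*pw ζ 2 + 1731250*pw a 6*pw b 14*ζ - 1731250*pw a 6*pw b 14
      - 2353750*pw a 5*pw b 15*pw ζ 2 - 2353750*pw a 5*pw b 15*ζ + 2353750*pw a 5*pw b 15 + 193750*pw a 4*pw b 16*pw ζ 2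
      + 193750*pw a 4*pw b 16*ζ - 193750*pw a 4*pw b 16 + 100000*pw a 3*pw b 17*pw ζ 2 + 100000*pw a 3*pw b 17*ζ
      - 100000*pw a 3*pw b 17 + 143750*pw a 2*pw b 18*pw ζ 2 + 143750*pw a 2*pw b 18*ζ - 143750*pw a 2*pw b 18
      - 18750*a*pw b 19*pw ζ 2 - 18750*a*pw b 19*ζ + 18750*a*pw b 19 - 13750*pw b 20*pw ζ 2 - 13750*pw b 20*ζ
      + 13750*pw b 20
    ) * hζ

/-- `SP11 * SP11 = SP22` modulo the cyclotomic relation. -/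
theorem SP22_eq {ζ : K} (hζ : IsZ5 ζ) (a b : K) :
    SP11 ζ a b * SP11 ζ a b = SP22 ζ a b := by
  unfold IsZ5 at hζ
  unfold SP11 SP22
  linear_combination (norm := (simp only [pw]; ring1))
    (
      2500*pw a 20*pw ζ 2 + 2500*pw a 20*ζ - 2500*pw a 20 + 25000*pw a 19*b*pw ζ 2 + 25000*pw a 19*b*ζ
      - 25000*pw a 19*b + 87500*pw a 18*pw b 2*pw ζ 2 + 87500*pw a 18*pw b 2*ζ - 87500*pw a 18*pw b 2
      + 75000*pw a 17*pw b 3*pw ζ 2 + 75000*pw a 17*pw b 3*ζ - 75000*pw a 17*pw b 3 - 262500*pw a 16*pw b 4*pw ζ 2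
      - 262500*pw a 16*pw b 4*ζ + 262500*pw a 16*pw b 4 - 570000*pw a 15*pw b 5*pw ζ 2 - 570000*pw a 15*pw b 5*ζ
      + 570000*pw a 15*pw b 5 + 225000*pw a 14*pw b 6*pw ζ 2 + 225000*pw a 14*pw b 6*ζ - 225000*pw a 14*pw b 6
      + 1350000*pw a 13*pw b 7*pw ζ 2 + 1350000*pw a 13*pw b 7*ζ - 1350000*pw a 13*pw b 7 + 112500*pw a 12*pw b 8*pw ζ 2
      + 112500*pw a 12*pw b 8*ζ - 112500*pw a 12*pw b 8 - 1925000*pw a 11*pw b 9*pw ζ 2 - 1925000*pw a 11*pw b 9*ζ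
      + 1925000*pw a 11*pw b 9 - 327500*pw a 10*pw b 10*pw ζ 2 - 327500*pw a 10*pw b 10*ζ + 327500*pw a 10*pw b 10
      + 1925000*pw a 9*pw b 11*pw ζ 2 + 1925000*pw a 9*pw b 11*ζ - 1925000*pw a 9*pw b 11 + 112500*pw a 8*pw b 12*pw ζ 2
      + 112500*pw a 8*pw b 12*ζ - 112500*pw a 8*pw b 12 - 1350000*pw a 7*pw b 13*pw ζ 2 - 1350000*pw a 7*pw b 13*ζ
      + 1350000*pw a 7*pw b 13 + 225000*pw a 6*pw b 14*pw ζ 2 + 225000*pw a 6*pw b 14*ζ - 225000*pw a 6*pw b 14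
      + 570000*pw a 5*pw b 15*pw ζ 2 + 570000*pw a 5*pw b 15*ζ - 570000*pw a 5*pw b 15 - 262500*pw a 4*pw b 16*pw ζ 2
      - 262500*pw a 4*pw b 16*ζ + 262500*pw a 4*pw b 16 - 75000*pw a 3*pw b 17*pw ζ 2 - 75000*pw a 3*pw b 17*ζ
      + 75000*pw a 3*pw b 17 + 87500*pw a 2*pw b 18*pw ζ 2 + 87500*pw a 2*pw b 18*ζ - 87500*pw a 2*pw b 18
      - 25000*a*pw b 19*pw ζ 2 - 25000*a*pw b 19*ζ + 25000*a*pw b 19 + 2500*pw b 20*pw ζ 2 + 2500*pw b 20*ζ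
      - 2500*pw b 20
    ) * hζ

/-- `SP11 * SP02 = SP13` modulo the cyclotomic relation. -/
theorem SP13_eq {ζ : K} (hζ : IsZ5 ζ) (a b : K) :
    SP11 ζ a b * SP02 ζ a b = SP13 ζ a b := by
  unfold IsZ5 at hζ
  unfold SP11 SP02 SP13
  linear_combination (norm := (simp only [pw]; ring1))
    (
      13750*pw a 20*pw ζ 2 + 13750*pw a 20*ζ - 13750*pw a 20 - 18750*pw a 19*b*pw ζ 2 - 18750*pw a 19*b*ζ
      + 18750*pw a 19*b - 143750*pw a 18*pw b 2*pw ζ 2 - 143750*pw a 18*pw b 2*ζ + 143750*pw a 18*pw b 2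
      + 100000*pw a 17*pw b 3*pw ζ 2 + 100000*pw a 17*pw b 3*ζ - 100000*pw a 17*pw b 3 - 193750*pw a 16*pw b 4*pw ζ 2
      - 193750*pw a 16*pw b 4*ζ + 193750*pw a 16*pw b 4 - 2353750*pw a 15*pw b 5*pw ζ 2 - 2353750*pw a 15*pw b 5*ζ
      + 2353750*pw a 15*pw b 5 - 1731250*pw a 14*pw b 6*pw ζ 2 - 1731250*pw a 14*pw b 6*ζ + 1731250*pw a 14*pw b 6
      + 237500*pw a 13*pw b 7*pw ζ 2 + 237500*pw a 13*pw b 7*ζ - 237500*pw a 13*pw b 7 - 2193750*pw a 12*pw b 8*pw ζ 2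
      - 2193750*pw a 12*pw b 8*ζ + 2193750*pw a 12*pw b 8 + 3006250*pw a 11*pw b 9*pw ζ 2 + 3006250*pw a 11*pw b 9*ζ
      - 3006250*pw a 11*pw b 9 + 6792500*pw a 10*pw b 10*pw ζ 2 + 6792500*pw a 10*pw b 10*ζ - 6792500*pw a 10*pw b 10
      - 3006250*pw a 9*pw b 11*pw ζ 2 - 3006250*pw a 9*pw b 11*ζ + 3006250*pw a 9*pw b 11 - 2193750*pw a 8*pw b 12*pw ζ 2
      - 2193750*pw a 8*pw b 12*ζ + 2193750*pw a 8*pw b 12 - 237500*pw a 7*pw b 13*pw ζ 2 - 237500*pw a 7*pw b 13*ζ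
      + 237500*pw a 7*pw b 13 - 1731250*pw a 6*pw b 14*pw ζ 2 - 1731250*pw a 6*pw b 14*ζ + 1731250*pw a 6*pw b 14
      + 2353750*pw a 5*pw b 15*pw ζ 2 + 2353750*pw a 5*pw b 15*ζ - 2353750*pw a 5*pw b 15 - 193750*pw a 4*pw b 16*pw ζ 2
      - 193750*pw a 4*pw b 16*ζ + 193750*pw a 4*pw b 16 - 100000*pw a 3*pw b 17*pw ζ 2 - 100000*pw a 3*pw b 17*ζ
      + 100000*pw a 3*pw b 17 - 143750*pw a 2*pw b 18*pw ζ 2 - 143750*pw a 2*pw b 18*ζ + 143750*pw a 2*pw b 18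
      + 18750*a*pw b 19*pw ζ 2 + 18750*a*pw b 19*ζ - 18750*a*pw b 19 + 13750*pw b 20*pw ζ 2 + 13750*pw b 20*ζ
      - 13750*pw b 20
    ) * hζ

/-- `SP02 * SP02 = SP04` modulo the cyclotomic relation. -/
theorem SP04_eq {ζ : K} (hζ : IsZ5 ζ) (a b : K) :
    SP02 ζ a b * SP02 ζ a b = SP04 ζ a b := by
  unfold IsZ5 at hζ
  unfold SP02 SP04
  linear_combination (norm := (simp only [pw]; ring1))
    (
      75625*pw a 20*pw ζ 2 + 75625*pw a 20*ζ - 75625*pw a 20 - 962500*pw a 19*b*pw ζ 2 - 962500*pw a 19*b*ζ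
      + 962500*pw a 19*b + 5537500*pw a 18*pw b 2*pw ζ 2 + 5537500*pw a 18*pw b 2*ζ - 5537500*pw a 18*pw b 2
      - 20700000*pw a 17*pw b 3*pw ζ 2 - 20700000*pw a 17*pw b 3*ζ + 20700000*pw a 17*pw b 3 + 54637500*pw a 16*pw b 4*pw ζ 2
      + 54637500*pw a 16*pw b 4*ζ - 54637500*pw a 16*pw b 4 - 106305000*pw a 15*pw b 5*pw ζ 2 - 106305000*pw a 15*pw b 5*ζ
      + 106305000*pw a 15*pw b 5 + 169462500*pw a 14*pw b 6*pw ζ 2 + 169462500*pw a 14*pw b 6*ζ - 169462500*pw a 14*pw b 6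
      - 194475000*pw a 13*pw b 7*pw ζ 2 - 194475000*pw a 13*pw b 7*ζ + 194475000*pw a 13*pw b 7 + 236137500*pw a 12*pw b 8*pw ζ 2
      + 236137500*pw a 12*pw b 8*ζ - 236137500*pw a 12*pw b 8 - 104012500*pw a 11*pw b 9*pw ζ 2 - 104012500*pw a 11*pw b 9*ζ
      + 104012500*pw a 11*pw b 9 + 231108750*pw a 10*pw b 10*pw ζ 2 + 231108750*pw a 10*pw b 10*ζ
      - 231108750*pw a 10*pw b 10 + 104012500*pw a 9*pw b 11*pw ζ 2 + 104012500*pw a 9*pw b 11*ζ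
      - 104012500*pw a 9*pw b 11 + 236137500*pw a 8*pw b 12*pw ζ 2 + 236137500*pw a 8*pw b 12*ζ - 236137500*pw a 8*pw b 12
      + 194475000*pw a 7*pw b 13*pw ζ 2 + 194475000*pw a 7*pw b 13*ζ - 194475000*pw a 7*pw b 13 + 169462500*pw a 6*pw b 14*pw ζ 2
      + 169462500*pw a 6*pw b 14*ζ - 169462500*pw a 6*pw b 14 + 106305000*pw a 5*pw b 15*pw ζ 2 + 106305000*pw a 5*pw b 15*ζ
      - 106305000*pw a 5*pw b 15 + 54637500*pw a 4*pw b 16*pw ζ 2 + 54637500*pw a 4*pw b 16*ζ - 54637500*pw a 4*pw b 16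
      + 20700000*pw a 3*pw b 17*pw ζ 2 + 20700000*pw a 3*pw b 17*ζ - 20700000*pw a 3*pw b 17 + 5537500*pw a 2*pw b 18*pw ζ 2
      + 5537500*pw a 2*pw b 18*ζ - 5537500*pw a 2*pw b 18 + 962500*a*pw b 19*pw ζ 2 + 962500*a*pw b 19*ζ
      - 962500*a*pw b 19 + 75625*pw b 20*pw ζ 2 + 75625*pw b 20*ζ - 75625*pw b 20
    ) * hζ

end Fermat.Agent.S52K
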