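import Mathlib
import Fermat.Agent.S52K.IdS1
import Fermat.Agent.S52K.IdS2
import Fermat.Agent.S52K.IdS3a
import Fermat.Agent.S52K.IdS3b

/-!
# Programme K (S52), brick B0: assembled S-identities: invariance of f, H, T; action on Q, R; covariance of v1

GENERATED by helper94's exact polynomial toolkit (python, Q(zeta5) arithmetic); every identity below was
verified symbolically before emission and is re-proved here by `ring` / `linear_combination`.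
-/

set_option autoImplicit false
set_option maxHeartbeats 4000000
set_option maxRecDepth 100000

namespace Fermat.Agent.S52K

variable {K : Type*} [CommRing K]

/-- exact linear identity behind `H(S' v) = 5^10 H(v)`. -/
theorem tH_lin (ζ a b : K) :
    -(SP40 ζ a b + SP04 ζ a b) + 228*(SP31 ζ a b - SP13 ζ a b) - 494*SP22 ζ a b = 5^10 * kH a b := by
  unfold SP40 SP04 SP31 SP13 SP22 kH
  simp only [pw]
  ring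

/-- exact linear identity behind `T(S' v) = 5^15 T(v)`. -/
theorem tT_lin (ζ a b : K) :
    (SP60 ζ a b + SP06 ζ a b) + 522*(SP51 ζ a b - SP15 ζ a b) - 10005*(SP42 ζ a b + SP24 ζ a b) = 5^15 * kT a b := by
  unfold SP60 SP06 SP51 SP15 SP42 SP24 kT
  simp only [pw]
  ring

/-- staged `S`-invariance of `f`. -/
theorem tf_S {ζ : K} (hζ : IsZ5 ζ) (a b : K) :
    s5 ζ * (a^2 + a*b - b^2) * (SP20 ζ a b + 11*SP11 ζ a b - SP02 ζ a b) = 5^6 * kf a b := by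
  unfold IsZ5 at hζ
  unfold s5 SP20 SP11 SP02 kf
  linear_combination (norm := (simp only [pw]; ring1))
    (
      -12500*pw a 11*b*pw ζ 3 + 12500*pw a 11*b*ζ - 18750*pw a 11*b - 137500*pw a 6*pw b 6*pw ζ 3
      + 137500*pw a 6*pw b 6*ζ - 206250*pw a 6*pw b 6 + 12500*a*pw b 11*pw ζ 3 - 12500*a*pw b 11*ζ
      + 18750*a*pw b 11
    ) * hζ

/-- staged `X_R(S v) = X_Q(v)`. -/
theorem txr_S {ζ : K} (hζ : IsZ5 ζ) (a b : K) :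
    -(75*(SP20 ζ a b + SP02 ζ a b) + 18*(1 + 2*ζ + 2*ζ^4)*(SP20 ζ a b + 11*SP11 ζ a b - SP02 ζ a b)) = 5^6 * XQ a b := by
  unfold IsZ5 at hζ
  unfold SP20 SP11 SP02 XQ
  linear_combination (norm := (simp only [pw]; ring1))
    (
      225000*pw a 9*b*pw ζ 3 - 225000*pw a 9*b*ζ + 337500*pw a 9*b - 225000*pw a 8*pw b 2*pw ζ 3
      + 225000*pw a 8*pw b 2*ζ - 337500*pw a 8*pw b 2 + 450000*pw a 7*pw b 3*pw ζ 3 - 450000*pw a 7*pw b 3*ζ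
      + 675000*pw a 7*pw b 3 - 675000*pw a 6*pw b 4*pw ζ 3 + 675000*pw a 6*pw b 4*ζ - 1012500*pw a 6*pw b 4
      + 1125000*pw a 5*pw b 5*pw ζ 3 - 1125000*pw a 5*pw b 5*ζ + 1687500*pw a 5*pw b 5 + 675000*pw a 4*pw b 6*pw ζ 3
      - 675000*pw a 4*pw b 6*ζ + 1012500*pw a 4*pw b 6 + 450000*pw a 3*pw b 7*pw ζ 3 - 450000*pw a 3*pw b 7*ζ
      + 675000*pw a 3*pw b 7 + 225000*pw a 2*pw b 8*pw ζ 3 - 225000*pw a 2*pw b 8*ζ + 337500*pw a 2*pw b 8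
      + 225000*a*pw b 9*pw ζ 3 - 225000*a*pw b 9*ζ + 337500*a*pw b 9
    ) * hζ

/-- staged `Y_R(S v) = Y_Q(v)`. -/
theorem tyr_S {ζ : K} (hζ : IsZ5 ζ) (a b : K) :
    108*(2*ζ + ζ^2 - ζ^3 - 2*ζ^4)*(SP30 ζ a b + (19 + 5*(ζ^2+ζ^3))*SP21 ζ a b + (87 + 55*(ζ^2+ζ^3))*SP12 ζ a b - (8 + 5*(ζ^2+ζ^3))*SP03 ζ a b) = 5^8 * s5 ζ * YQ a b := by
  unfold IsZ5 at hζ
  unfold SP30 SP21 SP12 SP03 YQ s5
  linear_combination (norm := (simp only [pw]; ring1))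
    (
      -118125000*pw a 14*b*pw ζ 6 - 42187500*pw a 14*b*pw ζ 5 + 84375000*pw a 14*b*pw ζ 4 - 135000000*pw a 14*b*pw ζ 3
      + 185625000*pw a 14*b*pw ζ 2 + 25312500*pw a 14*b*ζ - 42187500*pw a 14*b + 455625000*pw a 13*pw b 2*pw ζ 6
      + 42187500*pw a 13*pw b 2*pw ζ 5 - 506250000*pw a 13*pw b 2*pw ζ 4 + 556875000*pw a 13*pw b 2*pw ζ 3
      - 565312500*pw a 13*pw b 2*pw ζ 2 + 16875000*pw a 13*pw b 2*ζ + 168750000*pw a 13*pw b 2 - 1080000000*pw a 12*pw b 3*pw ζ 6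
      - 506250000*pw a 12*pw b 3*pw ζ 5 + 590625000*pw a 12*pw b 3*pw ζ 4 - 1198125000*pw a 12*pw b 3*pw ζ 3
      + 1847812500*pw a 12*pw b 3*pw ζ 2 + 345937500*pw a 12*pw b 3*ζ - 379687500*pw a 12*pw b 3
      + 1704375000*pw a 11*pw b 4*pw ζ 6 + 126562500*pw a 11*pw b 4*pw ζ 5 - 1940625000*pw a 11*pw b 4*pw ζ 4
      + 2092500000*pw a 11*pw b 4*pw ζ 3 - 2075625000*pw a 11*pw b 4*pw ζ 2 + 92812500*pw a 11*pw b 4*ζ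
      + 632812500*pw a 11*pw b 4 - 2953125000*pw a 10*pw b 5*pw ζ 6 - 1054687500*pw a 10*pw b 5*pw ζ 5
      + 2109375000*pw a 10*pw b 5*pw ζ 4 - 3375000000*pw a 10*pw b 5*pw ζ 3 + 4640625000*pw a 10*pw b 5*pw ζ 2
      + 632812500*pw a 10*pw b 5*ζ - 1054687500*pw a 10*pw b 5 + 3341250000*pw a 9*pw b 6*pw ζ 6
      + 590625000*pw a 9*pw b 6*pw ζ 5 - 3290625000*pw a 9*pw b 6*pw ζ 4 + 3999375000*pw a 9*pw b 6*pw ζ 3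
      - 4497187500*pw a 9*pw b 6*pw ζ 2 - 143437500*pw a 9*pw b 6*ζ + 1223437500*pw a 9*pw b 6 - 2581875000*pw a 8*pw b 7*pw ζ 6
      - 1645312500*pw a 8*pw b 7*pw ζ 5 + 759375000*pw a 8*pw b 7*pw ζ 4 - 2733750000*pw a 8*pw b 7*pw ζ 3
      + 4961250000*pw a 8*pw b 7*pw ζ 2 + 1240312500*pw a 8*pw b 7*ζ - 885937500*pw a 8*pw b 7 + 354375000*pw a 7*pw b 8*pw ζ 6
      - 2404687500*pw a 7*pw b 8*pw ζ 5 - 4050000000*pw a 7*pw b 8*pw ζ 4 + 1164375000*pw a 7*pw b 8*pw ζ 3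
      + 2607187500*pw a 7*pw b 8*pw ζ 2 + 2328750000*pw a 7*pw b 8*ζ + 253125000*pw a 7*pw b 8 - 1080000000*pw a 6*pw b 9*pw ζ 6
      - 3881250000*pw a 6*pw b 9*pw ζ 5 - 4471875000*pw a 6*pw b 9*pw ζ 4 - 185625000*pw a 6*pw b 9*pw ζ 3
      + 6066562500*pw a 6*pw b 9*pw ζ 2 + 3552187500*pw a 6*pw b 9*ζ - 210937500*pw a 6*pw b 9 - 421875000*pw a 5*pw b 10*pw ζ 6
      - 3164062500*pw a 5*pw b 10*pw ζ 5 - 4218750000*pw a 5*pw b 10*pw ζ 4 + 421875000*pw a 5*pw b 10*pw ζ 3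
      + 4429687500*pw a 5*pw b 10*pw ζ 2 + 2953125000*pw a 5*pw b 10*ζ - 725625000*pw a 4*pw b 11*pw ζ 6
      - 2067187500*pw a 4*pw b 11*pw ζ 5 - 2193750000*pw a 4*pw b 11*pw ζ 4 - 286875000*pw a 4*pw b 11*pw ζ 3
      + 3400312500*pw a 4*pw b 11*pw ζ 2 + 1873125000*pw a 4*pw b 11*ζ - 168750000*pw a 4*pw b 11
      - 33750000*pw a 3*pw b 12*pw ζ 6 - 1096875000*pw a 3*pw b 12*pw ζ 5 - 1603125000*pw a 3*pw b 12*pw ζ 4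
      + 286875000*pw a 3*pw b 12*pw ζ 3 + 1409062500*pw a 3*pw b 12*pw ζ 2 + 1037812500*pw a 3*pw b 12*ζ
      + 42187500*pw a 3*pw b 12 - 185625000*pw a 2*pw b 13*pw ζ 6 - 548437500*pw a 2*pw b 13*pw ζ 5
      - 590625000*pw a 2*pw b 13*pw ζ 4 - 67500000*pw a 2*pw b 13*pw ζ 3 + 894375000*pw a 2*pw b 13*pw ζ 2
      + 497812500*pw a 2*pw b 13*ζ - 42187500*pw a 2*pw b 13 - 16875000*a*pw b 14*pw ζ 6 - 126562500*a*pw b 14*pw ζ 5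
      - 168750000*a*pw b 14*pw ζ 4 + 16875000*a*pw b 14*pw ζ 3 + 177187500*a*pw b 14*pw ζ 2 + 118125000*a*pw b 14*ζ
    ) * hζ

/-- staged covariance of `v1` (first coordinate). -/
theorem tw1_S {ζ : K} (hζ : IsZ5 ζ) (a b : K) :
    S1 ζ a b * (SP20 ζ a b + 66*SP11 ζ a b - 11*SP02 ζ a b) = 5^5 * S1 ζ (w1 a b) (w2 a b) := by
  unfold IsZ5 at hζ
  unfold S1 sp sr SP20 SP11 SP02 w1 w2
  linear_combination (norm := (simp only [pw]; ring1))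
    (
      -37500*pw a 10*b*pw ζ 3 + 37500*pw a 10*b*ζ + 37500*pw a 9*pw b 2*pw ζ 3 + 37500*pw a 9*pw b 2*pw ζ 2
      - 75000*pw a 9*pw b 2*ζ - 75000*pw a 8*pw b 3*pw ζ 3 - 37500*pw a 8*pw b 3*pw ζ 2 + 112500*pw a 8*pw b 3*ζ
      + 112500*pw a 7*pw b 4*pw ζ 3 + 75000*pw a 7*pw b 4*pw ζ 2 - 187500*pw a 7*pw b 4*ζ - 187500*pw a 6*pw b 5*pw ζ 3
      - 112500*pw a 6*pw b 5*pw ζ 2 + 300000*pw a 6*pw b 5*ζ - 112500*pw a 5*pw b 6*pw ζ 3 + 187500*pw a 5*pw b 6*pw ζ 2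
      - 75000*pw a 5*pw b 6*ζ - 75000*pw a 4*pw b 7*pw ζ 3 + 112500*pw a 4*pw b 7*pw ζ 2 - 37500*pw a 4*pw b 7*ζ
      - 37500*pw a 3*pw b 8*pw ζ 3 + 75000*pw a 3*pw b 8*pw ζ 2 - 37500*pw a 3*pw b 8*ζ - 37500*pw a 2*pw b 9*pw ζ 3
      + 37500*pw a 2*pw b 9*pw ζ 2 + 37500*a*pw b 10*pw ζ 2 - 37500*a*pw b 10*ζ
    ) * hζ

/-- staged covariance of `v1` (second coordinate). -/
theorem tw2_S {ζ : K} (hζ : IsZ5 ζ) (a b : K) :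
    S2 ζ a b * (-11*SP20 ζ a b - 66*SP11 ζ a b + SP02 ζ a b) = 5^5 * S2 ζ (w1 a b) (w2 a b) := by
  unfold IsZ5 at hζ
  unfold S2 sp sr SP20 SP11 SP02 w1 w2
  linear_combination (norm := (simp only [pw]; ring1))
    (
      -37500*pw a 10*b*pw ζ 2 + 37500*pw a 10*b*ζ - 37500*pw a 9*pw b 2*pw ζ 3 + 37500*pw a 9*pw b 2*pw ζ 2
      + 37500*pw a 8*pw b 3*pw ζ 3 - 75000*pw a 8*pw b 3*pw ζ 2 + 37500*pw a 8*pw b 3*ζ - 75000*pw a 7*pw b 4*pw ζ 3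
      + 112500*pw a 7*pw b 4*pw ζ 2 - 37500*pw a 7*pw b 4*ζ + 112500*pw a 6*pw b 5*pw ζ 3 - 187500*pw a 6*pw b 5*pw ζ 2
      + 75000*pw a 6*pw b 5*ζ - 187500*pw a 5*pw b 6*pw ζ 3 - 112500*pw a 5*pw b 6*pw ζ 2 + 300000*pw a 5*pw b 6*ζ
      - 112500*pw a 4*pw b 7*pw ζ 3 - 75000*pw a 4*pw b 7*pw ζ 2 + 187500*pw a 4*pw b 7*ζ - 75000*pw a 3*pw b 8*pw ζ 3
      - 37500*pw a 3*pw b 8*pw ζ 2 + 112500*pw a 3*pw b 8*ζ - 37500*pw a 2*pw b 9*pw ζ 3 - 37500*pw a 2*pw b 9*pw ζ 2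
      + 75000*pw a 2*pw b 9*ζ - 37500*a*pw b 10*pw ζ 3 + 37500*a*pw b 10*ζ
    ) * hζ


section assembled
variable {ζ : K} (hζ : IsZ5 ζ) (a b : K)
include hζ

theorem S_pow_20 : S1 ζ a b ^ 10 = SP20 ζ a b := by
  rw [← SP20_eq hζ, ← S1_pow5 hζ]; ring
theorem S_pow_11 : S1 ζ a b ^ 5 * S2 ζ a b ^ 5 = SP11 ζ a b := by
  rw [← SP11_eq hζ, ← S1_pow5 hζ, ← S2_pow5 hζ]
theorem S_pow_02 : S2 ζ a b ^ 10 = SP02 ζ a b := by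
  rw [← SP02_eq hζ, ← S2_pow5 hζ]; ring
theorem S_pow_30 : S1 ζ a b ^ 15 = SP30 ζ a b := by
  rw [← SP30_eq hζ, ← S_pow_20 hζ, ← S1_pow5 hζ]; ring
theorem S_pow_21 : S1 ζ a b ^ 10 * S2 ζ a b ^ 5 = SP21 ζ a b := by
  rw [← SP21_eq hζ, ← S_pow_20 hζ, ← S2_pow5 hζ]
theorem S_pow_12 : S1 ζ a b ^ 5 * S2 ζ a b ^ 10 = SP12 ζ a b := by
  rw [← SP12_eq hζ, ← S_pow_02 hζ, ← S1_pow5 hζ]; ring
theorem S_pow_03 : S2 ζ a b ^ 15 = SP03 ζ a b := by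
  rw [← SP03_eq hζ, ← S_pow_02 hζ, ← S2_pow5 hζ]; ring
theorem S_pow_40 : S1 ζ a b ^ 20 = SP40 ζ a b := by
  rw [← SP40_eq hζ, ← S_pow_20 hζ]; ring
theorem S_pow_31 : S1 ζ a b ^ 15 * S2 ζ a b ^ 5 = SP31 ζ a b := by
  rw [← SP31_eq hζ, ← S_pow_20 hζ, ← S_pow_11 hζ]; ring
theorem S_pow_22 : S1 ζ a b ^ 10 * S2 ζ a b ^ 10 = SP22 ζ a b := by
  rw [← SP22_eq hζ, ← S_pow_11 hζ]; ring
theorem S_pow_13 : S1 ζ a b ^ 5 * S2 ζ a b ^ 15 = SP13 ζ a b := by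
  rw [← SP13_eq hζ, ← S_pow_11 hζ, ← S_pow_02 hζ]; ring
theorem S_pow_04 : S2 ζ a b ^ 20 = SP04 ζ a b := by
  rw [← SP04_eq hζ, ← S_pow_02 hζ]; ring
theorem S_pow_60 : S1 ζ a b ^ 30 = SP60 ζ a b := by
  rw [← SP60_eq hζ, ← S_pow_40 hζ, ← S_pow_20 hζ]; ring
theorem S_pow_51 : S1 ζ a b ^ 25 * S2 ζ a b ^ 5 = SP51 ζ a b := by
  rw [← SP51_eq hζ, ← S_pow_40 hζ, ← S_pow_11 hζ]; ring
theorem S_pow_42 : S1 ζ a b ^ 20 * S2 ζ a b ^ 10 = SP42 ζ a b := by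
  rw [← SP42_eq hζ, ← S_pow_40 hζ, ← S_pow_02 hζ]
theorem S_pow_24 : S1 ζ a b ^ 10 * S2 ζ a b ^ 20 = SP24 ζ a b := by
  rw [← SP24_eq hζ, ← S_pow_04 hζ, ← S_pow_20 hζ]; ring
theorem S_pow_15 : S1 ζ a b ^ 5 * S2 ζ a b ^ 25 = SP15 ζ a b := by
  rw [← SP15_eq hζ, ← S_pow_04 hζ, ← S_pow_11 hζ]; ring
theorem S_pow_06 : S2 ζ a b ^ 30 = SP06 ζ a b := by
  rw [← SP06_eq hζ, ← S_pow_04 hζ, ← S_pow_02 hζ]; ring

/-- `f(S' v) = 5^6 f(v)`. -/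
theorem kf_S : kf (S1 ζ a b) (S2 ζ a b) = 5^6 * kf a b := by
  rw [← tf_S hζ, ← S_pow_20 hζ, ← S_pow_11 hζ, ← S_pow_02 hζ, ← S1_mul_S2 hζ]
  unfold kf; ring
/-- `H(S' v) = 5^10 H(v)`. -/
theorem kH_S : kH (S1 ζ a b) (S2 ζ a b) = 5^10 * kH a b := by
  rw [← tH_lin ζ a b, ← S_pow_40 hζ, ← S_pow_04 hζ, ← S_pow_31 hζ, ← S_pow_13 hζ, ← S_pow_22 hζ]
  unfold kH; ring
/-- `T(S' v) = 5^15 T(v)`. -/
theorem kT_S : kT (S1 ζ a b) (S2 ζ a b) = 5^15 * kT a b := by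
  rw [← tT_lin ζ a b, ← S_pow_60 hζ, ← S_pow_06 hζ, ← S_pow_51 hζ, ← S_pow_15 hζ, ← S_pow_42 hζ,
    ← S_pow_24 hζ]
  unfold kT; ring
/-- `5 X_R(S' v) = 5^6 X_Q(v)`. -/
theorem xr5_S : xr5 ζ (S1 ζ a b) (S2 ζ a b) = 5^6 * XQ a b := by
  rw [← txr_S hζ, ← S_pow_20 hζ, ← S_pow_11 hζ, ← S_pow_02 hζ]
  unfold xr5; ring
/-- `5 Y_R(S' v) = 5^8 sqrt5 Y_Q(v)`. -/
theorem yr5_S : yr5 ζ (S1 ζ a b) (S2 ζ a b) = 5^8 * s5 ζ * YQ a b := by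
  rw [← tyr_S hζ, ← S_pow_30 hζ, ← S_pow_21 hζ, ← S_pow_12 hζ, ← S_pow_03 hζ]
  unfold yr5; ring
/-- `v1(S' v) = 5^5 S'(v1 v)` (first coordinate). -/
theorem w1_S : w1 (S1 ζ a b) (S2 ζ a b) = 5^5 * S1 ζ (w1 a b) (w2 a b) := by
  rw [← tw1_S hζ, ← S_pow_20 hζ, ← S_pow_11 hζ, ← S_pow_02 hζ]
  unfold w1; ring
/-- `v1(S' v) = 5^5 S'(v1 v)` (second coordinate). -/
theorem w2_S : w2 (S1 ζ a b) (S2 ζ a b) = 5^5 * S2 ζ (w1 a b) (w2 a b) := by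
  rw [← tw2_S hζ, ← S_pow_20 hζ, ← S_pow_11 hζ, ← S_pow_02 hζ]
  unfold w2; ring

end assembled

end Fermat.Agent.S52K
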