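import Mathlib
import Fermat.Agent.S52K.IdS

/-!
# Programme K (S52), brick B0: field-level form of the Klein data

`K` a field with `30 ≠ 0` and `ζ : K` a root of the 5th cyclotomic polynomial (`IsZ5 ζ`).
Curve: `E_v : y^2 = x^3 + 27 H(v) x + 54 T(v)`   (`c4 = -H`, `c6 = -T`, `Δ = -f^5` up to `6^12`).
Points: `Q(v) = (XQ, YQ)` (rational coefficients), `R(v) = (XR ζ, YR ζ)`.
Generators of the binary icosahedral group acting on `v = (a, b)`: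
`T5 v = (ζ^3 a, ζ^2 b)` and `S v = (Sa ζ a b, Sb ζ a b)`.
Laws (all proved below as identities between forms):
* `Q(T5 v) = Q(v) + (-R(v))` in chord form with slope `lam` (`add_slope'`, `add_X'`, `add_Y'`),
  `R(T5 v) = R(v)` (`XR_T5`, `YR_T5`);
* `R(S v) = Q(v)` (`XR_S`, `YR_S`), `Q(S v) = -R(v)` (`XQ_S'`, `YQ_S'`), `S (S v) = -v`;
* `R_{ζ^2}(v) = 2 R_ζ(v)` in tangent form with slope `mu` (`dbl_slope'`, `dbl_X'`, `dbl_Y'`);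
* `X_Q ≠ X_R` when `f ≠ 0` (`XQ_ne_XR`);
* `f, H, T` are invariant under `S, T5`; the covariant `v1 = (w1, w2)` satisfies `v1 (g v) = g (v1 v)`.
-/

set_option autoImplicit false

namespace Fermat.Agent.S52K

variable {K : Type*} [Field K]

/-- x-coordinate of `R(v)`. -/
noncomputable def XR (ζ a b : K) : K := xr5 ζ a b / 5
/-- y-coordinate of `R(v)`. -/
noncomputable def YR (ζ a b : K) : K := yr5 ζ a b / 5
/-- slope of the chord through `Q(v)` and `-R(v)`. -/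
noncomputable def lam (ζ a b : K) : K := lam5 ζ a b / 5
/-- slope of the tangent at `R(v)`. -/
noncomputable def mu (ζ a b : K) : K := mu5 ζ a b / 5
/-- first coordinate of `S v`. -/
noncomputable def Sa (ζ a b : K) : K := S1 ζ a b / s5 ζ
/-- second coordinate of `S v`. -/
noncomputable def Sb (ζ a b : K) : K := S2 ζ a b / s5 ζ

section
variable {ζ : K}

theorem s5_ne_zero (h5 : (5 : K) ≠ 0) (hζ : IsZ5 ζ) : s5 ζ ≠ 0 := by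
  intro h
  have h2 := s5_sq hζ
  rw [h] at h2
  exact h5 (by simpa using h2.symm)

theorem zeta_ne_zero (hζ : IsZ5 ζ) : ζ ≠ 0 := by
  intro h
  have := hζ.pow_five
  rw [h] at this
  simp at this

theorem onCurve_R' (h5 : (5 : K) ≠ 0) (hζ : IsZ5 ζ) (a b : K) :
    YR ζ a b ^ 2 = XR ζ a b ^ 3 + 27 * kH a b * XR ζ a b + 54 * kT a b := by
  have h := onCurve_R hζ a b
  unfold YR XR
  field_simp
  linear_combination h

theorem add_slope' (h5 : (5 : K) ≠ 0) (hζ : IsZ5 ζ) (a b : K) :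
    lam ζ a b * (XQ a b - XR ζ a b) = YQ a b + YR ζ a b := by
  have h := add_slope hζ a b
  unfold lam XR YR
  field_simp
  linear_combination h

theorem add_X' (h5 : (5 : K) ≠ 0) (hζ : IsZ5 ζ) (a b : K) :
    XQ (ζ^3*a) (ζ^2*b) = lam ζ a b ^ 2 - XQ a b - XR ζ a b := by
  have h := add_X hζ a b
  unfold lam XR
  field_simp
  linear_combination h

theorem add_Y' (h5 : (5 : K) ≠ 0) (hζ : IsZ5 ζ) (a b : K) :
    YQ (ζ^3*a) (ζ^2*b) = -(lam ζ a b * (XQ (ζ^3*a) (ζ^2*b) - XQ a b) + YQ a b) := by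
  have h := add_Y hζ a b
  unfold lam
  field_simp
  linear_combination h

theorem dbl_slope' (h5 : (5 : K) ≠ 0) (hζ : IsZ5 ζ) (a b : K) :
    mu ζ a b * (2 * YR ζ a b) = 3 * XR ζ a b ^ 2 + 27 * kH a b := by
  have h := dbl_slope hζ a b
  unfold mu XR YR
  field_simp
  linear_combination h

theorem dbl_X' (h5 : (5 : K) ≠ 0) (hζ : IsZ5 ζ) (a b : K) :
    XR (ζ^2) a b = mu ζ a b ^ 2 - 2 * XR ζ a b := by
  have h := dbl_X hζ a b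
  unfold mu XR
  field_simp
  linear_combination h

theorem dbl_Y' (h5 : (5 : K) ≠ 0) (hζ : IsZ5 ζ) (a b : K) :
    YR (ζ^2) a b = -(mu ζ a b * (XR (ζ^2) a b - XR ζ a b) + YR ζ a b) := by
  have h := dbl_Y hζ a b
  unfold mu XR YR
  field_simp
  linear_combination h

/-- `X_Q(v) ≠ X_R(v)` as soon as `f(v) ≠ 0` (characteristic not dividing 30). -/
theorem XQ_ne_XR (h30 : (30 : K) ≠ 0) (hζ : IsZ5 ζ) {a b : K} (hf : kf a b ≠ 0) :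
    XQ a b ≠ XR ζ a b := by
  have h5 : (5 : K) ≠ 0 := fun h => h30 (by rw [show (30 : K) = 5 * 6 by norm_num, h, zero_mul])
  have h180 : (180 : K) ≠ 0 := by
    have e : (180 : K) * 5 = 30 * 30 := by norm_num
    intro h0
    rw [h0, zero_mul] at e
    exact mul_ne_zero h30 h30 e.symm
  intro h
  have h1 := XQ_sub_XR_mul hζ a b
  have h2 : 5 * XQ a b - xr5 ζ a b = 0 := by
    rw [h]; unfold XR; field_simp; ring
  rw [h2, zero_mul] at h1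
  exact mul_ne_zero h180 (pow_ne_zero 2 hf) h1.symm

/-! ### the generator `T5` -/

theorem XR_T5 (hζ : IsZ5 ζ) (a b : K) : XR ζ (ζ^3*a) (ζ^2*b) = XR ζ a b := by
  unfold XR; rw [xr5_T5 hζ]
theorem YR_T5 (hζ : IsZ5 ζ) (a b : K) : YR ζ (ζ^3*a) (ζ^2*b) = YR ζ a b := by
  unfold YR; rw [yr5_T5 hζ]

/-- `T5^5 = id` (first coordinate): `(ζ^3)^5 = 1`. -/
theorem zeta3_pow5 (hζ : IsZ5 ζ) : (ζ^3)^5 = 1 := by
  rw [← pow_mul, show 3 * 5 = 5 * 3 by norm_num, pow_mul, hζ.pow_five, one_pow]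
/-- `T5^5 = id` (second coordinate): `(ζ^2)^5 = 1`. -/
theorem zeta2_pow5 (hζ : IsZ5 ζ) : (ζ^2)^5 = 1 := by
  rw [← pow_mul, show 2 * 5 = 5 * 2 by norm_num, pow_mul, hζ.pow_five, one_pow]

/-! ### the generator `S` -/

theorem inv_s5_sq (h5 : (5 : K) ≠ 0) (hζ : IsZ5 ζ) : ((s5 ζ)⁻¹)^2 = 5⁻¹ := by
  rw [inv_pow, s5_sq hζ]

theorem Sa_eq (ζ a b : K) : Sa ζ a b = (s5 ζ)⁻¹ * S1 ζ a b := by unfold Sa; rw [div_eq_inv_mul]
theorem Sb_eq (ζ a b : K) : Sb ζ a b = (s5 ζ)⁻¹ * S2 ζ a b := by unfold Sb; rw [div_eq_inv_mul]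

theorem kf_Sab (h5 : (5 : K) ≠ 0) (hζ : IsZ5 ζ) (a b : K) : kf (Sa ζ a b) (Sb ζ a b) = kf a b := by
  rw [Sa_eq, Sb_eq, kf_smul, kf_S hζ,
    show ((s5 ζ)⁻¹)^12 = (((s5 ζ)⁻¹)^2)^6 by ring, inv_s5_sq h5 hζ]
  field_simp
theorem kH_Sab (h5 : (5 : K) ≠ 0) (hζ : IsZ5 ζ) (a b : K) : kH (Sa ζ a b) (Sb ζ a b) = kH a b := by
  rw [Sa_eq, Sb_eq, kH_smul, kH_S hζ,
    show ((s5 ζ)⁻¹)^20 = (((s5 ζ)⁻¹)^2)^10 by ring, inv_s5_sq h5 hζ]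
  field_simp
theorem kT_Sab (h5 : (5 : K) ≠ 0) (hζ : IsZ5 ζ) (a b : K) : kT (Sa ζ a b) (Sb ζ a b) = kT a b := by
  rw [Sa_eq, Sb_eq, kT_smul, kT_S hζ,
    show ((s5 ζ)⁻¹)^30 = (((s5 ζ)⁻¹)^2)^15 by ring, inv_s5_sq h5 hζ]
  field_simp

/-- `X_R(S v) = X_Q(v)`. -/
theorem XR_S (h5 : (5 : K) ≠ 0) (hζ : IsZ5 ζ) (a b : K) : XR ζ (Sa ζ a b) (Sb ζ a b) = XQ a b := by
  unfold XR
  rw [Sa_eq, Sb_eq, xr5_smul, xr5_S hζ,
    show ((s5 ζ)⁻¹)^10 = (((s5 ζ)⁻¹)^2)^5 by ring, inv_s5_sq h5 hζ]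
  field_simp
/-- `Y_R(S v) = Y_Q(v)`. -/
theorem YR_S (h5 : (5 : K) ≠ 0) (hζ : IsZ5 ζ) (a b : K) : YR ζ (Sa ζ a b) (Sb ζ a b) = YQ a b := by
  have hs := s5_ne_zero h5 hζ
  unfold YR
  rw [Sa_eq, Sb_eq, yr5_smul, yr5_S hζ,
    show ((s5 ζ)⁻¹)^15 = (((s5 ζ)⁻¹)^2)^7 * (s5 ζ)⁻¹ by ring, inv_s5_sq h5 hζ]
  field_simp

/-- `S (S v) = -v` (first coordinate). -/
theorem Sa_Sab (h5 : (5 : K) ≠ 0) (hζ : IsZ5 ζ) (a b : K) : Sa ζ (Sa ζ a b) (Sb ζ a b) = -a := by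
  have hs := s5_ne_zero h5 hζ
  have h := S_S1 hζ a b
  have e : Sa ζ (Sa ζ a b) (Sb ζ a b) = ((s5 ζ)⁻¹)^2 * S1 ζ (S1 ζ a b) (S2 ζ a b) := by
    simp only [Sa_eq, Sb_eq, S1]; ring
  rw [e, h, inv_s5_sq h5 hζ]; field_simp
/-- `S (S v) = -v` (second coordinate). -/
theorem Sb_Sab (h5 : (5 : K) ≠ 0) (hζ : IsZ5 ζ) (a b : K) : Sb ζ (Sa ζ a b) (Sb ζ a b) = -b := by
  have hs := s5_ne_zero h5 hζ
  have h := S_S2 hζ a b
  have e : Sb ζ (Sa ζ a b) (Sb ζ a b) = ((s5 ζ)⁻¹)^2 * S2 ζ (S1 ζ a b) (S2 ζ a b) := by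
    simp only [Sa_eq, Sb_eq, S1, S2]; ring
  rw [e, h, inv_s5_sq h5 hζ]; field_simp

theorem XQ_neg (a b : K) : XQ (-a) (-b) = XQ a b := by unfold XQ; ring
theorem YQ_neg (a b : K) : YQ (-a) (-b) = -YQ a b := by unfold YQ; ring
theorem XR_neg (ζ a b : K) : XR ζ (-a) (-b) = XR ζ a b := by unfold XR xr5; ring
theorem YR_neg (ζ a b : K) : YR ζ (-a) (-b) = -YR ζ a b := by unfold YR yr5; ring
theorem kf_neg (a b : K) : kf (-a) (-b) = kf a b := by unfold kf; ring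
theorem kH_neg (a b : K) : kH (-a) (-b) = kH a b := by unfold kH; ring
theorem kT_neg (a b : K) : kT (-a) (-b) = kT a b := by unfold kT; ring

/-- `X_Q(S v) = X_R(v)`. -/
theorem XQ_S' (h5 : (5 : K) ≠ 0) (hζ : IsZ5 ζ) (a b : K) : XQ (Sa ζ a b) (Sb ζ a b) = XR ζ a b := by
  have h := XR_S h5 hζ (Sa ζ a b) (Sb ζ a b)
  rw [Sa_Sab h5 hζ, Sb_Sab h5 hζ, XR_neg] at h
  exact h.symm
/-- `Y_Q(S v) = -Y_R(v)`. -/
theorem YQ_S' (h5 : (5 : K) ≠ 0) (hζ : IsZ5 ζ) (a b : K) : YQ (Sa ζ a b) (Sb ζ a b) = -YR ζ a b := by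
  have h := YR_S h5 hζ (Sa ζ a b) (Sb ζ a b)
  rw [Sa_Sab h5 hζ, Sb_Sab h5 hζ, YR_neg] at h
  exact h.symm

/-- covariance of `v1` under `S` (first coordinate). -/
theorem w1_Sab (h5 : (5 : K) ≠ 0) (hζ : IsZ5 ζ) (a b : K) :
    w1 (Sa ζ a b) (Sb ζ a b) = Sa ζ (w1 a b) (w2 a b) := by
  have hs := s5_ne_zero h5 hζ
  rw [Sa_eq, Sb_eq, w1_smul, w1_S hζ, Sa_eq,
    show ((s5 ζ)⁻¹)^11 = (((s5 ζ)⁻¹)^2)^5 * (s5 ζ)⁻¹ by ring, inv_s5_sq h5 hζ]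
  field_simp
/-- covariance of `v1` under `S` (second coordinate). -/
theorem w2_Sab (h5 : (5 : K) ≠ 0) (hζ : IsZ5 ζ) (a b : K) :
    w2 (Sa ζ a b) (Sb ζ a b) = Sb ζ (w1 a b) (w2 a b) := by
  have hs := s5_ne_zero h5 hζ
  rw [Sa_eq, Sb_eq, w2_smul, w2_S hζ, Sb_eq,
    show ((s5 ζ)⁻¹)^11 = (((s5 ζ)⁻¹)^2)^5 * (s5 ζ)⁻¹ by ring, inv_s5_sq h5 hζ]
  field_simp

/-- `S` is linear (first coordinate). -/
theorem Sa_add_smul (ζ a b c d t : K) : Sa ζ (a + t*c) (b + t*d) = Sa ζ a b + t * Sa ζ c d := by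
  unfold Sa S1; ring
/-- `S` is linear (second coordinate). -/
theorem Sb_add_smul (ζ a b c d t : K) : Sb ζ (a + t*c) (b + t*d) = Sb ζ a b + t * Sb ζ c d := by
  unfold Sb S2; ring
theorem Sa_smul (ζ c a b : K) : Sa ζ (c*a) (c*b) = c * Sa ζ a b := by unfold Sa S1; ring
theorem Sb_smul (ζ c a b : K) : Sb ζ (c*a) (c*b) = c * Sb ζ a b := by unfold Sb S2; ring

end

end Fermat.Agent.S52K
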