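/-
S52 programme (K), helper99: the LAST field of the explicit Klein data -- `galR` -- and the closed
`KleinData` `D56 ζ hζ` together with its `Fibres` and `Ext` packages.

* `galR56 ζ hζ : Rest56.GalR ζ hζ` : Galois conjugation of the coefficients of `R` multiplies `R`
  by a unit of `ℤ/5` (from `Klein56.conj_point`, helper56, and the transport
  `TorsBasis65.E h t = kleinCurve h (-t)`, helper13);
* `galR_fix56` : if `σ ζ = ζ` then `σ (R v) = R (σ v)` coordinatewise;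
* `D ζ hζ : S52K3.KleinData` := `Rest56.D56 ζ hζ (galR56 ζ hζ)`;
* `fibres ζ hζ : (D ζ hζ).Fibres`, `ext ζ hζ : (D ζ hζ).Ext` (via `S52K2.Gens56`, helper11);
* `exists_zeta`, `D₀`, `fibres₀`, `ext₀` : the same for a chosen primitive fifth root of unity.
-/
import Mathlib
import Fermat.Agent.S52Top.Rest56
import Fermat.Agent.S52K.Klein56.Gal56
import Fermat.Agent.S52K2.Gens56
import Fermat.Agent.S52K3.IfaceExt

set_option autoImplicit false

open WeierstrassCurve WeierstrassCurve.Affine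

namespace Fermat.Agent.S52K.GalR99

open Fermat.Agent.S52K3 Fermat.Agent.S52K.Klein56 Fermat.Agent.S52Top.LawComp
open Fermat.Agent.S52Top.Inst56 Fermat.Agent.S52Top.Rest56
open Fermat.Agent.S52K

/-- Transport of an identity `pt x y = e • pt x' y'` on `TorsBasis65.E h t` to a `PtEq` on an
equal curve. -/
theorem ptEq_of {W : Affine Qb} {h t : Qb} (hW : W = TorsBasis65.E h t) {x y x' y' : Qb}
    (n : (TorsBasis65.E h t).Nonsingular x y) (n' : W.Nonsingular x' y') (e : ℤ)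
    (hpt : TorsBasis65.pt (TorsBasis65.E h t) x y =
      e • TorsBasis65.pt (TorsBasis65.E h t) x' y') :
    PtEq W x y (e • (Point.some x' y' n' : W.Point)) := by
  subst hW
  rw [TorsBasis65.pt_of n, TorsBasis65.pt_of n'] at hpt
  exact ⟨n, hpt⟩

lemma gal_tauOf (σ : GQ) (z : Qb) : σ (tauOf z) = tauOf (σ z) := by
  simp only [tauOf, map_add, map_pow]

lemma gal_muOf (σ : GQ) (z : Qb) : σ (muOf z) = muOf (σ z) := by
  simp only [muOf, map_sub, map_pow]

variable (ζ : Qb) (hζ : IsPrimitiveRoot ζ 5)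

/-- `σ (x(R) v)` in terms of the conjugate root of unity. -/
theorem gal_xR' (σ : GQ) (v : V2) :
    σ ((pre (par ζ hζ)).xR v) = xM (tauOf (σ ζ)) (gal σ v).1 (gal σ v).2 := by
  rw [Fermat.Agent.S52Top.Inst56.gal_xR, par_τ, gal_tauOf]
  rfl

/-- `σ (y(R) v)` in terms of the conjugate root of unity. -/
theorem gal_yR' (σ : GQ) (v : V2) :
    σ ((pre (par ζ hζ)).yR v) =
      muOf (σ ζ) * ytM (tauOf (σ ζ)) (gal σ v).1 (gal σ v).2 := by
  rw [Fermat.Agent.S52Top.Inst56.gal_yR, par_τ, par_μ, gal_tauOf, gal_muOf]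
  rfl

include hζ in
/-- `σ ζ` is again a root of the cyclotomic polynomial. -/
theorem cyclo_gal (σ : GQ) : (σ ζ) ^ 4 + (σ ζ) ^ 3 + (σ ζ) ^ 2 + σ ζ + 1 = 0 := by
  have := congrArg σ (cyclo ζ hζ)
  simpa using this

/-- **The field `galR` for the explicit Klein data.** -/
theorem galR56 : GalR ζ hζ := by
  intro σ
  have hc := cyclo ζ hζ
  have hc2 := cyclo_gal ζ hζ σ
  obtain ⟨e, -, he⟩ := conj_point hc hc2
  refine ⟨e, fun v hv => ?_⟩
  have hd : kT (gal σ v).1 (gal σ v).2 ^ 2 + kH (gal σ v).1 (gal σ v).2 ^ 3 ≠ 0 :=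
    disc_ne ζ hζ hv
  have key := he (gal σ v) hd
  have hns : (TorsBasis65.E (kH (gal σ v).1 (gal σ v).2) (kT (gal σ v).1 (gal σ v).2)).Nonsingular
      (xM (tauOf (σ ζ)) (gal σ v).1 (gal σ v).2)
      (muOf (σ ζ) * ytM (tauOf (σ ζ)) (gal σ v).1 (gal σ v).2) := by
    rw [TorsBasis65.E_nonsingular (by norm_num) hd]
    have h1 := M_on (gal σ v).1 (gal σ v).2 (tauOf (σ ζ)) (tau_rel hc2)
    have h2 := mu_rel hc2
    linear_combination ytM (tauOf (σ ζ)) (gal σ v).1 (gal σ v).2 ^ 2 * h2 + h1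
  rw [gal_xR', gal_yR']
  exact ptEq_of (curve_eq ζ hζ (gal σ v)) hns _ e key

/-- The field `galR_fix` of `KleinData.Ext` for the explicit Klein data. -/
theorem galR_fix56 (σ : GQ) (hσ : σ ζ = ζ) (v : V2) :
    σ ((pre (par ζ hζ)).xR v) = (pre (par ζ hζ)).xR (gal σ v) ∧
      σ ((pre (par ζ hζ)).yR v) = (pre (par ζ hζ)).yR (gal σ v) := by
  rw [gal_xR', gal_yR', hσ]
  exact ⟨rfl, rfl⟩

/-! ### The closed Klein data -/

/-- **The explicit `KleinData`**, all fields proved. -/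
noncomputable def D : KleinData := D56 ζ hζ (galR56 ζ hζ)

/-- K2 for the explicit data. -/
theorem fibres : (D ζ hζ).Fibres :=
  S52K2.Gens56.fibres56 (par ζ hζ) (rest ζ hζ (galR56 ζ hζ)) hζ

/-- The extension package (K5) for the explicit data. -/
theorem ext : (D ζ hζ).Ext :=
  S52K2.Gens56.ext56 (par ζ hζ) (rest ζ hζ (galR56 ζ hζ)) hζ
    (fun γ hγ => ext_law_det ζ hζ (galR56 ζ hζ) γ hγ)
    (fun σ hσ v => galR_fix56 ζ hζ σ hσ v)

@[simp] theorem D_ζ : (D ζ hζ).ζ = ζ := rfl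
@[simp] theorem D_H (v : V2) : (D ζ hζ).H v = kH v.1 v.2 := rfl
@[simp] theorem D_T (v : V2) : (D ζ hζ).T v = -kT v.1 v.2 := rfl
@[simp] theorem D_f (v : V2) : (D ζ hζ).f v = kf v.1 v.2 := rfl
@[simp] theorem D_g (v : V2) : (D ζ hζ).g v = (g1 v.1 v.2, g2 v.1 v.2) := rfl

/-! ### A choice of `ζ` -/

/-- `ℚ̄` contains a primitive fifth root of unity. -/
theorem exists_zeta : ∃ z : Qb, IsPrimitiveRoot z 5 :=
  HasEnoughRootsOfUnity.exists_primitiveRoot Qb 5

/-- a chosen primitive fifth root of unity -/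
noncomputable def ζ₀ : Qb := exists_zeta.choose

theorem hζ₀ : IsPrimitiveRoot ζ₀ 5 := exists_zeta.choose_spec

/-- The explicit Klein data for the chosen root of unity. -/
noncomputable def D₀ : KleinData := D ζ₀ hζ₀

theorem fibres₀ : D₀.Fibres := fibres ζ₀ hζ₀

theorem ext₀ : D₀.Ext := ext ζ₀ hζ₀

end Fermat.Agent.S52K.GalR99
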