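/-
Programme K (S52, 3–5 switch), hedge brick (helper12): the DIRECT INJECTIVITY lemma.

For the universal Klein curve `E_v : y² = x³ + 27 H(v) x + 54 T(v)` with its universal basis
`(Q(v), R(v))` of `E_v[5]` (brick B1, `TorsBasis65.KleinPts`), the map
`v ↦ (H(v), Q(v), R(v))` is injective up to `μ₅`-scaling away from `f = 0`:

  `f v ≠ 0`, `H v' = H v`, `Q(v') = Q(v)`, `R(v') = R(v)` (coordinatewise)  ⟹  `v' = ε • v`, `ε⁵ = 1`.

This is the field `inj` of `KleinData.Extra` needed by K5 (an element of the icosahedral group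
acting trivially on the level structure is a scalar).  The proof is direct algebra:

* Part A (`AB_eq_of`): the coordinates of `R` are polynomials in `A = z₁⁵`, `B = z₂⁵`
  (`XR5`, `GR5` below, coefficients in `ℚ(τ)`, `τ² + τ - 1 = 0`, `τ = ζ + ζ⁴`).  With
  `s = A² + B²`, `t = A² + 11AB - B²`, `p = AB`: `x(R) + x(2R) = -30 s`,
  `x(R) - x(2R) = -(36/5)(2τ+1) t`, `300 t p = 24 t² - 25 s² - H`, and `x(2R)` is determined by
  `x(R), y(R), H` (doubling identity); hence `(H, R)` determine `s, t, p`, hence `A², B², AB`, hence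
  `(A, B)` up to a common sign, which is fixed by `y(R)` (odd in `(A, B)`, and nonzero because
  `GR5 · (A + (8+5τ)B) = t²`).
* Part B: `a'⁵ = a⁵`, `b'⁵ = b⁵` ⟹ `v' = ε • T5^k v` with `T5 = diag(ζ³, ζ²)`.
* Part C: `Q(ε • w) = Q(w)` (degrees 10, 15) and `Q(T5^k v) = Q(v) - k R(v)`
  (`TorsBasis65.KleinPts.Qp_T5_iterate`) force `5 ∣ k`.

Conventions are those of report 248 (helper94):
`X_R = -(15 (z₁¹⁰+z₂¹⁰) + (18/5) √5 (z₁¹⁰ + 11 z₁⁵z₂⁵ - z₂¹⁰))`, `√5 = 2τ+1`,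
`Y_R = κ · G_R`, `κ = (108/5) φ² (ζ - ζ⁴)`, `φ = 1 + τ`,
`G_R = A³ + (14-5τ) A²B + (32-55τ) AB² - (3-5τ) B³`  (`ζ²+ζ³ = -1-τ`).
Everything here is stated for plain functions and explicit hypotheses, so that it can be bridged
to the final data file by `ring`.
-/
import Mathlib
import Fermat.Agent.S52K1B.TorsBasis65

set_option autoImplicit false
set_option linter.unusedSectionVars false

namespace Fermat.Agent.S52K.Inj12

/-! ### Part A: `(H, R)` determines `(A, B) = (z₁⁵, z₂⁵)` -/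

section PartA

variable {k : Type*} [Field k]

/-- `s = A² + B²`. -/
def s2 (A B : k) : k := A ^ 2 + B ^ 2

/-- `t = A² + 11AB - B²` (so that `f = z₁ z₂ t`). -/
def t2 (A B : k) : k := A ^ 2 + 11 * A * B - B ^ 2

/-- Klein's `H` as a quartic in `A = z₁⁵`, `B = z₂⁵`. -/
def H5 (A B : k) : k := -(A ^ 4 + B ^ 4) + 228 * (A ^ 3 * B - A * B ^ 3) - 494 * A ^ 2 * B ^ 2

/-- `x(R)` as a quadric in `A, B`. -/
def XR5 (τ A B : k) : k :=
  -(15 * (A ^ 2 + B ^ 2) + 18 / 5 * (2 * τ + 1) * (A ^ 2 + 11 * A * B - B ^ 2))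

/-- `x(2R)`: the conjugate of `x(R)` under `τ ↦ -1-τ`. -/
def XRc5 (τ A B : k) : k :=
  -(15 * (A ^ 2 + B ^ 2) - 18 / 5 * (2 * τ + 1) * (A ^ 2 + 11 * A * B - B ^ 2))

/-- `y(R) / κ` as a cubic in `A, B`. -/
def GR5 (τ A B : k) : k :=
  A ^ 3 + (14 - 5 * τ) * A ^ 2 * B + (32 - 55 * τ) * A * B ^ 2 - (3 - 5 * τ) * B ^ 3

/-- `κ²`, where `y(R) = κ · GR5`. -/
def cR (τ : k) : k := (108 / 5) ^ 2 * (-18 - 11 * τ)

theorem XR5_add_XRc5 [CharZero k] (τ A B : k) : XR5 τ A B + XRc5 τ A B = -30 * s2 A B := by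
  unfold XR5 XRc5 s2; ring

theorem XR5_sub_XRc5 [CharZero k] (τ A B : k) :
    XR5 τ A B - XRc5 τ A B = -(36 / 5) * (2 * τ + 1) * t2 A B := by
  unfold XR5 XRc5 t2; ring

theorem H5_eq (A B : k) :
    300 * t2 A B * (A * B) = 24 * t2 A B ^ 2 - 25 * s2 A B ^ 2 - H5 A B := by
  unfold t2 s2 H5; ring

theorem GR5_neg (τ A B : k) : GR5 τ (-A) (-B) = -GR5 τ A B := by
  unfold GR5; ring

/-- `G_R` divides `t²`. -/
theorem GR5_mul {τ : k} (hτ : τ ^ 2 + τ - 1 = 0) (A B : k) :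
    GR5 τ A B * (A - (-8 - 5 * τ) * B) = t2 A B ^ 2 := by
  unfold GR5 t2
  linear_combination (-25 * A ^ 2 * B ^ 2 - 275 * A * B ^ 3 + 25 * B ^ 4) * hτ

theorem sqrt5_sq {τ : k} (hτ : τ ^ 2 + τ - 1 = 0) : (2 * τ + 1) ^ 2 = 5 := by
  linear_combination 4 * hτ

theorem cR_ne_zero [CharZero k] {τ : k} (hτ : τ ^ 2 + τ - 1 = 0) : cR τ ≠ 0 := by
  have h1 : (-18 - 11 * τ) * (-7 + 11 * τ) = 5 := by linear_combination (-121) * hτ
  have h2 : (-18 - 11 * τ) ≠ 0 := by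
    intro h0
    rw [h0, zero_mul] at h1
    exact (by norm_num : (5 : k) ≠ 0) h1.symm
  unfold cR
  exact mul_ne_zero (pow_ne_zero 2 (by norm_num)) h2

/-- The doubling identity `x(2R) = λ² - 2 x(R)`, `λ = (3 x(R)² + 27 H) / (2 y(R))`, with
denominators cleared; `y(R)² = cR τ · G_R²`. -/
theorem doubling [CharZero k] {τ : k} (hτ : τ ^ 2 + τ - 1 = 0) (A B : k) :
    XRc5 τ A B * (4 * (cR τ * GR5 τ A B ^ 2)) =
      (3 * XR5 τ A B ^ 2 + 27 * H5 A B) ^ 2 - 8 * XR5 τ A B * (cR τ * GR5 τ A B ^ 2) := by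
  unfold XRc5 XR5 cR GR5 H5
  linear_combination
    (-(15116544 / 625) * τ ^ 2 * A ^ 8 - (665127936 / 625) * τ ^ 2 * A ^ 7 * B
      - (8604672768 / 625) * τ ^ 2 * A ^ 6 * B ^ 2 - (2272520448 / 625) * τ ^ 2 * A ^ 5 * B ^ 3
      + (126389424384 / 125) * τ ^ 2 * A ^ 4 * B ^ 4 + (2999967176448 / 625) * τ ^ 2 * A ^ 3 * B ^ 5
      - (842324064768 / 625) * τ ^ 2 * A ^ 2 * B ^ 6 + (76877703936 / 625) * τ ^ 2 * A * B ^ 7
      - (2324588544 / 625) * τ ^ 2 * B ^ 8 - (141087744 / 625) * τ * A ^ 8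
      - (5745966336 / 625) * τ * A ^ 7 * B - (72587544768 / 625) * τ * A ^ 6 * B ^ 2
      - (261857173248 / 625) * τ * A ^ 5 * B ^ 3 + (62228093184 / 125) * τ * A ^ 4 * B ^ 4
      + (61625950848 / 625) * τ * A ^ 3 * B ^ 5 + (1789088332032 / 625) * τ * A ^ 2 * B ^ 6
      - (324970424064 / 625) * τ * A * B ^ 7 + (14692021056 / 625) * τ * B ^ 8
      - (381692736 / 625) * A ^ 8 - (16038653184 / 625) * A ^ 7 * B
      - (228846840192 / 625) * A ^ 6 * B ^ 2 - (1250296912512 / 625) * A ^ 5 * B ^ 3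
      - (387267381504 / 125) * A ^ 4 * B ^ 4 - (1322685842688 / 625) * A ^ 3 * B ^ 5
      - (662513193792 / 625) * A ^ 2 * B ^ 6 + (157840233984 / 625) * A * B ^ 7
      - (7740510336 / 625) * B ^ 8) * hτ

/-- **Part A.**  `(H, x(R), y(R)/κ)` determine `(A, B)` when `A B t ≠ 0`. -/
theorem AB_eq_of [CharZero k] {τ A B A' B' : k} (hτ : τ ^ 2 + τ - 1 = 0)
    (hA : A ≠ 0) (ht : t2 A B ≠ 0)
    (hH : H5 A' B' = H5 A B) (hX : XR5 τ A' B' = XR5 τ A B) (hG : GR5 τ A' B' = GR5 τ A B) :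
    A' = A ∧ B' = B := by
  -- `G ≠ 0`
  have hG0 : GR5 τ A B ≠ 0 := by
    intro h0
    have h1 := GR5_mul hτ A B
    rw [h0, zero_mul] at h1
    exact ht ((pow_eq_zero_iff two_ne_zero).mp h1.symm)
  have hc := cR_ne_zero (k := k) hτ
  have hden : (4 * (cR τ * GR5 τ A B ^ 2)) ≠ 0 :=
    mul_ne_zero (by norm_num) (mul_ne_zero hc (pow_ne_zero 2 hG0))
  -- `x(2R)` agrees
  have hXc : XRc5 τ A' B' = XRc5 τ A B := by
    have d1 := doubling hτ A' B'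
    have d2 := doubling hτ A B
    rw [hH, hX, hG] at d1
    exact mul_right_cancel₀ hden (d1.trans d2.symm)
  -- `s`, `t`, `p` agree
  have hs : s2 A' B' = s2 A B := by
    have e1 := XR5_add_XRc5 τ A' B'
    have e2 := XR5_add_XRc5 τ A B
    rw [hX, hXc] at e1
    have : -30 * s2 A' B' = -30 * s2 A B := e1.symm.trans e2
    exact mul_left_cancel₀ (by norm_num) this
  have h5 : (2 * τ + 1) ≠ 0 := by
    intro h0
    have := sqrt5_sq hτ
    rw [h0] at this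
    norm_num at this
  have htt : t2 A' B' = t2 A B := by
    have e1 := XR5_sub_XRc5 τ A' B'
    have e2 := XR5_sub_XRc5 τ A B
    rw [hX, hXc] at e1
    have : -(36 / 5) * (2 * τ + 1) * t2 A' B' = -(36 / 5) * (2 * τ + 1) * t2 A B :=
      e1.symm.trans e2
    exact mul_left_cancel₀ (mul_ne_zero (by norm_num) h5) this
  have hp : A' * B' = A * B := by
    have e1 := H5_eq A' B'
    have e2 := H5_eq A B
    rw [htt, hs, hH] at e1
    have : 300 * t2 A B * (A' * B') = 300 * t2 A B * (A * B) := e1.trans e2.symm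
    exact mul_left_cancel₀ (mul_ne_zero (by norm_num) ht) this
  -- `A²`, `B²` agree
  have hA2 : A' ^ 2 = A ^ 2 := by
    unfold s2 at hs
    unfold t2 at htt
    linear_combination (1 / 2) * hs + (1 / 2) * htt - (11 / 2) * hp
  have hfac : (A' - A) * (A' + A) = 0 := by linear_combination hA2
  rcases mul_eq_zero.mp hfac with h | h
  · have hA' : A' = A := sub_eq_zero.mp h
    refine ⟨hA', ?_⟩
    rw [hA'] at hp
    exact mul_left_cancel₀ hA hp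
  · exfalso
    have hA' : A' = -A := eq_neg_of_add_eq_zero_left h
    have hB' : B' = -B := by
      rw [hA'] at hp
      have : A * B' = A * (-B) := by linear_combination -hp
      exact mul_left_cancel₀ hA this
    rw [hA', hB', GR5_neg] at hG
    have : (2 : k) * GR5 τ A B = 0 := by linear_combination -hG
    rcases mul_eq_zero.mp this with h2 | h2
    · exact two_ne_zero h2
    · exact hG0 h2

end PartA

/-! ### Part B: fifth roots -/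

section PartB

variable {K : Type*} [Field K]

theorem exists_pow_mul_of_pow_eq {ζ a a' : K} (hζ : IsPrimitiveRoot ζ 5) (ha : a ≠ 0)
    (h : a' ^ 5 = a ^ 5) : ∃ i : ℕ, i < 5 ∧ a' = ζ ^ i * a := by
  have h1 : (a' / a) ^ 5 = 1 := by
    rw [div_pow, h, div_self (pow_ne_zero 5 ha)]
  obtain ⟨i, hi, hi'⟩ := hζ.eq_pow_of_pow_eq_one h1
  exact ⟨i, hi, by rw [hi', div_mul_cancel₀ _ ha]⟩

theorem pow_mod_five {ζ : K} (h : ζ ^ 5 = 1) (n : ℕ) : ζ ^ n = ζ ^ (n % 5) := by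
  conv_lhs => rw [← Nat.mod_add_div n 5, pow_add, pow_mul, h, one_pow, mul_one]

end PartB

/-! ### Part C: assembly against `TorsBasis65.KleinPts` -/

section PartC

open Fermat.Agent.S52K.TorsBasis65 Fermat.Agent.S52K.TorsBasis65.KleinPts

variable {K : Type*} [Field K] [DecidableEq K]

theorem T5_iterate_of_diag (D : KleinPts K) {ζ : K}
    (hT5 : ∀ v : K × K, D.T5 v = (ζ ^ 3 * v.1, ζ ^ 2 * v.2)) (v : K × K) (n : ℕ) :
    D.T5^[n] v = (ζ ^ (3 * n) * v.1, ζ ^ (2 * n) * v.2) := by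
  induction n with
  | zero => simp
  | succ n ih =>
    rw [Function.iterate_succ_apply', ih, hT5]
    ext
    · simp only; ring
    · simp only; ring

/-- If `v'` and `v` have the same fifth powers of coordinates and `Q(v') = Q(v)` coordinatewise,
then `v' = ε • v` with `ε⁵ = 1`. -/
theorem eq_smul_of_fifth_powers (D : KleinPts K) {ζ : K} (hζ : IsPrimitiveRoot ζ 5)
    (hT5 : ∀ v : K × K, D.T5 v = (ζ ^ 3 * v.1, ζ ^ 2 * v.2))
    (hXQ : ∀ (ε : K) (v : K × K), ε ^ 5 = 1 → D.XQ (ε * v.1, ε * v.2) = D.XQ v)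
    (hYQ : ∀ (ε : K) (v : K × K), ε ^ 5 = 1 → D.YQ (ε * v.1, ε * v.2) = D.YQ v)
    {v v' : K × K} (hf : D.f v ≠ 0) (h1 : v.1 ≠ 0) (h2 : v.2 ≠ 0)
    (hxQ : D.XQ v' = D.XQ v) (hyQ : D.YQ v' = D.YQ v)
    (e1 : v'.1 ^ 5 = v.1 ^ 5) (e2 : v'.2 ^ 5 = v.2 ^ 5) :
    ∃ ε : K, ε ^ 5 = 1 ∧ v' = (ε * v.1, ε * v.2) := by
  have hζ5 : ζ ^ 5 = 1 := hζ.pow_eq_one
  obtain ⟨i, hi, hi'⟩ := exists_pow_mul_of_pow_eq hζ h1 e1
  obtain ⟨j, hj, hj'⟩ := exists_pow_mul_of_pow_eq hζ h2 e2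
  -- `v' = ζ^e • T5^kk v`
  set kk : ℕ := (i + 4 * j) % 5 with hkk
  set e : ℕ := (3 * i + 3 * j) % 5 with he
  have hkk5 : kk < 5 := Nat.mod_lt _ (by norm_num)
  have hε : (ζ ^ e) ^ 5 = 1 := by rw [← pow_mul, mul_comm, pow_mul, hζ5, one_pow]
  have hw : D.T5^[kk] v = (ζ ^ (3 * kk) * v.1, ζ ^ (2 * kk) * v.2) := T5_iterate_of_diag D hT5 v kk
  have hv' : v' = (ζ ^ e * (D.T5^[kk] v).1, ζ ^ e * (D.T5^[kk] v).2) := by
    rw [hw]
    ext
    · simp only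
      rw [hi', ← mul_assoc, ← pow_add, pow_mod_five hζ5 (e + 3 * kk), pow_mod_five hζ5 i]
      congr 2
      omega
    · simp only
      rw [hj', ← mul_assoc, ← pow_add, pow_mod_five hζ5 (e + 2 * kk), pow_mod_five hζ5 j]
      congr 2
      omega
  -- work on the fixed curve through `v`
  have hmem : v ∈ D.Fib (D.H v) (D.T v) := ⟨rfl, rfl⟩
  have hd : D.T v ^ 2 + D.H v ^ 3 ≠ 0 := by
    rw [D.syz v]
    have h1728 : (1728 : K) = 6 ^ 3 * 2 ^ 3 := by norm_num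
    have h2' : (2 : K) ≠ 0 := fun h => D.six_ne (by linear_combination 3 * h)
    rw [h1728]
    exact mul_ne_zero (mul_ne_zero (pow_ne_zero 3 D.six_ne) (pow_ne_zero 3 h2'))
      (pow_ne_zero 5 hf)
  have hQeq : D.Qp (D.H v) (D.T v) (D.T5^[kk] v) = D.Qp (D.H v) (D.T v) v := by
    unfold KleinPts.Qp
    have hx : D.XQ (D.T5^[kk] v) = D.XQ v := by
      rw [← hXQ (ζ ^ e) (D.T5^[kk] v) hε, ← hv', hxQ]
    have hy : D.YQ (D.T5^[kk] v) = D.YQ v := by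
      rw [← hYQ (ζ ^ e) (D.T5^[kk] v) hε, ← hv', hyQ]
    rw [hx, hy]
  have hit := Qp_T5_iterate hmem hd kk
  rw [hQeq] at hit
  have hk0 : kk • D.Rp (D.H v) (D.T v) v = 0 := by
    have : D.Qp (D.H v) (D.T v) v - kk • D.Rp (D.H v) (D.T v) v
        = D.Qp (D.H v) (D.T v) v - 0 := by rw [sub_zero]; exact hit.symm
    exact sub_right_injective this
  have hdvd : (5 : ℤ) ∣ (kk : ℤ) := by
    rw [← zsmul_Rp_eq_zero_iff hmem hd, natCast_zsmul]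
    exact hk0
  have hkk0 : kk = 0 := by
    have : (5 : ℕ) ∣ kk := by exact_mod_cast hdvd
    exact Nat.eq_zero_of_dvd_of_lt this hkk5
  refine ⟨ζ ^ e, hε, ?_⟩
  rw [hv', hkk0]
  rfl

/-- **Direct injectivity**, explicit form.  `D : KleinPts K` whose `f, H, x(R), y(R)` are given by
the explicit forms of Part A (in `A = z₁⁵`, `B = z₂⁵`), whose `T5` is `diag(ζ³, ζ²)` and whose
`Q` is `μ₅`-homogeneous of degree `0`. -/
theorem inj_explicit [CharZero K] (D : KleinPts K) {ζ τ κ : K} (hζ : IsPrimitiveRoot ζ 5)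
    (hτ : τ ^ 2 + τ - 1 = 0) (hκ : κ ≠ 0)
    (hT5 : ∀ v : K × K, D.T5 v = (ζ ^ 3 * v.1, ζ ^ 2 * v.2))
    (hXQ : ∀ (ε : K) (v : K × K), ε ^ 5 = 1 → D.XQ (ε * v.1, ε * v.2) = D.XQ v)
    (hYQ : ∀ (ε : K) (v : K × K), ε ^ 5 = 1 → D.YQ (ε * v.1, ε * v.2) = D.YQ v)
    (hf_def : ∀ v : K × K, D.f v = v.1 * v.2 * t2 (v.1 ^ 5) (v.2 ^ 5))
    (hH_def : ∀ v : K × K, D.H v = H5 (v.1 ^ 5) (v.2 ^ 5))
    (hXR_def : ∀ v : K × K, D.XR v = XR5 τ (v.1 ^ 5) (v.2 ^ 5))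
    (hYR_def : ∀ v : K × K, D.YR v = κ * GR5 τ (v.1 ^ 5) (v.2 ^ 5))
    {v v' : K × K} (hf : D.f v ≠ 0) (hH : D.H v' = D.H v)
    (hxQ : D.XQ v' = D.XQ v) (hyQ : D.YQ v' = D.YQ v)
    (hxR : D.XR v' = D.XR v) (hyR : D.YR v' = D.YR v) :
    ∃ ε : K, ε ^ 5 = 1 ∧ v' = (ε * v.1, ε * v.2) := by
  have hf' := hf
  rw [hf_def] at hf'
  have h1 : v.1 ≠ 0 := fun h => hf' (by rw [h]; ring)
  have h2 : v.2 ≠ 0 := fun h => hf' (by rw [h]; ring)
  have ht : t2 (v.1 ^ 5) (v.2 ^ 5) ≠ 0 := fun h => hf' (by rw [h]; ring)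
  rw [hH_def, hH_def] at hH
  rw [hXR_def, hXR_def] at hxR
  rw [hYR_def, hYR_def] at hyR
  have hG := mul_left_cancel₀ hκ hyR
  obtain ⟨e1, e2⟩ := AB_eq_of hτ (pow_ne_zero 5 h1) ht hH hxR hG
  exact eq_smul_of_fifth_powers D hζ hT5 hXQ hYQ hf h1 h2 hxQ hyQ e1 e2

/-- The same with the conclusion written as a scalar multiple. -/
theorem inj_explicit_smul [CharZero K] (D : KleinPts K) {ζ τ κ : K} (hζ : IsPrimitiveRoot ζ 5)
    (hτ : τ ^ 2 + τ - 1 = 0) (hκ : κ ≠ 0)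
    (hT5 : ∀ v : K × K, D.T5 v = (ζ ^ 3 * v.1, ζ ^ 2 * v.2))
    (hXQ : ∀ (ε : K) (v : K × K), ε ^ 5 = 1 → D.XQ (ε * v.1, ε * v.2) = D.XQ v)
    (hYQ : ∀ (ε : K) (v : K × K), ε ^ 5 = 1 → D.YQ (ε * v.1, ε * v.2) = D.YQ v)
    (hf_def : ∀ v : K × K, D.f v = v.1 * v.2 * t2 (v.1 ^ 5) (v.2 ^ 5))
    (hH_def : ∀ v : K × K, D.H v = H5 (v.1 ^ 5) (v.2 ^ 5))
    (hXR_def : ∀ v : K × K, D.XR v = XR5 τ (v.1 ^ 5) (v.2 ^ 5))
    (hYR_def : ∀ v : K × K, D.YR v = κ * GR5 τ (v.1 ^ 5) (v.2 ^ 5))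
    {v v' : K × K} (hf : D.f v ≠ 0) (hH : D.H v' = D.H v)
    (hxQ : D.XQ v' = D.XQ v) (hyQ : D.YQ v' = D.YQ v)
    (hxR : D.XR v' = D.XR v) (hyR : D.YR v' = D.YR v) :
    ∃ ε : K, ε ^ 5 = 1 ∧ ε ^ 10 = 1 ∧ v' = ε • v := by
  obtain ⟨ε, hε, hv⟩ := inj_explicit D hζ hτ hκ hT5 hXQ hYQ hf_def hH_def hXR_def hYR_def hf hH
    hxQ hyQ hxR hyR
  refine ⟨ε, hε, ?_, ?_⟩
  · have : ε ^ 10 = (ε ^ 5) ^ 2 := by ring
    rw [this, hε, one_pow]
  · rw [hv]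
    rfl

end PartC

end Fermat.Agent.S52K.Inj12
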