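/-
S52 programme (K), brick B1 (= part A of the blueprint, report 248): TORSION BASIS (helper99).

Abstract input: a package `KleinPts k` of functions `k × k → k` (the Klein forms `H`, `T`, `f`, the
coordinates of the two universal `5`-torsion points `Q`, `R`) and two self-maps `gS`, `gT` of
`k × k` (the generators of the binary icosahedral group), together with POLYNOMIAL-LEVEL identities
only.  Output, on the FIXED short Weierstrass curve `curve h t : y² = x³ + 27 h x + 54 t` and for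
`v` in the fibre `{H v = h, T v = t}`:

* points `ptQ v`, `ptR v`;
* the transformation laws in POINT form (`ptQ_gT`, `ptR_gT`, `ptQ_gS`, `ptR_gS`);
* `5 • ptR v = 0`, `5 • ptQ v = 0`, independence, and the basis statement
  (every `5`-torsion point is `a • ptQ v + b • ptR v`).
-/
import Mathlib
import Fermat.Agent.DivPoly.CountFinal

set_option autoImplicit false

open WeierstrassCurve WeierstrassCurve.Affine

namespace Fermat.Agent.S52K.TorsBasis99

variable {k : Type*} [Field k]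

/-- The short Weierstrass curve `y² = x³ + 27 h x + 54 t`. -/
def curve (h t : k) : WeierstrassCurve k := ⟨0, 0, 0, 27 * h, 54 * t⟩

@[simp] lemma curve_a₁ (h t : k) : (curve h t).a₁ = 0 := rfl
@[simp] lemma curve_a₂ (h t : k) : (curve h t).a₂ = 0 := rfl
@[simp] lemma curve_a₃ (h t : k) : (curve h t).a₃ = 0 := rfl
@[simp] lemma curve_a₄ (h t : k) : (curve h t).a₄ = 27 * h := rfl
@[simp] lemma curve_a₆ (h t : k) : (curve h t).a₆ = 54 * t := rfl

lemma curve_Δ (h t : k) : (curve h t).Δ = -1259712 * (h ^ 3 + t ^ 2) := by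
  simp only [WeierstrassCurve.Δ, WeierstrassCurve.b₂, WeierstrassCurve.b₄, WeierstrassCurve.b₆,
    WeierstrassCurve.b₈, curve_a₁, curve_a₂, curve_a₃, curve_a₄, curve_a₆]
  ring

lemma curve_c₄ (h t : k) : (curve h t).c₄ = -1296 * h := by
  simp only [WeierstrassCurve.c₄, WeierstrassCurve.b₂, WeierstrassCurve.b₄, curve_a₁, curve_a₂,
    curve_a₃, curve_a₄]
  ring

lemma curve_c₆ (h t : k) : (curve h t).c₆ = -46656 * t := by
  simp only [WeierstrassCurve.c₆, WeierstrassCurve.b₂, WeierstrassCurve.b₄, WeierstrassCurve.b₆,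
    curve_a₁, curve_a₂, curve_a₃, curve_a₄, curve_a₆]
  ring

lemma equation_curve_iff (h t x y : k) :
    (curve h t).toAffine.Equation x y ↔ y ^ 2 = x ^ 3 + 27 * h * x + 54 * t := by
  rw [WeierstrassCurve.Affine.equation_iff]
  simp only [curve_a₁, curve_a₂, curve_a₃, curve_a₄, curve_a₆]
  constructor <;> intro hh <;> linear_combination hh

lemma sum_ne_zero_of_Δ {h t : k} (hΔ : (curve h t).Δ ≠ 0) : h ^ 3 + t ^ 2 ≠ 0 := by
  intro h0
  apply hΔ
  rw [curve_Δ, h0, mul_zero]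

/-- The abstract Klein package: forms, coordinates of the universal points, generators, and the
polynomial-level identities between them. -/
structure KleinPts (k : Type*) [Field k] where
  /-- the Klein form of degree 20 (`c₄ = -H`) -/
  H : k × k → k
  /-- the Klein form of degree 30 (`c₆ = -T`) -/
  T : k × k → k
  /-- the Klein form of degree 12 (`Δ = -f⁵`) -/
  f : k × k → k
  /-- coordinates of the universal point `Q` -/
  XQ : k × k → k
  /-- coordinates of the universal point `Q` -/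
  YQ : k × k → k
  /-- coordinates of the universal point `R` -/
  XR : k × k → k
  /-- coordinates of the universal point `R` -/
  YR : k × k → k
  /-- the generator of order 4 -/
  gS : k × k → k × k
  /-- the generator of order 5 -/
  gT : k × k → k × k
  /-- an auxiliary form with `(XQ - XR) * L = c * f²` -/
  L : k × k → k
  /-- the nonzero constant in `(XQ - XR) * L = c * f²` -/
  c : k
  syz : ∀ v, T v ^ 2 + H v ^ 3 = 1728 * f v ^ 5
  H_gS : ∀ v, H (gS v) = H v
  T_gS : ∀ v, T (gS v) = T v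
  H_gT : ∀ v, H (gT v) = H v
  T_gT : ∀ v, T (gT v) = T v
  eqQ : ∀ v, YQ v ^ 2 = XQ v ^ 3 + 27 * H v * XQ v + 54 * T v
  eqR : ∀ v, YR v ^ 2 = XR v ^ 3 + 27 * H v * XR v + 54 * T v
  XR_gT : ∀ v, XR (gT v) = XR v
  YR_gT : ∀ v, YR (gT v) = YR v
  XQ_gS : ∀ v, XQ (gS v) = XR v
  YQ_gS : ∀ v, YQ (gS v) = -YR v
  XR_gS : ∀ v, XR (gS v) = XQ v
  YR_gS : ∀ v, YR (gS v) = YQ v
  /-- chord identity (x-coordinate) for `Q ∘ gT = Q + (-R)` -/
  addX : ∀ v, (YQ v + YR v) ^ 2 = (XQ v + XR v + XQ (gT v)) * (XQ v - XR v) ^ 2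
  /-- chord identity (y-coordinate) for `Q ∘ gT = Q + (-R)` -/
  addY : ∀ v, YQ (gT v) * (XQ v - XR v) =
    (YQ v + YR v) * (XQ v - XQ (gT v)) - YQ v * (XQ v - XR v)
  gT_pow : ∀ v, gT^[5] v = v
  sep : ∀ v, (XQ v - XR v) * L v = c * f v ^ 2
  c_ne : c ≠ 0

namespace KleinPts

variable (D : KleinPts k) (h t : k)

/-- The fibre of `(H, T)` over `(h, t)`. -/
def Fib : Type _ := {v : k × k // D.H v = h ∧ D.T v = t}

variable {D h t}

/-- `gS` on the fibre. -/
def sS (v : D.Fib h t) : D.Fib h t :=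
  ⟨D.gS v.1, by rw [D.H_gS, D.T_gS]; exact v.2⟩

/-- `gT` on the fibre. -/
def sT (v : D.Fib h t) : D.Fib h t :=
  ⟨D.gT v.1, by rw [D.H_gT, D.T_gT]; exact v.2⟩

@[simp] lemma sS_val (v : D.Fib h t) : (sS v).1 = D.gS v.1 := rfl
@[simp] lemma sT_val (v : D.Fib h t) : (sT v).1 = D.gT v.1 := rfl

lemma sT_iterate_val (v : D.Fib h t) (n : ℕ) : (sT^[n] v).1 = D.gT^[n] v.1 := by
  induction n generalizing v with
  | zero => rfl
  | succ n ih => rw [Function.iterate_succ_apply, Function.iterate_succ_apply, ih, sT_val]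

lemma sT_pow_five (v : D.Fib h t) : sT^[5] v = v :=
  Subtype.ext (by rw [sT_iterate_val, D.gT_pow])

lemma f_ne_zero (hΔ : (curve h t).Δ ≠ 0) (v : D.Fib h t) : D.f v.1 ≠ 0 := by
  intro hf
  apply sum_ne_zero_of_Δ hΔ
  have := D.syz v.1
  rw [v.2.1, v.2.2, hf] at this
  linear_combination this

lemma XQ_ne_XR (hΔ : (curve h t).Δ ≠ 0) (v : D.Fib h t) : D.XQ v.1 ≠ D.XR v.1 := by
  intro heq
  have h1 := D.sep v.1
  rw [heq, sub_self, zero_mul] at h1
  exact mul_ne_zero D.c_ne (pow_ne_zero 2 (f_ne_zero hΔ v)) h1.symm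

lemma equationQ (v : D.Fib h t) : (curve h t).toAffine.Equation (D.XQ v.1) (D.YQ v.1) := by
  rw [equation_curve_iff, D.eqQ, v.2.1, v.2.2]

lemma equationR (v : D.Fib h t) : (curve h t).toAffine.Equation (D.XR v.1) (D.YR v.1) := by
  rw [equation_curve_iff, D.eqR, v.2.1, v.2.2]

/-- The universal point `Q` on the fixed curve. -/
def ptQ (hΔ : (curve h t).Δ ≠ 0) (v : D.Fib h t) : (curve h t).toAffine.Point :=
  Point.some (D.XQ v.1) (D.YQ v.1) ((equation_iff_nonsingular_of_Δ_ne_zero hΔ).mp (equationQ v))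

/-- The universal point `R` on the fixed curve. -/
def ptR (hΔ : (curve h t).Δ ≠ 0) (v : D.Fib h t) : (curve h t).toAffine.Point :=
  Point.some (D.XR v.1) (D.YR v.1) ((equation_iff_nonsingular_of_Δ_ne_zero hΔ).mp (equationR v))

lemma ptQ_ne_zero (hΔ : (curve h t).Δ ≠ 0) (v : D.Fib h t) : ptQ hΔ v ≠ 0 :=
  Point.some_ne_zero _

lemma ptR_ne_zero (hΔ : (curve h t).Δ ≠ 0) (v : D.Fib h t) : ptR hΔ v ≠ 0 :=
  Point.some_ne_zero _

/-- Two points with the same coordinates are equal. -/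
lemma some_congr {W : Affine k} {x y x' y' : k} (hx : x = x') (hy : y = y')
    (hn : W.Nonsingular x y) (hn' : W.Nonsingular x' y') :
    Point.some x y hn = Point.some x' y' hn' := by
  subst hx hy; rfl

lemma ptR_sT (hΔ : (curve h t).Δ ≠ 0) (v : D.Fib h t) : ptR hΔ (sT v) = ptR hΔ v :=
  some_congr (D.XR_gT v.1) (D.YR_gT v.1) _ _

lemma ptR_sS (hΔ : (curve h t).Δ ≠ 0) (v : D.Fib h t) : ptR hΔ (sS v) = ptQ hΔ v :=
  some_congr (D.XR_gS v.1) (D.YR_gS v.1) _ _

lemma ptQ_sS (hΔ : (curve h t).Δ ≠ 0) (v : D.Fib h t) : ptQ hΔ (sS v) = -ptR hΔ v := by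
  rw [ptR, Point.neg_some]
  refine some_congr (D.XQ_gS v.1) ?_ _ _
  rw [sS_val, D.YQ_gS]
  simp [WeierstrassCurve.Affine.negY]

variable [DecidableEq k]

/-- The key transformation law in point form: `Q ∘ gT = Q - R`. -/
theorem ptQ_sT (hΔ : (curve h t).Δ ≠ 0) (v : D.Fib h t) :
    ptQ hΔ (sT v) = ptQ hΔ v - ptR hΔ v := by
  have hne : D.XQ v.1 ≠ D.XR v.1 := XQ_ne_XR hΔ v
  have hd : D.XQ v.1 - D.XR v.1 ≠ 0 := sub_ne_zero.mpr hne
  rw [sub_eq_add_neg, ptQ, ptQ, ptR, Point.neg_some, Point.add_of_X_ne hne]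
  have hneg : (curve h t).toAffine.negY (D.XR v.1) (D.YR v.1) = -D.YR v.1 := by
    simp [WeierstrassCurve.Affine.negY]
  have hslope : (curve h t).toAffine.slope (D.XQ v.1) (D.XR v.1) (D.YQ v.1)
      ((curve h t).toAffine.negY (D.XR v.1) (D.YR v.1)) =
      (D.YQ v.1 + D.YR v.1) / (D.XQ v.1 - D.XR v.1) := by
    rw [WeierstrassCurve.Affine.slope_of_X_ne hne, hneg, sub_neg_eq_add]
  have hX : (curve h t).toAffine.addX (D.XQ v.1) (D.XR v.1)
      ((D.YQ v.1 + D.YR v.1) / (D.XQ v.1 - D.XR v.1)) = D.XQ (D.gT v.1) := by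
    simp only [WeierstrassCurve.Affine.addX, curve_a₁, curve_a₂]
    have h1 := D.addX v.1
    field_simp
    linear_combination h1
  refine some_congr ?_ ?_ _ _
  · rw [hslope, hX, sT_val]
  · rw [hslope, WeierstrassCurve.Affine.addY, WeierstrassCurve.Affine.negAddY, hX, sT_val]
    simp only [WeierstrassCurve.Affine.negY, curve_a₁, curve_a₃]
    have h2 := D.addY v.1
    field_simp
    linear_combination h2

/-- Iterating `gT`: `Q ∘ gT^n = Q - n R`. -/
theorem ptQ_sT_iterate (hΔ : (curve h t).Δ ≠ 0) (v : D.Fib h t) (n : ℕ) :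
    ptQ hΔ (sT^[n] v) = ptQ hΔ v - n • ptR hΔ v := by
  induction n generalizing v with
  | zero => simp
  | succ n ih =>
    rw [Function.iterate_succ_apply, ih, ptQ_sT, ptR_sT, succ_nsmul]
    abel

omit [DecidableEq k] in
lemma ptR_sT_iterate (hΔ : (curve h t).Δ ≠ 0) (v : D.Fib h t) (n : ℕ) :
    ptR hΔ (sT^[n] v) = ptR hΔ v := by
  induction n generalizing v with
  | zero => rfl
  | succ n ih => rw [Function.iterate_succ_apply, ih, ptR_sT]

/-- `5 R = 0`. -/
theorem five_nsmul_ptR (hΔ : (curve h t).Δ ≠ 0) (v : D.Fib h t) : 5 • ptR hΔ v = 0 := by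
  have h1 := ptQ_sT_iterate hΔ v 5
  rw [sT_pow_five] at h1
  have : ptQ hΔ v - (ptQ hΔ v - 5 • ptR hΔ v) = 0 := by rw [← h1, sub_self]
  rwa [sub_sub_cancel] at this

/-- `5 Q = 0`. -/
theorem five_nsmul_ptQ (hΔ : (curve h t).Δ ≠ 0) (v : D.Fib h t) : 5 • ptQ hΔ v = 0 := by
  rw [← ptR_sS]
  exact five_nsmul_ptR hΔ (sS v)

omit [DecidableEq k] in
lemma ptQ_ne_ptR (hΔ : (curve h t).Δ ≠ 0) (v : D.Fib h t) : ptQ hΔ v ≠ ptR hΔ v := by
  intro heq
  rw [ptQ, ptR] at heq
  injection heq with hx _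
  exact XQ_ne_XR hΔ v hx

/-! ### Independence and the basis theorem -/

section Group

variable {G : Type*} [AddCommGroup G]

/-- In a group killed by `5` at `P`, the multiple `a • P` only depends on `a` modulo `5`. -/
lemma zsmul_congr_of_five {P : G} (hP : (5 : ℕ) • P = 0) {a b : ℤ} (hab : a ≡ b [ZMOD 5]) :
    a • P = b • P := by
  obtain ⟨c, hc⟩ := hab.symm.dvd
  have ha : a = b + c * 5 := by linarith
  have h5 : (5 : ℤ) • P = 0 := by
    have : ((5 : ℕ) : ℤ) • P = 0 := by rw [natCast_zsmul]; exact hP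
    simpa using this
  rw [ha, add_zsmul, mul_zsmul, h5, smul_zero, add_zero]

/-- A nonzero element killed by `5` is not killed by an integer prime to `5`. -/
lemma five_dvd_of_zsmul_eq_zero {P : G} (hP : (5 : ℕ) • P = 0) (hP0 : P ≠ 0) {a : ℤ}
    (ha : a • P = 0) : (5 : ℤ) ∣ a := by
  by_contra hdvd
  have hcop : IsCoprime a 5 := by
    have h5 : Prime (5 : ℤ) := by norm_num
    exact (IsCoprime.symm ((Prime.coprime_iff_not_dvd h5).mpr hdvd))
  obtain ⟨x, y, hxy⟩ := hcop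
  have h5 : (5 : ℤ) • P = 0 := by
    have : ((5 : ℕ) : ℤ) • P = 0 := by rw [natCast_zsmul]; exact hP
    simpa using this
  apply hP0
  calc P = (1 : ℤ) • P := (one_zsmul P).symm
    _ = (x * a + y * 5) • P := by rw [hxy]
    _ = 0 := by rw [add_zsmul, mul_zsmul, mul_zsmul, ha, h5, smul_zero, smul_zero, add_zero]

/-- An integer prime to `5` has an inverse modulo `5`. -/
lemma exists_inv_mod_five {a : ℤ} (ha : ¬ (5 : ℤ) ∣ a) : ∃ a' : ℤ, a * a' ≡ 1 [ZMOD 5] := by
  have h5 : Prime (5 : ℤ) := by norm_num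
  have hcop : IsCoprime a 5 := IsCoprime.symm ((Prime.coprime_iff_not_dvd h5).mpr ha)
  obtain ⟨x, y, hxy⟩ := hcop
  refine ⟨x, ?_⟩
  have : a * x = 1 - y * 5 := by linarith
  rw [this]
  exact Int.modEq_iff_dvd.mpr ⟨y, by ring⟩

end Group

/-- **Independence** of the universal points. -/
theorem independent (hΔ : (curve h t).Δ ≠ 0) (v : D.Fib h t) {a b : ℤ}
    (hab : a • ptQ hΔ v + b • ptR hΔ v = 0) : (5 : ℤ) ∣ a ∧ (5 : ℤ) ∣ b := by
  have hQ5 := five_nsmul_ptQ hΔ v
  have hR5 := five_nsmul_ptR hΔ v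
  by_cases hb : (5 : ℤ) ∣ b
  · -- then `a • Q = 0`
    have hbR : b • ptR hΔ v = 0 := by
      rw [zsmul_congr_of_five hR5 (Int.modEq_zero_iff_dvd.mpr hb), zero_zsmul]
    rw [hbR, add_zero] at hab
    exact ⟨five_dvd_of_zsmul_eq_zero hQ5 (ptQ_ne_zero hΔ v) hab, hb⟩
  · exfalso
    obtain ⟨b', hb'⟩ := exists_inv_mod_five hb
    -- `R = k • Q`
    have hR : ptR hΔ v = (-(b' * a)) • ptQ hΔ v := by
      have h1 : b' • (a • ptQ hΔ v + b • ptR hΔ v) = 0 := by rw [hab, smul_zero]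
      rw [smul_add, ← mul_zsmul, ← mul_zsmul,
        zsmul_congr_of_five hR5 (show b' * b ≡ 1 [ZMOD 5] by rwa [mul_comm]), one_zsmul] at h1
      rw [neg_zsmul]
      exact eq_neg_of_add_eq_zero_right h1
    set k : ℤ := -(b' * a) with hk
    have hk5 : ¬ (5 : ℤ) ∣ k := by
      intro hdvd
      apply ptR_ne_zero hΔ v
      rw [hR, zsmul_congr_of_five hQ5 (Int.modEq_zero_iff_dvd.mpr hdvd), zero_zsmul]
    obtain ⟨k', hk'⟩ := exists_inv_mod_five hk5
    -- choose `j` with `1 - j k ≡ k`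
    set j : ℕ := (((1 - k) * k') % 5).toNat with hj
    have hjcast : (j : ℤ) = ((1 - k) * k') % 5 :=
      Int.toNat_of_nonneg (Int.emod_nonneg _ (by norm_num))
    have hjmod : (j : ℤ) ≡ (1 - k) * k' [ZMOD 5] := by
      rw [hjcast]; exact Int.mod_modEq _ _
    have hcong : 1 - (j : ℤ) * k ≡ k [ZMOD 5] := by
      have h1 : (j : ℤ) * k ≡ (1 - k) * k' * k [ZMOD 5] := hjmod.mul_right k
      have h2 : (1 - k) * k' * k ≡ (1 - k) * 1 [ZMOD 5] := by
        rw [mul_assoc]
        exact Int.ModEq.mul_left _ (by rwa [mul_comm])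
      have h3 : (j : ℤ) * k ≡ 1 - k [ZMOD 5] := by
        rw [mul_one] at h2; exact h1.trans h2
      have h4 : 1 - (j : ℤ) * k ≡ 1 - (1 - k) [ZMOD 5] := Int.ModEq.sub_left _ h3
      rw [sub_sub_cancel] at h4
      exact h4
    have hQj : ptQ hΔ (sT^[j] v) = ptR hΔ (sT^[j] v) := by
      rw [ptQ_sT_iterate, ptR_sT_iterate]
      have : ptQ hΔ v - j • ptR hΔ v = (1 - (j : ℤ) * k) • ptQ hΔ v := by
        rw [sub_smul, one_zsmul, mul_zsmul, ← hR, natCast_zsmul]
      rw [this, zsmul_congr_of_five hQ5 hcong, ← hR]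
    exact ptQ_ne_ptR hΔ _ hQj

/-- **Basis theorem**: every point killed by `5` is a combination of the universal points. -/
theorem exists_combination (hΔ : (curve h t).Δ ≠ 0) (h5 : (5 : k) ≠ 0) (v : D.Fib h t)
    (P : (curve h t).toAffine.Point) (hP : (5 : ℕ) • P = 0) :
    ∃ a b : ℤ, P = a • ptQ hΔ v + b • ptR hΔ v := by
  classical
  have hodd : Odd 5 := by decide
  have h5' : ((5 : ℕ) : k) ≠ 0 := by exact_mod_cast h5
  obtain ⟨hfin, hcard⟩ :=
    Fermat.Agent.DivPoly.CountFinal.torsion_finite_ncard_le (W := (curve h t).toAffine) hodd h5'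
  set S : Set (curve h t).toAffine.Point := {P | (5 : ℕ) • P = 0} with hS
  let φ : Fin 5 × Fin 5 → (curve h t).toAffine.Point :=
    fun ab => ((ab.1 : ℕ) : ℤ) • ptQ hΔ v + ((ab.2 : ℕ) : ℤ) • ptR hΔ v
  have hφinj : Function.Injective φ := by
    rintro ⟨a, b⟩ ⟨a', b'⟩ heq
    have h0 : (((a : ℕ) : ℤ) - ((a' : ℕ) : ℤ)) • ptQ hΔ v +
        (((b : ℕ) : ℤ) - ((b' : ℕ) : ℤ)) • ptR hΔ v = 0 := by
      have : φ (a, b) - φ (a', b') = 0 := by rw [heq, sub_self]
      simp only [φ] at this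
      rw [sub_smul, sub_smul, ← this]
      abel
    obtain ⟨h1, h2⟩ := independent hΔ v h0
    have ha : a = a' := by
      apply Fin.ext
      have := a.2; have := a'.2
      omega
    have hb : b = b' := by
      apply Fin.ext
      have := b.2; have := b'.2
      omega
    rw [ha, hb]
  have hsub : Set.range φ ⊆ S := by
    rintro _ ⟨⟨a, b⟩, rfl⟩
    simp only [hS, Set.mem_ofPred_eq, φ]
    rw [smul_add, smul_comm, five_nsmul_ptQ, smul_zero, smul_comm, five_nsmul_ptR, smul_zero,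
      add_zero]
  have hrange : (Set.range φ).ncard = 25 := by
    rw [Set.ncard_eq_toFinset_card', Set.toFinset_range,
      Finset.card_image_of_injective _ hφinj]
    simp
  have heq : Set.range φ = S := by
    apply Set.eq_of_subset_of_ncard_le hsub _ hfin
    rw [hrange]
    simpa using hcard
  have hPS : P ∈ S := hP
  rw [← heq] at hPS
  obtain ⟨⟨a, b⟩, rfl⟩ := hPS
  exact ⟨_, _, rfl⟩

end KleinPts

end Fermat.Agent.S52K.TorsBasis99
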