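/-
S52 programme (K), helper99: small point tools for short Weierstrass curves
`curve h t : y² = x³ + 27 h x + 54 t`:

* `castPt`     : transport of points along a (propositional) equality of Weierstrass curves;
* `two_nsmul_some` : the duplication formula in "tangent identity" form;
* `Y_ne_zero_of_five` : a nonzero point killed by `5` has `y ≠ 0`.
-/
import Mathlib
import Fermat.Agent.S52K.TorsBasis99

set_option autoImplicit false

open WeierstrassCurve WeierstrassCurve.Affine

namespace Fermat.Agent.S52K.PtTools99

open Fermat.Agent.S52K.TorsBasis99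

variable {k : Type*} [Field k] [DecidableEq k]

/-- Transport of points along an equality of curves. -/
def castPt {W W' : Affine k} (e : W = W') : W.Point ≃+ W'.Point :=
  e ▸ AddEquiv.refl W.Point

omit [DecidableEq k] in
lemma nonsingular_cast {W W' : Affine k} (e : W = W') {x y : k} (h : W.Nonsingular x y) :
    W'.Nonsingular x y := e ▸ h

lemma castPt_some {W W' : Affine k} (e : W = W') {x y : k} (h : W.Nonsingular x y) :
    castPt e (Point.some x y h) = Point.some x y (nonsingular_cast e h) := by
  subst e; rfl

lemma castPt_zero {W W' : Affine k} (e : W = W') : castPt e (0 : W.Point) = 0 :=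
  map_zero _

/-- Duplication on `curve h t` from the tangent identities (the nonsingularity of the double is
part of the conclusion). -/
theorem two_nsmul_some {h t x y x2 y2 : k} (hn : (curve h t).toAffine.Nonsingular x y)
    (hy : 2 * y ≠ 0)
    (hX : (3 * x ^ 2 + 27 * h) ^ 2 = (x2 + 2 * x) * (2 * y) ^ 2)
    (hY : y2 * (2 * y) = (3 * x ^ 2 + 27 * h) * (x - x2) - y * (2 * y)) :
    ∃ hn2 : (curve h t).toAffine.Nonsingular x2 y2,
      (2 : ℕ) • Point.some x y hn = Point.some x2 y2 hn2 := by
  have hyne : y ≠ (curve h t).toAffine.negY x y := by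
    simp only [WeierstrassCurve.Affine.negY, curve_a₁, curve_a₃]
    intro h0
    apply hy
    linear_combination h0
  have key : ∀ (x2' y2' : k) (_ : x2' = x2) (_ : y2' = y2)
      (hn' : (curve h t).toAffine.Nonsingular x2' y2'),
      ∃ hn2 : (curve h t).toAffine.Nonsingular x2 y2,
        Point.some x2' y2' hn' = Point.some x2 y2 hn2 := by
    intro x2' y2' hx hy' hn'
    subst hx hy'
    exact ⟨hn', rfl⟩
  rw [two_nsmul, Point.add_self_of_Y_ne hyne]
  have hslope : (curve h t).toAffine.slope x x y y = (3 * x ^ 2 + 27 * h) / (2 * y) := by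
    rw [WeierstrassCurve.Affine.slope_of_Y_ne rfl hyne]
    simp only [WeierstrassCurve.Affine.negY, curve_a₁, curve_a₂, curve_a₃, curve_a₄]
    congr 1 <;> ring
  have h2ne : (2 : k) ≠ 0 := left_ne_zero_of_mul hy
  have hy' : y ≠ 0 := right_ne_zero_of_mul hy
  have hXv : (curve h t).toAffine.addX x x ((3 * x ^ 2 + 27 * h) / (2 * y)) = x2 := by
    simp only [WeierstrassCurve.Affine.addX, curve_a₁, curve_a₂]
    field_simp
    linear_combination hX
  refine key _ _ ?_ ?_ _
  · rw [hslope, hXv]
  · rw [hslope, WeierstrassCurve.Affine.addY, WeierstrassCurve.Affine.negAddY, hXv]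
    simp only [WeierstrassCurve.Affine.negY, curve_a₁, curve_a₃]
    field_simp
    linear_combination (-1 : k) * hY

/-- A nonzero point killed by `5` has nonzero `y`-coordinate (on a short curve). -/
theorem two_mul_Y_ne_zero_of_five {h t x y : k} (hn : (curve h t).toAffine.Nonsingular x y)
    (h5 : (5 : ℕ) • Point.some x y hn = 0) : 2 * y ≠ 0 := by
  intro h0
  have hy : y = (curve h t).toAffine.negY x y := by
    simp only [WeierstrassCurve.Affine.negY, curve_a₁, curve_a₃]
    linear_combination h0
  have h2 : (2 : ℕ) • Point.some x y hn = 0 := by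
    rw [two_nsmul]; exact Point.add_self_of_Y_eq hy
  have : Point.some x y hn = 0 := by
    have h4 : (4 : ℕ) • Point.some x y hn = 0 := by
      rw [show (4 : ℕ) = 2 * 2 from rfl, mul_nsmul, h2, smul_zero]
    have h51 : (5 : ℕ) • Point.some x y hn = (4 : ℕ) • Point.some x y hn + Point.some x y hn := by
      rw [show (5 : ℕ) = 4 + 1 from rfl, add_nsmul, one_nsmul]
    rw [h51, h4, zero_add] at h5
    exact h5
  exact Point.some_ne_zero hn this

end Fermat.Agent.S52K.PtTools99
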