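/-
S52 programme (K), helper99: INSTANTIATION of helper6's interface `S52K3.KleinData`
from POLYNOMIAL-LEVEL data.

Input: a package `P : TorsBasis99.KleinPts Qb` (curve convention `y² = x³ + 27 H x + 54 T`) and a
package `X : KleinExtra P` (generators as linear maps, the covariant `g`, the `R`-coordinates as
functions of the root of unity, ONE generic duplication identity, rationality of the coefficients,
`μ₅`-homogeneity).  Output: `mkKleinData P X : S52K3.KleinData` with `H := P.H`, `T := -P.T`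
(`kleinCurve h t` is `y² = x³ + 27 h x - 54 t`), and with

  `Γ := {γ linear | H, T invariant, g covariant, and (Q, R)(γ w) = (Q, R)(w) · M for an integer
         matrix M of determinant `1` mod `5`, independent of the point w of any fibre}`,

which contains `1`, `S`, `T5` (`one_mem`, `S_mem`, `T5_mem`) and is closed under composition
(`comp_mem`).  Extra information not recorded in the interface is exported separately:
`law_det` (the matrices in `law` have determinant `1` mod `5`) and `galR_spec`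
(the integer `e` in `galR` satisfies `σ ζ = ζ ^ e`).
-/
import Mathlib
import Fermat.Agent.S52K.PtTools99
import Fermat.Agent.S52K3.Iface

set_option autoImplicit false

open WeierstrassCurve WeierstrassCurve.Affine

namespace Fermat.Agent.S52K.KleinAdapter99

open Fermat.Agent.S52K.TorsBasis99 Fermat.Agent.S52K.PtTools99 Fermat.Agent.S52K3

/-! ### Roots of the fifth cyclotomic polynomial -/

/-- `z` is a root of the fifth cyclotomic polynomial. -/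
def Phi5 (z : Qb) : Prop := z ^ 4 + z ^ 3 + z ^ 2 + z + 1 = 0

lemma Phi5.pow_five {z : Qb} (h : Phi5 z) : z ^ 5 = 1 := by
  unfold Phi5 at h
  linear_combination (z - 1) * h

lemma Phi5.sq {z : Qb} (h : Phi5 z) : Phi5 (z ^ 2) := by
  unfold Phi5 at h ⊢
  linear_combination (z ^ 4 - z ^ 3 + z ^ 2 - z + 1) * h

lemma Phi5.map {z : Qb} (h : Phi5 z) (σ : GQ) : Phi5 (σ z) := by
  unfold Phi5 at h ⊢
  have := congrArg σ h
  simpa using this

/-- The roots of `Φ₅` are the powers `ζ, ζ², ζ³, ζ⁴` of any one of them. -/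
lemma Phi5.eq_pow {ζ z : Qb} (hζ : Phi5 ζ) (hz : Phi5 z) :
    z = ζ ∨ z = ζ ^ 2 ∨ z = ζ ^ 3 ∨ z = ζ ^ 4 := by
  unfold Phi5 at hζ hz
  have hprod : (z - ζ) * ((z - ζ ^ 2) * ((z - ζ ^ 3) * (z - ζ ^ 4))) = 0 := by
    linear_combination hz +
      (-z ^ 3 + (ζ ^ 3 + ζ - 1) * z ^ 2 - (ζ ^ 5 - ζ + 1) * z + (ζ - 1) * (ζ ^ 5 + 1)) * hζ
  rcases mul_eq_zero.mp hprod with h | h
  · exact Or.inl (sub_eq_zero.mp h)
  rcases mul_eq_zero.mp h with h | h
  · exact Or.inr (Or.inl (sub_eq_zero.mp h))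
  rcases mul_eq_zero.mp h with h | h
  · exact Or.inr (Or.inr (Or.inl (sub_eq_zero.mp h)))
  · exact Or.inr (Or.inr (Or.inr (sub_eq_zero.mp h)))

/-! ### The extra data -/

/-- What is needed, besides `P : KleinPts Qb`, to instantiate `S52K3.KleinData`. -/
structure KleinExtra (P : KleinPts Qb) where
  /-- the fifth root of unity entering the coordinates of `R` -/
  ζ : Qb
  hζ : Phi5 ζ
  /-- the symplectic gradient of `f` -/
  g : V2 → V2
  /-- the generator of order 4, as a linear map -/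
  S : V2 →ₗ[Qb] V2
  /-- the generator of order 5, as a linear map -/
  T5 : V2 →ₗ[Qb] V2
  gS_eq : ∀ v, P.gS v = S v
  gT_eq : ∀ v, P.gT v = T5 v
  g_S : ∀ v, g (S v) = S (g v)
  g_T5 : ∀ v, g (T5 v) = T5 (g v)
  /-- the `x`-coordinate of `R` as a function of the root of unity -/
  XRg : Qb → V2 → Qb
  /-- the `y`-coordinate of `R` as a function of the root of unity -/
  YRg : Qb → V2 → Qb
  XR_eq : ∀ v, P.XR v = XRg ζ v
  YR_eq : ∀ v, P.YR v = YRg ζ v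
  /-- tangent identity (x-coordinate) for `R_{z²} = 2 R_z` -/
  dblX : ∀ z, Phi5 z → ∀ v,
    (3 * XRg z v ^ 2 + 27 * P.H v) ^ 2 = (XRg (z ^ 2) v + 2 * XRg z v) * (2 * YRg z v) ^ 2
  /-- tangent identity (y-coordinate) for `R_{z²} = 2 R_z` -/
  dblY : ∀ z, Phi5 z → ∀ v,
    YRg (z ^ 2) v * (2 * YRg z v) =
      (3 * XRg z v ^ 2 + 27 * P.H v) * (XRg z v - XRg (z ^ 2) v) - YRg z v * (2 * YRg z v)
  gal_H : ∀ (σ : GQ) (v : V2), σ (P.H v) = P.H (gal σ v)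
  gal_T : ∀ (σ : GQ) (v : V2), σ (P.T v) = P.T (gal σ v)
  gal_g : ∀ (σ : GQ) (v : V2), gal σ (g v) = g (gal σ v)
  gal_XQ : ∀ (σ : GQ) (v : V2), σ (P.XQ v) = P.XQ (gal σ v)
  gal_YQ : ∀ (σ : GQ) (v : V2), σ (P.YQ v) = P.YQ (gal σ v)
  gal_XRg : ∀ (σ : GQ) (z : Qb) (v : V2), σ (XRg z v) = XRg (σ z) (gal σ v)
  gal_YRg : ∀ (σ : GQ) (z : Qb) (v : V2), σ (YRg z v) = YRg (σ z) (gal σ v)
  scal_H : ∀ v : V2, P.H (ζ • v) = P.H v
  scal_T : ∀ v : V2, P.T (ζ • v) = P.T v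
  scal_g : ∀ v : V2, g (ζ • v) = ζ • g v
  scal_XQ : ∀ v : V2, P.XQ (ζ • v) = P.XQ v
  scal_YQ : ∀ v : V2, P.YQ (ζ • v) = P.YQ v
  scal_XR : ∀ v : V2, P.XR (ζ • v) = P.XR v
  scal_YR : ∀ v : V2, P.YR (ζ • v) = P.YR v

variable {P : KleinPts Qb}

/-! ### Work on the fixed curve `curve h t` -/

section Fixed

variable {h t : Qb}

/-- The transformation law of `γ` with matrix `(a b; c d)`, in fibre form (no casts). -/
def LawOn (P : KleinPts Qb) (γ : V2 → V2) (a b c d : ℤ) : Prop :=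
  ∀ (h t : Qb) (hΔ : (curve h t).Δ ≠ 0) (w : P.Fib h t)
    (hw : P.H (γ w.1) = h ∧ P.T (γ w.1) = t),
    KleinPts.ptQ hΔ ⟨γ w.1, hw⟩ = a • KleinPts.ptQ hΔ w + c • KleinPts.ptR hΔ w ∧
    KleinPts.ptR hΔ ⟨γ w.1, hw⟩ = b • KleinPts.ptQ hΔ w + d • KleinPts.ptR hΔ w

lemma lawOn_id : LawOn P id 1 0 0 1 := by
  intro h t hΔ w hw
  constructor
  · rw [one_zsmul, zero_zsmul, add_zero]; rfl
  · rw [one_zsmul, zero_zsmul, zero_add]; rfl

lemma lawOn_gS : LawOn P P.gS 0 1 (-1) 0 := by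
  intro h t hΔ w hw
  constructor
  · rw [zero_zsmul, zero_add, neg_one_zsmul]
    exact KleinPts.ptQ_sS hΔ w
  · rw [one_zsmul, zero_zsmul, add_zero]
    exact KleinPts.ptR_sS hΔ w

lemma lawOn_gT : LawOn P P.gT 1 0 (-1) 1 := by
  intro h t hΔ w hw
  constructor
  · rw [one_zsmul, neg_one_zsmul, ← sub_eq_add_neg]
    exact KleinPts.ptQ_sT hΔ w
  · rw [one_zsmul, zero_zsmul, zero_add]
    exact KleinPts.ptR_sT hΔ w

lemma lawOn_comp {γ₁ γ₂ : V2 → V2} {a₁ b₁ c₁ d₁ a₂ b₂ c₂ d₂ : ℤ}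
    (h₂H : ∀ v, P.H (γ₂ v) = P.H v) (h₂T : ∀ v, P.T (γ₂ v) = P.T v)
    (h₁ : LawOn P γ₁ a₁ b₁ c₁ d₁) (h₂ : LawOn P γ₂ a₂ b₂ c₂ d₂) :
    LawOn P (γ₁ ∘ γ₂) (a₁ * a₂ + c₁ * b₂) (b₁ * a₂ + d₁ * b₂) (a₁ * c₂ + c₁ * d₂)
      (b₁ * c₂ + d₁ * d₂) := by
  intro h t hΔ w hw
  have hw₂ : P.H (γ₂ w.1) = h ∧ P.T (γ₂ w.1) = t := by
    rw [h₂H, h₂T]; exact w.2
  obtain ⟨hQ₂, hR₂⟩ := h₂ h t hΔ w hw₂
  obtain ⟨hQ₁, hR₁⟩ := h₁ h t hΔ ⟨γ₂ w.1, hw₂⟩ hw
  constructor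
  · change KleinPts.ptQ hΔ ⟨γ₁ (γ₂ w.1), hw⟩ = _
    rw [hQ₁, hQ₂, hR₂]
    simp only [smul_add, add_smul, mul_smul]
    abel
  · change KleinPts.ptR hΔ ⟨γ₁ (γ₂ w.1), hw⟩ = _
    rw [hR₁, hQ₂, hR₂]
    simp only [smul_add, add_smul, mul_smul]
    abel

/-! ### The conjugates of `R`: `R_{ζ^k} = k R_ζ` -/

/-- "the point with coordinates `(XRg z w, YRg z w)` is `e • R(w)`" on the fixed curve. -/
def RgEq (X : KleinExtra P) (hΔ : (curve h t).Δ ≠ 0) (w : P.Fib h t) (z : Qb) (e : ℤ) : Prop :=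
  ∃ hn : (curve h t).toAffine.Nonsingular (X.XRg z w.1) (X.YRg z w.1),
    Point.some _ _ hn = e • KleinPts.ptR hΔ w

lemma rgEq_one (X : KleinExtra P) (hΔ : (curve h t).Δ ≠ 0) (w : P.Fib h t) :
    RgEq X hΔ w X.ζ 1 := by
  have hn : (curve h t).toAffine.Nonsingular (P.XR w.1) (P.YR w.1) :=
    (equation_iff_nonsingular_of_Δ_ne_zero hΔ).mp (KleinPts.equationR w)
  have hn' : (curve h t).toAffine.Nonsingular (X.XRg X.ζ w.1) (X.YRg X.ζ w.1) := by
    rw [← X.XR_eq, ← X.YR_eq]; exact hn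
  refine ⟨hn', ?_⟩
  rw [one_zsmul]
  exact KleinPts.some_congr (X.XR_eq w.1).symm (X.YR_eq w.1).symm _ _

lemma rgEq_sq (X : KleinExtra P) (hΔ : (curve h t).Δ ≠ 0) (w : P.Fib h t) {z : Qb} (hz : Phi5 z)
    {e : ℤ} (he : RgEq X hΔ w z e) : RgEq X hΔ w (z ^ 2) (2 * e) := by
  obtain ⟨hn, hpt⟩ := he
  have h5 : (5 : ℕ) • Point.some _ _ hn = 0 := by
    rw [hpt, smul_comm, KleinPts.five_nsmul_ptR]
    exact zsmul_zero e
  have hy : 2 * X.YRg z w.1 ≠ 0 := two_mul_Y_ne_zero_of_five hn h5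
  have hX := X.dblX z hz w.1
  have hY := X.dblY z hz w.1
  rw [w.2.1] at hX hY
  obtain ⟨hn2, h2⟩ := two_nsmul_some hn hy hX hY
  refine ⟨hn2, ?_⟩
  rw [← h2, hpt, mul_smul, ← natCast_zsmul]
  rfl

end Fixed

/-! ### The group `Γ` -/

/-- `Γ`: all linear maps preserving `H`, `T`, commuting with `g`, and acting on the level
structure `(Q, R)` through an integer matrix of determinant `1` mod `5`. -/
def GammaSet (P : KleinPts Qb) (X : KleinExtra P) : Set (V2 →ₗ[Qb] V2) :=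
  {γ | (∀ v, P.H (γ v) = P.H v) ∧ (∀ v, P.T (γ v) = P.T v) ∧ (∀ v, X.g (γ v) = γ (X.g v)) ∧
    ∃ a b c d : ℤ, a * d - b * c ≡ 1 [ZMOD 5] ∧ LawOn P γ a b c d}

variable {X : KleinExtra P}

lemma id_mem : (LinearMap.id : V2 →ₗ[Qb] V2) ∈ GammaSet P X :=
  ⟨fun _ => rfl, fun _ => rfl, fun _ => rfl, 1, 0, 0, 1, by decide, lawOn_id⟩

lemma one_mem : (1 : V2 →ₗ[Qb] V2) ∈ GammaSet P X := id_mem

lemma S_mem : X.S ∈ GammaSet P X := by
  refine ⟨fun v => ?_, fun v => ?_, X.g_S, 0, 1, -1, 0, by decide, ?_⟩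
  · rw [← X.gS_eq, P.H_gS]
  · rw [← X.gS_eq, P.T_gS]
  · have : P.gS = ⇑X.S := funext X.gS_eq
    rw [← this]
    exact lawOn_gS

lemma T5_mem : X.T5 ∈ GammaSet P X := by
  refine ⟨fun v => ?_, fun v => ?_, X.g_T5, 1, 0, -1, 1, by decide, ?_⟩
  · rw [← X.gT_eq, P.H_gT]
  · rw [← X.gT_eq, P.T_gT]
  · have : P.gT = ⇑X.T5 := funext X.gT_eq
    rw [← this]
    exact lawOn_gT

lemma comp_mem {γ₁ γ₂ : V2 →ₗ[Qb] V2} (h₁ : γ₁ ∈ GammaSet P X) (h₂ : γ₂ ∈ GammaSet P X) :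
    γ₁.comp γ₂ ∈ GammaSet P X := by
  obtain ⟨h₁H, h₁T, h₁g, a₁, b₁, c₁, d₁, hd₁, hl₁⟩ := h₁
  obtain ⟨h₂H, h₂T, h₂g, a₂, b₂, c₂, d₂, hd₂, hl₂⟩ := h₂
  refine ⟨fun v => ?_, fun v => ?_, fun v => ?_, a₁ * a₂ + c₁ * b₂, b₁ * a₂ + d₁ * b₂,
    a₁ * c₂ + c₁ * d₂, b₁ * c₂ + d₁ * d₂, ?_, ?_⟩
  · rw [LinearMap.comp_apply, h₁H, h₂H]
  · rw [LinearMap.comp_apply, h₁T, h₂T]
  · rw [LinearMap.comp_apply, h₁g, h₂g, LinearMap.comp_apply]
  · have := hd₁.mul hd₂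
    rw [mul_one] at this
    have e : (a₁ * a₂ + c₁ * b₂) * (b₁ * c₂ + d₁ * d₂) - (b₁ * a₂ + d₁ * b₂) * (a₁ * c₂ + c₁ * d₂) =
        (a₁ * d₁ - b₁ * c₁) * (a₂ * d₂ - b₂ * c₂) := by ring
    rw [e]; exact this
  · rw [LinearMap.coe_comp]
    exact lawOn_comp h₂H h₂T hl₁ hl₂

lemma mul_mem {γ₁ γ₂ : V2 →ₗ[Qb] V2} (h₁ : γ₁ ∈ GammaSet P X) (h₂ : γ₂ ∈ GammaSet P X) :
    γ₁ * γ₂ ∈ GammaSet P X := comp_mem h₁ h₂

/-! ### Transport to `kleinCurve` -/

lemma curve_Δ_ne_zero (P : KleinPts Qb) (v : V2) (hv : P.f v ≠ 0) :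
    (curve (P.H v) (P.T v)).Δ ≠ 0 := by
  rw [curve_Δ]
  have h1 : P.H v ^ 3 + P.T v ^ 2 = 1728 * P.f v ^ 5 := by linear_combination P.syz v
  rw [h1]
  exact mul_ne_zero (by norm_num) (mul_ne_zero (by norm_num) (pow_ne_zero 5 hv))

lemma curve_eq_klein (h t : Qb) : (curve h t).toAffine = kleinCurve h (-t) := by
  unfold curve kleinCurve
  simp only [WeierstrassCurve.toAffine]
  congr 1
  ring

/-- The base point of the fibre through `v`. -/
def base (P : KleinPts Qb) (v : V2) : P.Fib (P.H v) (P.T v) := ⟨v, rfl, rfl⟩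

lemma nonsingQ_klein (P : KleinPts Qb) (v : V2) (hv : P.f v ≠ 0) :
    (kleinCurve (P.H v) (-P.T v)).Nonsingular (P.XQ v) (P.YQ v) :=
  nonsingular_cast (curve_eq_klein _ _)
    ((equation_iff_nonsingular_of_Δ_ne_zero (curve_Δ_ne_zero P v hv)).mp
      (KleinPts.equationQ (base P v)))

lemma nonsingR_klein (P : KleinPts Qb) (v : V2) (hv : P.f v ≠ 0) :
    (kleinCurve (P.H v) (-P.T v)).Nonsingular (P.XR v) (P.YR v) :=
  nonsingular_cast (curve_eq_klein _ _)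
    ((equation_iff_nonsingular_of_Δ_ne_zero (curve_Δ_ne_zero P v hv)).mp
      (KleinPts.equationR (base P v)))

lemma ptQ_base (P : KleinPts Qb) (v : V2) (hv : P.f v ≠ 0) :
    KleinPts.ptQ (curve_Δ_ne_zero P v hv) (base P v) = Point.some (P.XQ v) (P.YQ v)
      ((equation_iff_nonsingular_of_Δ_ne_zero (curve_Δ_ne_zero P v hv)).mp
        (KleinPts.equationQ (base P v))) := rfl

lemma ptR_base (P : KleinPts Qb) (v : V2) (hv : P.f v ≠ 0) :
    KleinPts.ptR (curve_Δ_ne_zero P v hv) (base P v) = Point.some (P.XR v) (P.YR v)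
      ((equation_iff_nonsingular_of_Δ_ne_zero (curve_Δ_ne_zero P v hv)).mp
        (KleinPts.equationR (base P v))) := rfl

lemma cast_ptQ_aux₁ (P : KleinPts Qb) (v : V2) (hv : P.f v ≠ 0) :
    castPt (curve_eq_klein (P.H v) (P.T v)) (KleinPts.ptQ (curve_Δ_ne_zero P v hv) (base P v)) =
      castPt (curve_eq_klein (P.H v) (P.T v)) (Point.some (P.XQ v) (P.YQ v)
        ((equation_iff_nonsingular_of_Δ_ne_zero (curve_Δ_ne_zero P v hv)).mp
          (KleinPts.equationQ (base P v)))) :=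
  congrArg _ (ptQ_base P v hv)

lemma cast_ptQ_aux₂ (P : KleinPts Qb) (v : V2) (hv : P.f v ≠ 0) :
    castPt (curve_eq_klein (P.H v) (P.T v)) (Point.some (P.XQ v) (P.YQ v)
        ((equation_iff_nonsingular_of_Δ_ne_zero (curve_Δ_ne_zero P v hv)).mp
          (KleinPts.equationQ (base P v)))) =
      Point.some (P.XQ v) (P.YQ v) (nonsingQ_klein P v hv) :=
  castPt_some _ _

lemma cast_ptQ (P : KleinPts Qb) (v : V2) (hv : P.f v ≠ 0) :
    castPt (curve_eq_klein (P.H v) (P.T v)) (KleinPts.ptQ (curve_Δ_ne_zero P v hv) (base P v)) =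
      Point.some (P.XQ v) (P.YQ v) (nonsingQ_klein P v hv) :=
  (cast_ptQ_aux₁ P v hv).trans (cast_ptQ_aux₂ P v hv)

lemma cast_ptR_aux₁ (P : KleinPts Qb) (v : V2) (hv : P.f v ≠ 0) :
    castPt (curve_eq_klein (P.H v) (P.T v)) (KleinPts.ptR (curve_Δ_ne_zero P v hv) (base P v)) =
      castPt (curve_eq_klein (P.H v) (P.T v)) (Point.some (P.XR v) (P.YR v)
        ((equation_iff_nonsingular_of_Δ_ne_zero (curve_Δ_ne_zero P v hv)).mp
          (KleinPts.equationR (base P v)))) :=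
  congrArg _ (ptR_base P v hv)

lemma cast_ptR_aux₂ (P : KleinPts Qb) (v : V2) (hv : P.f v ≠ 0) :
    castPt (curve_eq_klein (P.H v) (P.T v)) (Point.some (P.XR v) (P.YR v)
        ((equation_iff_nonsingular_of_Δ_ne_zero (curve_Δ_ne_zero P v hv)).mp
          (KleinPts.equationR (base P v)))) =
      Point.some (P.XR v) (P.YR v) (nonsingR_klein P v hv) :=
  castPt_some _ _

lemma cast_ptR (P : KleinPts Qb) (v : V2) (hv : P.f v ≠ 0) :
    castPt (curve_eq_klein (P.H v) (P.T v)) (KleinPts.ptR (curve_Δ_ne_zero P v hv) (base P v)) =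
      Point.some (P.XR v) (P.YR v) (nonsingR_klein P v hv) :=
  (cast_ptR_aux₁ P v hv).trans (cast_ptR_aux₂ P v hv)

lemma ptEq_of_cast {W W' : Affine Qb} (e : W = W') {x y : Qb} (hn : W.Nonsingular x y)
    {A : W.Point} (hA : Point.some x y hn = A) : PtEq W' x y (castPt e A) :=
  ⟨nonsingular_cast e hn, by rw [← hA, castPt_some]⟩

lemma fiveQ_klein (P : KleinPts Qb) (v : V2) (hv : P.f v ≠ 0) :
    (5 : ℕ) • (Point.some (P.XQ v) (P.YQ v) (nonsingQ_klein P v hv) :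
      (kleinCurve (P.H v) (-P.T v)).Point) = 0 := by
  rw [← cast_ptQ P v hv, ← map_nsmul, KleinPts.five_nsmul_ptQ, map_zero]

lemma fiveR_klein (P : KleinPts Qb) (v : V2) (hv : P.f v ≠ 0) :
    (5 : ℕ) • (Point.some (P.XR v) (P.YR v) (nonsingR_klein P v hv) :
      (kleinCurve (P.H v) (-P.T v)).Point) = 0 := by
  rw [← cast_ptR P v hv, ← map_nsmul, KleinPts.five_nsmul_ptR, map_zero]

lemma indep_klein (P : KleinPts Qb) (v : V2) (hv : P.f v ≠ 0) (a b : ℤ)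
    (hab : a • (Point.some (P.XQ v) (P.YQ v) (nonsingQ_klein P v hv) :
        (kleinCurve (P.H v) (-P.T v)).Point) +
      b • (Point.some (P.XR v) (P.YR v) (nonsingR_klein P v hv) :
        (kleinCurve (P.H v) (-P.T v)).Point) = 0) : (5 : ℤ) ∣ a ∧ (5 : ℤ) ∣ b := by
  rw [← cast_ptQ P v hv, ← cast_ptR P v hv, ← map_zsmul, ← map_zsmul, ← map_add] at hab
  have h0 := (castPt (curve_eq_klein (P.H v) (P.T v))).injective (hab.trans (map_zero _).symm)
  exact KleinPts.independent _ _ h0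

/-- the integer combination `a Q(v) + c R(v)` commutes with the transport. -/
lemma cast_comb (P : KleinPts Qb) (v : V2) (hv : P.f v ≠ 0) (a c : ℤ) :
    castPt (curve_eq_klein (P.H v) (P.T v))
      (a • KleinPts.ptQ (curve_Δ_ne_zero P v hv) (base P v) +
        c • KleinPts.ptR (curve_Δ_ne_zero P v hv) (base P v)) =
    a • (Point.some (P.XQ v) (P.YQ v) (nonsingQ_klein P v hv) :
        (kleinCurve (P.H v) (-P.T v)).Point) +
      c • (Point.some (P.XR v) (P.YR v) (nonsingR_klein P v hv) :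
        (kleinCurve (P.H v) (-P.T v)).Point) := by
  rw [map_add, map_zsmul, map_zsmul, cast_ptQ P v hv, cast_ptR P v hv]

/-- The transformation law on `kleinCurve`, with the determinant condition. -/
theorem law_klein {γ : V2 →ₗ[Qb] V2} (hγ : γ ∈ GammaSet P X) :
    ∃ a b c d : ℤ, a * d - b * c ≡ 1 [ZMOD 5] ∧ ∀ (v : V2) (hv : P.f v ≠ 0),
      PtEq (kleinCurve (P.H v) (-P.T v)) (P.XQ (γ v)) (P.YQ (γ v))
        (a • (Point.some (P.XQ v) (P.YQ v) (nonsingQ_klein P v hv)) +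
          c • (Point.some (P.XR v) (P.YR v) (nonsingR_klein P v hv))) ∧
      PtEq (kleinCurve (P.H v) (-P.T v)) (P.XR (γ v)) (P.YR (γ v))
        (b • (Point.some (P.XQ v) (P.YQ v) (nonsingQ_klein P v hv)) +
          d • (Point.some (P.XR v) (P.YR v) (nonsingR_klein P v hv))) := by
  obtain ⟨hH, hT, -, a, b, c, d, hdet, hlaw⟩ := hγ
  refine ⟨a, b, c, d, hdet, fun v hv => ?_⟩
  obtain ⟨hQ, hR⟩ := hlaw (P.H v) (P.T v) (curve_Δ_ne_zero P v hv) (base P v) ⟨hH v, hT v⟩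
  constructor
  · rw [← cast_comb P v hv a c]
    exact ptEq_of_cast _ _ hQ
  · rw [← cast_comb P v hv b d]
    exact ptEq_of_cast _ _ hR

/-! ### Galois conjugation of `R` -/

lemma galR_aux (X : KleinExtra P) (σ : GQ) (z : Qb) (e : ℤ) (hσ : σ X.ζ = z)
    (hrg : ∀ (h t : Qb) (hΔ : (curve h t).Δ ≠ 0) (w : P.Fib h t), RgEq X hΔ w z e)
    (v : V2) (hv : P.f (gal σ v) ≠ 0) :
    PtEq (kleinCurve (P.H (gal σ v)) (-P.T (gal σ v))) (σ (P.XR v)) (σ (P.YR v))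
      (e • (Point.some (P.XR (gal σ v)) (P.YR (gal σ v)) (nonsingR_klein P (gal σ v) hv))) := by
  obtain ⟨hn, hpt⟩ := hrg (P.H (gal σ v)) (P.T (gal σ v)) (curve_Δ_ne_zero P (gal σ v) hv)
    (base P (gal σ v))
  have hx : σ (P.XR v) = X.XRg z (gal σ v) := by rw [X.XR_eq, X.gal_XRg, hσ]
  have hy : σ (P.YR v) = X.YRg z (gal σ v) := by rw [X.YR_eq, X.gal_YRg, hσ]
  rw [hx, hy, ← cast_ptR P (gal σ v) hv, ← map_zsmul]
  exact ptEq_of_cast _ hn hpt

/-- Galois conjugation of the coefficients of `R` multiplies `R` by `e`, where `σ ζ = ζ ^ e`. -/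
theorem galR_klein (X : KleinExtra P) (σ : GQ) :
    ∃ e : ℕ, σ X.ζ = X.ζ ^ e ∧ ∀ (v : V2) (hv : P.f (gal σ v) ≠ 0),
      PtEq (kleinCurve (P.H (gal σ v)) (-P.T (gal σ v))) (σ (P.XR v)) (σ (P.YR v))
        ((e : ℤ) • (Point.some (P.XR (gal σ v)) (P.YR (gal σ v))
          (nonsingR_klein P (gal σ v) hv))) := by
  have hζ := X.hζ
  have r1 : ∀ (h t : Qb) (hΔ : (curve h t).Δ ≠ 0) (w : P.Fib h t), RgEq X hΔ w X.ζ 1 :=
    fun h t hΔ w => rgEq_one X hΔ w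
  have r2 : ∀ (h t : Qb) (hΔ : (curve h t).Δ ≠ 0) (w : P.Fib h t),
      RgEq X hΔ w (X.ζ ^ 2) (2 * 1) :=
    fun h t hΔ w => rgEq_sq X hΔ w hζ (r1 h t hΔ w)
  have r4 : ∀ (h t : Qb) (hΔ : (curve h t).Δ ≠ 0) (w : P.Fib h t),
      RgEq X hΔ w ((X.ζ ^ 2) ^ 2) (2 * (2 * 1)) :=
    fun h t hΔ w => rgEq_sq X hΔ w hζ.sq (r2 h t hΔ w)
  have r8 : ∀ (h t : Qb) (hΔ : (curve h t).Δ ≠ 0) (w : P.Fib h t),
      RgEq X hΔ w (((X.ζ ^ 2) ^ 2) ^ 2) (2 * (2 * (2 * 1))) :=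
    fun h t hΔ w => rgEq_sq X hΔ w hζ.sq.sq (r4 h t hΔ w)
  have h5 := hζ.pow_five
  rcases Phi5.eq_pow hζ (hζ.map σ) with h | h | h | h
  · exact ⟨1, by rw [h, pow_one], fun v hv => galR_aux X σ X.ζ ((1 : ℕ) : ℤ) h r1 v hv⟩
  · exact ⟨2, h, fun v hv => galR_aux X σ (X.ζ ^ 2) ((2 : ℕ) : ℤ) h r2 v hv⟩
  · have h8 : ((X.ζ ^ 2) ^ 2) ^ 2 = X.ζ ^ 3 := by
      calc ((X.ζ ^ 2) ^ 2) ^ 2 = X.ζ ^ 5 * X.ζ ^ 3 := by ring
        _ = X.ζ ^ 3 := by rw [h5, one_mul]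
    have h8' : X.ζ ^ 8 = X.ζ ^ 3 := by rw [← h8]; ring
    exact ⟨8, by rw [h, h8'], fun v hv =>
      galR_aux X σ (((X.ζ ^ 2) ^ 2) ^ 2) ((8 : ℕ) : ℤ) (by rw [h, h8]) r8 v hv⟩
  · have h4 : (X.ζ ^ 2) ^ 2 = X.ζ ^ 4 := by ring
    exact ⟨4, h, fun v hv =>
      galR_aux X σ ((X.ζ ^ 2) ^ 2) ((4 : ℕ) : ℤ) (by rw [h, h4]) r4 v hv⟩

/-! ### The instance of the interface -/

/-- **The Klein data** in the form consumed by the descent step (`S52K3`). -/
noncomputable def mkKleinData (P : KleinPts Qb) (X : KleinExtra P) : KleinData where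
  ζ := X.ζ
  H := P.H
  T := fun v => -P.T v
  f := P.f
  g := X.g
  xQ := P.XQ
  yQ := P.YQ
  xR := P.XR
  yR := P.YR
  Γ := GammaSet P X
  rel := fun v => by linear_combination P.syz v
  gal_H := X.gal_H
  gal_T := fun σ v => by rw [map_neg, X.gal_T]
  gal_g := X.gal_g
  gal_xQ := X.gal_XQ
  gal_yQ := X.gal_YQ
  inv_H := fun γ hγ => hγ.1
  inv_T := fun γ hγ v => by rw [hγ.2.1]
  cov_g := fun γ hγ => hγ.2.2.1
  scal_H := X.scal_H
  scal_T := fun v => by rw [X.scal_T]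
  scal_g := X.scal_g
  scal_xQ := X.scal_XQ
  scal_yQ := X.scal_YQ
  scal_xR := X.scal_XR
  scal_yR := X.scal_YR
  nonsingQ := nonsingQ_klein P
  nonsingR := nonsingR_klein P
  fiveQ := fiveQ_klein P
  fiveR := fiveR_klein P
  indep := indep_klein P
  law := fun γ hγ => by
    obtain ⟨a, b, c, d, -, h⟩ := law_klein hγ
    exact ⟨a, b, c, d, h⟩
  galR := fun σ => by
    obtain ⟨e, -, h⟩ := galR_klein X σ
    exact ⟨(e : ℤ), h⟩

@[simp] lemma mkKleinData_ζ (X : KleinExtra P) : (mkKleinData P X).ζ = X.ζ := rfl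
@[simp] lemma mkKleinData_H (X : KleinExtra P) : (mkKleinData P X).H = P.H := rfl
@[simp] lemma mkKleinData_T (X : KleinExtra P) (v : V2) : (mkKleinData P X).T v = -P.T v := rfl
@[simp] lemma mkKleinData_f (X : KleinExtra P) : (mkKleinData P X).f = P.f := rfl
@[simp] lemma mkKleinData_g (X : KleinExtra P) : (mkKleinData P X).g = X.g := rfl
@[simp] lemma mkKleinData_Γ (X : KleinExtra P) : (mkKleinData P X).Γ = GammaSet P X := rfl

/-- Refinement of `KleinData.law` for `mkKleinData`: the matrices have determinant `1` mod `5`. -/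
theorem law_det (X : KleinExtra P) {γ : V2 →ₗ[Qb] V2} (hγ : γ ∈ (mkKleinData P X).Γ) :
    ∃ a b c d : ℤ, a * d - b * c ≡ 1 [ZMOD 5] ∧ ∀ (v : V2) (hv : (mkKleinData P X).f v ≠ 0),
      PtEq (kleinCurve ((mkKleinData P X).H v) ((mkKleinData P X).T v))
        ((mkKleinData P X).xQ (γ v)) ((mkKleinData P X).yQ (γ v))
        (a • (Point.some ((mkKleinData P X).xQ v) ((mkKleinData P X).yQ v)
            ((mkKleinData P X).nonsingQ v hv)) +
          c • (Point.some ((mkKleinData P X).xR v) ((mkKleinData P X).yR v)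
            ((mkKleinData P X).nonsingR v hv))) ∧
      PtEq (kleinCurve ((mkKleinData P X).H v) ((mkKleinData P X).T v))
        ((mkKleinData P X).xR (γ v)) ((mkKleinData P X).yR (γ v))
        (b • (Point.some ((mkKleinData P X).xQ v) ((mkKleinData P X).yQ v)
            ((mkKleinData P X).nonsingQ v hv)) +
          d • (Point.some ((mkKleinData P X).xR v) ((mkKleinData P X).yR v)
            ((mkKleinData P X).nonsingR v hv))) :=
  law_klein hγ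

/-- Refinement of `KleinData.galR` for `mkKleinData`: the multiplier is the cyclotomic
character, `σ ζ = ζ ^ e`. -/
theorem galR_spec (X : KleinExtra P) (σ : GQ) :
    ∃ e : ℕ, σ (mkKleinData P X).ζ = (mkKleinData P X).ζ ^ e ∧
      ∀ (v : V2) (hv : (mkKleinData P X).f (gal σ v) ≠ 0),
        PtEq (kleinCurve ((mkKleinData P X).H (gal σ v)) ((mkKleinData P X).T (gal σ v)))
          (σ ((mkKleinData P X).xR v)) (σ ((mkKleinData P X).yR v))
          ((e : ℤ) • (Point.some ((mkKleinData P X).xR (gal σ v)) ((mkKleinData P X).yR (gal σ v))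
            ((mkKleinData P X).nonsingR (gal σ v) hv))) :=
  galR_klein X σ

end Fermat.Agent.S52K.KleinAdapter99
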