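/-
Programme K (S52), brick K2b, part 4 (helper10): the sextic resolvent
`F_j(X) = -(X² - 228 X + 496)³ - j (X + 11)⁵` of the icosahedral cover, whose roots are the values
`s = P / Q` (`P = x¹⁰ - y¹⁰`, `Q = x⁵ y⁵`) on the fibre `H³ = j f⁵`; and the `D₅` step:
`s(v') = s(v)` iff `v'` is, up to a scalar, a rotation of `v` or of the flip of `v`.
-/
import Mathlib
import Fermat.Agent.S52K.Tower10

set_option autoImplicit false

namespace Fermat.Agent.S52K.Sextic10

open Fermat.Agent.S52K.Tower10 Polynomial

variable {k : Type*} [Field k]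

/-- The sextic resolvent. -/
noncomputable def sextic (j : k) : k[X] :=
  -((X ^ 2 - C 228 * X + C 496) ^ 3 + C j * (X + C 11) ^ 5)

theorem monic_quad : (X ^ 2 - C (228 : k) * X + C 496).Monic := by
  have h : (X ^ 2 - C (228 : k) * X + C 496) = X ^ 2 + (-(C 228 * X) + C 496) := by ring
  rw [h]
  apply Polynomial.monic_X_pow_add
  calc (-(C (228 : k) * X) + C 496).degree ≤ max (-(C (228 : k) * X)).degree (C (496 : k)).degree :=
        degree_add_le _ _
    _ ≤ 1 := by
        rw [degree_neg]
        apply max_le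
        · exact (degree_C_mul_X_le _)
        · exact (degree_C_le).trans (by norm_num)
    _ < (2 : ℕ) := by norm_num

theorem natDegree_quad : (X ^ 2 - C (228 : k) * X + C 496).natDegree = 2 := by
  have h : (X ^ 2 - C (228 : k) * X + C 496) = X ^ 2 + (-(C 228 * X) + C 496) := by ring
  rw [h, natDegree_add_eq_left_of_degree_lt, natDegree_X_pow]
  rw [degree_X_pow]
  calc (-(C (228 : k) * X) + C 496).degree ≤ max (-(C (228 : k) * X)).degree (C (496 : k)).degree :=
        degree_add_le _ _
    _ ≤ 1 := by
        rw [degree_neg]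
        apply max_le
        · exact (degree_C_mul_X_le _)
        · exact (degree_C_le).trans (by norm_num)
    _ < (2 : ℕ) := by norm_num

theorem natDegree_tail_le (j : k) : (C j * (X + C 11) ^ 5).natDegree ≤ 5 := by
  calc (C j * (X + C 11) ^ 5).natDegree ≤ ((X + C (11 : k)) ^ 5).natDegree := natDegree_C_mul_le _ _
    _ ≤ 5 * (X + C (11 : k)).natDegree := natDegree_pow_le
    _ = 5 := by rw [natDegree_X_add_C]

theorem monic_neg_sextic (j : k) :
    ((X ^ 2 - C (228 : k) * X + C 496) ^ 3 + C j * (X + C 11) ^ 5).Monic := by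
  apply Monic.add_of_left (monic_quad.pow 3)
  rw [degree_eq_natDegree (monic_quad.pow 3).ne_zero, (monic_quad (k := k)).natDegree_pow,
    natDegree_quad]
  calc (C j * (X + C 11) ^ 5).degree ≤ ((C j * (X + C 11) ^ 5).natDegree : WithBot ℕ) :=
        degree_le_natDegree
    _ ≤ (5 : ℕ) := by exact_mod_cast natDegree_tail_le j
    _ < ((2 * 3 : ℕ) : WithBot ℕ) := by norm_num

theorem sextic_ne_zero (j : k) : sextic j ≠ 0 := by
  rw [sextic, neg_ne_zero]; exact (monic_neg_sextic j).ne_zero

theorem natDegree_sextic (j : k) : (sextic j).natDegree = 6 := by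
  rw [sextic, natDegree_neg]
  have h := monic_neg_sextic j
  rw [natDegree_add_eq_left_of_natDegree_lt, (monic_quad (k := k)).natDegree_pow, natDegree_quad]
  rw [(monic_quad (k := k)).natDegree_pow, natDegree_quad]
  exact lt_of_le_of_lt (natDegree_tail_le j) (by norm_num)

/-- A finite set of roots of the sextic has at most six elements. -/
theorem card_le_six (j : k) (Z : Finset k) (hZ : ∀ z ∈ Z, (sextic j).IsRoot z) : Z.card ≤ 6 := by
  classical
  rw [← natDegree_sextic j]
  apply card_le_degree_of_subset_roots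
  intro z hz
  rw [mem_roots (sextic_ne_zero j)]
  exact hZ z hz

/-- The `s`-value of a point on the fibre `H³ = j f⁵` is a root of the sextic. -/
theorem isRoot_sextic {a b j : k} (hq : qK a b ≠ 0) (h : hK a b ^ 3 = j * fK a b ^ 5) :
    (sextic j).IsRoot (pK a b / qK a b) := by
  rw [hK_eq, fK_pow_five] at h
  simp only [sextic, IsRoot.def, eval_neg, eval_add, eval_mul, eval_pow, eval_sub, eval_X, eval_C]
  field_simp
  linear_combination h

end Fermat.Agent.S52K.Sextic10
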