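/-
Programme K (S52), brick K2b, MAIN (helper10): the fibres of `(H, T) : k² → k²` over generic
points are single orbits of the group `μ₁₀ · ⟨S, rot, U⟩`.

`S` is an ARBITRARY matrix of `SL(2, k)` preserving the three Klein forms and with all four entries
nonzero (Klein's `S`; the three invariance identities are the business of brick K1).
Main theorem: `exists_mem_closure`.
-/
import Mathlib
import Fermat.Agent.S52K.Tower10
import Fermat.Agent.S52K.Free10
import Fermat.Agent.S52K.Act10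
import Fermat.Agent.S52K.Sextic10
import Fermat.Agent.S52K.Dihedral10

set_option autoImplicit false

namespace Fermat.Agent.S52K.Orbit10

open Fermat.Agent.S52K.Tower10 Fermat.Agent.S52K.Free10 Fermat.Agent.S52K.Act10
  Fermat.Agent.S52K.Sextic10 Fermat.Agent.S52K.Dihedral10 Matrix

variable {k : Type*} [Field k]

/-! ### Entries of the generators -/

section Entries

variable {ζ : k} (hζ : ζ ^ 5 = 1)

theorem entry_eq_act (g : Matrix.SpecialLinearGroup (Fin 2) k) :
    g 0 0 = actX g 1 0 ∧ g 0 1 = actX g 0 1 ∧ g 1 0 = actY g 1 0 ∧ g 1 1 = actY g 0 1 := by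
  simp [actX, actY]

theorem rot_pow_00 (n : ℕ) : (rot ζ hζ ^ n) 0 0 = (ζ ^ 3) ^ n := by
  rw [(entry_eq_act _).1, actX_rot_pow, mul_one]

theorem rot_pow_01 (n : ℕ) : (rot ζ hζ ^ n) 0 1 = 0 := by
  rw [(entry_eq_act _).2.1, actX_rot_pow, mul_zero]

theorem rot_pow_10 (n : ℕ) : (rot ζ hζ ^ n) 1 0 = 0 := by
  rw [(entry_eq_act _).2.2.1, actY_rot_pow, mul_zero]

theorem rot_pow_11 (n : ℕ) : (rot ζ hζ ^ n) 1 1 = (ζ ^ 2) ^ n := by
  rw [(entry_eq_act _).2.2.2, actY_rot_pow, mul_one]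

/-- Left multiplication by `rotⁿ` scales the rows. -/
theorem rot_pow_mul_apply (n : ℕ) (g : Matrix.SpecialLinearGroup (Fin 2) k) (j : Fin 2) :
    (rot ζ hζ ^ n * g) 0 j = (ζ ^ 3) ^ n * g 0 j ∧ (rot ζ hζ ^ n * g) 1 j = (ζ ^ 2) ^ n * g 1 j := by
  simp only [Matrix.SpecialLinearGroup.coe_mul, Matrix.mul_apply, Fin.sum_univ_two,
    rot_pow_00, rot_pow_01, rot_pow_10, rot_pow_11]
  constructor <;> ring

/-- Right multiplication by `rotⁿ` scales the columns. -/
theorem mul_rot_pow_apply (n : ℕ) (g : Matrix.SpecialLinearGroup (Fin 2) k) (i : Fin 2) :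
    (g * rot ζ hζ ^ n) i 0 = g i 0 * (ζ ^ 3) ^ n ∧ (g * rot ζ hζ ^ n) i 1 = g i 1 * (ζ ^ 2) ^ n := by
  simp only [Matrix.SpecialLinearGroup.coe_mul, Matrix.mul_apply, Fin.sum_univ_two,
    rot_pow_00, rot_pow_01, rot_pow_10, rot_pow_11]
  constructor <;> ring

theorem uMat_00 : (uMat k) 0 0 = 0 := by simp [uMat]
theorem uMat_01 : (uMat k) 0 1 = -1 := by simp [uMat]
theorem uMat_10 : (uMat k) 1 0 = 1 := by simp [uMat]
theorem uMat_11 : (uMat k) 1 1 = 0 := by simp [uMat]

/-- Left multiplication by `U` swaps the rows (with a sign). -/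
theorem uMat_mul_apply (g : Matrix.SpecialLinearGroup (Fin 2) k) (j : Fin 2) :
    (uMat k * g) 0 j = -g 1 j ∧ (uMat k * g) 1 j = g 0 j := by
  simp only [Matrix.SpecialLinearGroup.coe_mul, Matrix.mul_apply, Fin.sum_univ_two,
    uMat_00, uMat_01, uMat_10, uMat_11]
  constructor <;> ring

end Entries

/-! ### Facts on fifth roots of unity -/

section Zeta

variable {ζ : k} (hζ : IsPrimitiveRoot ζ 5)
include hζ

theorem zeta_ne_zero : ζ ≠ 0 := hζ.ne_zero (by norm_num)

theorem eq_zero_of_pow_eq {n : ℕ} (hn : n < 5) (h : (ζ ^ 3) ^ n = (ζ ^ 2) ^ n) : n = 0 := by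
  have h0 : (ζ ^ 2) ^ n ≠ 0 := pow_ne_zero _ (pow_ne_zero _ (zeta_ne_zero hζ))
  have e : (ζ ^ 3) ^ n = ζ ^ n * (ζ ^ 2) ^ n := by ring
  rw [e] at h
  have h1 : ζ ^ n = 1 := by
    have : ζ ^ n * (ζ ^ 2) ^ n = 1 * (ζ ^ 2) ^ n := by rw [h, one_mul]
    exact mul_right_cancel₀ h0 this
  have := (hζ.pow_eq_one_iff_dvd n).mp h1
  omega

theorem eq_of_pow_eq {m m' : ℕ} (hm : m < 5) (hm' : m' < 5) {c : k}
    (h3 : (ζ ^ 3) ^ m' = c * (ζ ^ 3) ^ m) (h2 : (ζ ^ 2) ^ m' = c * (ζ ^ 2) ^ m) : m' = m := by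
  have h0 : (ζ ^ 2) ^ m' ≠ 0 := pow_ne_zero _ (pow_ne_zero _ (zeta_ne_zero hζ))
  have e : ∀ n : ℕ, (ζ ^ 3) ^ n = ζ ^ n * (ζ ^ 2) ^ n := fun n => by ring
  have h : ζ ^ m' * (ζ ^ 2) ^ m' = ζ ^ m * (ζ ^ 2) ^ m' := by
    rw [← e, h3, e, h2]; ring
  exact hζ.pow_inj hm' hm (mul_right_cancel₀ h0 h)

theorem sq_ne_neg_sq [CharZero k] (m m' : ℕ) : ((ζ ^ 3) ^ m') ^ 2 ≠ -((ζ ^ 3) ^ m) ^ 2 := by
  intro h
  have h5 : ζ ^ 5 = 1 := hζ.pow_eq_one
  have h1 : (((ζ ^ 3) ^ m') ^ 2) ^ 5 = 1 := by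
    have : (((ζ ^ 3) ^ m') ^ 2) ^ 5 = (ζ ^ 5) ^ (6 * m') := by ring
    rw [this, h5, one_pow]
  have h2 : (-((ζ ^ 3) ^ m) ^ 2) ^ 5 = -1 := by
    have : (-((ζ ^ 3) ^ m) ^ 2) ^ 5 = -((ζ ^ 5) ^ (6 * m)) := by ring
    rw [this, h5, one_pow]
  rw [h, h2] at h1
  have : (2 : k) = 0 := by linear_combination -h1
  exact two_ne_zero this

end Zeta

/-! ### The six coset representatives -/

section Reps

variable (S : Matrix.SpecialLinearGroup (Fin 2) k) {ζ : k} (hζ5 : ζ ^ 5 = 1)

/-- The six coset representatives of `D₅` in the icosahedral group: `1` and `S rotᵐ`. -/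
def rep : Option (Fin 5) → Matrix.SpecialLinearGroup (Fin 2) k
  | none => 1
  | some m => S * rot ζ hζ5 ^ (m : ℕ)

theorem preserves_rep (hS : Preserves S) (i : Option (Fin 5)) : Preserves (rep S hζ5 i) := by
  cases i with
  | none => exact preserves_one
  | some m =>
    have : Preserves (rot ζ hζ5 ^ (m : ℕ)) :=
      (mem_preservers).mp (Subgroup.pow_mem _ (mem_preservers.mpr (preserves_rot hζ5)) _)
    exact hS.mul this

theorem rep_mem_closure (i : Option (Fin 5)) :
    rep S hζ5 i ∈ Subgroup.closure ({S, rot ζ hζ5, uMat k} :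
      Set (Matrix.SpecialLinearGroup (Fin 2) k)) := by
  cases i with
  | none => exact Subgroup.one_mem _
  | some m =>
    apply Subgroup.mul_mem
    · exact Subgroup.subset_closure (by simp)
    · exact Subgroup.pow_mem _ (Subgroup.subset_closure (by simp)) _

end Reps

/-! ### Distinctness of the six roots and the orbit theorem -/

section Main

variable [CharZero k] (S : Matrix.SpecialLinearGroup (Fin 2) k) {ζ : k}
  (hζ : IsPrimitiveRoot ζ 5) (hS : Preserves S)
  (hS0 : S 0 0 ≠ 0 ∧ S 0 1 ≠ 0 ∧ S 1 0 ≠ 0 ∧ S 1 1 ≠ 0)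

include hζ hS hS0 in
/-- The `s`-values of the six translates `rep i • v` of a generic vector are pairwise distinct. -/
theorem rep_eq_of_s_eq {x y : k} (hfv : fK x y ≠ 0) (hhv : hK x y ≠ 0) (htv : tK x y ≠ 0)
    (i l : Option (Fin 5))
    (hs : pK (actX (rep S hζ.pow_eq_one l) x y) (actY (rep S hζ.pow_eq_one l) x y) *
          qK (actX (rep S hζ.pow_eq_one i) x y) (actY (rep S hζ.pow_eq_one i) x y) =
        pK (actX (rep S hζ.pow_eq_one i) x y) (actY (rep S hζ.pow_eq_one i) x y) *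
          qK (actX (rep S hζ.pow_eq_one l) x y) (actY (rep S hζ.pow_eq_one l) x y)) :
    i = l := by
  have h5 : ζ ^ 5 = 1 := hζ.pow_eq_one
  have hz0 : ζ ≠ 0 := zeta_ne_zero hζ
  have hz3 : ∀ n : ℕ, (ζ ^ 3) ^ n ≠ 0 := fun n => pow_ne_zero _ (pow_ne_zero _ hz0)
  have hz2 : ∀ n : ℕ, (ζ ^ 2) ^ n ≠ 0 := fun n => pow_ne_zero _ (pow_ne_zero _ hz0)
  obtain ⟨s00, s01, s10, s11⟩ := hS0
  have hPi := preserves_rep S h5 hS i
  have hPl := preserves_rep S h5 hS l
  -- coordinates are nonzero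
  have hfi : fK (actX (rep S h5 i) x y) (actY (rep S h5 i) x y) ≠ 0 := by rw [hPi.1]; exact hfv
  have hfl : fK (actX (rep S h5 l) x y) (actY (rep S h5 l) x y) ≠ 0 := by rw [hPl.1]; exact hfv
  obtain ⟨hai, hbi⟩ := ne_zero_of_fK_ne_zero hfi
  obtain ⟨hal, hbl⟩ := ne_zero_of_fK_ne_zero hfl
  obtain ⟨n, hn, c, hc, hcase⟩ := d5_step hζ hai hbi hal hbl hs
  have hPr : Preserves (rot ζ h5 ^ n) :=
    (mem_preservers).mp (Subgroup.pow_mem _ (mem_preservers.mpr (preserves_rot h5)) _)
  rcases hcase with ⟨hA, hB⟩ | ⟨hA, hB⟩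
  · -- rotation case
    have h1 : actX (rep S h5 l) x y = c * actX (rot ζ h5 ^ n * rep S h5 i) x y := by
      rw [actX_mul, actX_rot_pow]; exact hA
    have h2 : actY (rep S h5 l) x y = c * actY (rot ζ h5 ^ n * rep S h5 i) x y := by
      rw [actY_mul, actY_rot_pow]; exact hB
    obtain ⟨hc2, hE⟩ := eq_smul_of_act_eq hPl (hPr.mul hPi) hfv hhv htv h1 h2
    cases i with
    | none =>
      cases l with
      | none => rfl
      | some m =>
        exfalso
        have := hE 0 1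
        rw [(rot_pow_mul_apply h5 n _ 1).1] at this
        simp only [rep] at this
        rw [(mul_rot_pow_apply h5 m S 0).2] at this
        simp only [Matrix.SpecialLinearGroup.coe_one, Matrix.one_apply_ne (show (0 : Fin 2) ≠ 1 by decide),
          mul_zero] at this
        exact (mul_ne_zero s01 (hz2 m)) this
    | some m =>
      cases l with
      | none =>
        exfalso
        have := hE 0 1
        rw [(rot_pow_mul_apply h5 n _ 1).1] at this
        simp only [rep] at this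
        rw [(mul_rot_pow_apply h5 m S 0).2] at this
        simp only [Matrix.SpecialLinearGroup.coe_one,
          Matrix.one_apply_ne (show (0 : Fin 2) ≠ 1 by decide)] at this
        exact (mul_ne_zero hc (mul_ne_zero (hz3 n) (mul_ne_zero s01 (hz2 m)))) this.symm
      | some m' =>
        have e00 := hE 0 0
        have e10 := hE 1 0
        have e01 := hE 0 1
        rw [(rot_pow_mul_apply h5 n _ 0).1] at e00
        rw [(rot_pow_mul_apply h5 n _ 0).2] at e10
        rw [(rot_pow_mul_apply h5 n _ 1).1] at e01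
        simp only [rep] at e00 e10 e01
        rw [(mul_rot_pow_apply h5 m' S 0).1, (mul_rot_pow_apply h5 m S 0).1] at e00
        rw [(mul_rot_pow_apply h5 m' S 1).1, (mul_rot_pow_apply h5 m S 1).1] at e10
        rw [(mul_rot_pow_apply h5 m' S 0).2, (mul_rot_pow_apply h5 m S 0).2] at e01
        have k00 : (ζ ^ 3) ^ (m' : ℕ) = c * ((ζ ^ 3) ^ n * (ζ ^ 3) ^ (m : ℕ)) := by
          apply mul_left_cancel₀ s00; linear_combination e00
        have k10 : (ζ ^ 3) ^ (m' : ℕ) = c * ((ζ ^ 2) ^ n * (ζ ^ 3) ^ (m : ℕ)) := by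
          apply mul_left_cancel₀ s10; linear_combination e10
        have hn0 : n = 0 := by
          apply eq_zero_of_pow_eq hζ hn
          have : c * (ζ ^ 3) ^ (m : ℕ) * (ζ ^ 3) ^ n = c * (ζ ^ 3) ^ (m : ℕ) * (ζ ^ 2) ^ n := by
            linear_combination k10 - k00
          exact mul_left_cancel₀ (mul_ne_zero hc (hz3 m)) this
        subst hn0
        have k01 : (ζ ^ 2) ^ (m' : ℕ) = c * (ζ ^ 2) ^ (m : ℕ) := by
          apply mul_left_cancel₀ s01; linear_combination e01
        have k00' : (ζ ^ 3) ^ (m' : ℕ) = c * (ζ ^ 3) ^ (m : ℕ) := by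
          rw [k00]; ring
        have := eq_of_pow_eq hζ m.2 m'.2 k00' k01
        congr 1
        exact (Fin.ext this).symm
  · -- flip case
    have h1 : actX (rep S h5 l) x y = c * actX (rot ζ h5 ^ n * (uMat k * rep S h5 i)) x y := by
      rw [actX_mul, actX_rot_pow, actX_mul, actX_uMat]; exact hA
    have h2 : actY (rep S h5 l) x y = c * actY (rot ζ h5 ^ n * (uMat k * rep S h5 i)) x y := by
      rw [actY_mul, actY_rot_pow, actY_mul, actY_uMat]; exact hB
    obtain ⟨hc2, hE⟩ :=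
      eq_smul_of_act_eq hPl (hPr.mul (preserves_uMat.mul hPi)) hfv hhv htv h1 h2
    exfalso
    cases i with
    | none =>
      have := hE 0 0
      rw [(rot_pow_mul_apply h5 n _ 0).1, (uMat_mul_apply _ 0).1] at this
      simp only [rep, Matrix.SpecialLinearGroup.coe_one,
        Matrix.one_apply_ne (show (1 : Fin 2) ≠ 0 by decide), neg_zero, mul_zero] at this
      cases l with
      | none =>
        simp only [Matrix.SpecialLinearGroup.coe_one, Matrix.one_apply_eq] at this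
        exact one_ne_zero this
      | some m =>
        rw [(mul_rot_pow_apply h5 m S 0).1] at this
        exact (mul_ne_zero s00 (hz3 m)) this
    | some m =>
      cases l with
      | none =>
        have := hE 0 1
        rw [(rot_pow_mul_apply h5 n _ 1).1, (uMat_mul_apply _ 1).1] at this
        simp only [rep, Matrix.SpecialLinearGroup.coe_one,
          Matrix.one_apply_ne (show (0 : Fin 2) ≠ 1 by decide)] at this
        rw [(mul_rot_pow_apply h5 m S 1).2] at this
        exact (mul_ne_zero hc (mul_ne_zero (hz3 n) (neg_ne_zero.mpr (mul_ne_zero s11 (hz2 m)))))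
          this.symm
      | some m' =>
        have e00 := hE 0 0
        have e10 := hE 1 0
        rw [(rot_pow_mul_apply h5 n _ 0).1, (uMat_mul_apply _ 0).1] at e00
        rw [(rot_pow_mul_apply h5 n _ 0).2, (uMat_mul_apply _ 0).2] at e10
        simp only [rep] at e00 e10
        rw [(mul_rot_pow_apply h5 m' S 0).1, (mul_rot_pow_apply h5 m S 1).1] at e00
        rw [(mul_rot_pow_apply h5 m' S 1).1, (mul_rot_pow_apply h5 m S 0).1] at e10
        have hrr : (ζ ^ 3) ^ n * (ζ ^ 2) ^ n = 1 := by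
          have : (ζ ^ 3) ^ n * (ζ ^ 2) ^ n = (ζ ^ 5) ^ n := by ring
          rw [this, h5, one_pow]
        have hkey : ((ζ ^ 3) ^ (m' : ℕ)) ^ 2 = -((ζ ^ 3) ^ (m : ℕ)) ^ 2 := by
          apply mul_left_cancel₀ (mul_ne_zero s00 s10)
          calc S 0 0 * S 1 0 * ((ζ ^ 3) ^ (m' : ℕ)) ^ 2
              = (S 0 0 * (ζ ^ 3) ^ (m' : ℕ)) * (S 1 0 * (ζ ^ 3) ^ (m' : ℕ)) := by ring
            _ = (c * ((ζ ^ 3) ^ n * -(S 1 0 * (ζ ^ 3) ^ (m : ℕ)))) *
                (c * ((ζ ^ 2) ^ n * (S 0 0 * (ζ ^ 3) ^ (m : ℕ)))) := by rw [e00, e10]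
            _ = -(c ^ 2 * ((ζ ^ 3) ^ n * (ζ ^ 2) ^ n) *
                  (S 0 0 * S 1 0 * ((ζ ^ 3) ^ (m : ℕ)) ^ 2)) := by ring
            _ = S 0 0 * S 1 0 * -((ζ ^ 3) ^ (m : ℕ)) ^ 2 := by rw [hc2, hrr]; ring
        exact sq_ne_neg_sq hζ m m' hkey

include hζ hS hS0 in
/-- **Orbit theorem (K2b).** Two vectors with the same `H` and `T`, the first one generic
(`f H T ≠ 0`), differ by an element of `⟨S, rot, U⟩` and a tenth root of unity. -/
theorem exists_mem_closure {x y x' y' : k} (hfv : fK x y ≠ 0) (hhv : hK x y ≠ 0)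
    (htv : tK x y ≠ 0) (hH : hK x' y' = hK x y) (hT : tK x' y' = tK x y) :
    ∃ γ ∈ Subgroup.closure ({S, rot ζ hζ.pow_eq_one, uMat k} :
        Set (Matrix.SpecialLinearGroup (Fin 2) k)),
      ∃ c : k, c ^ 10 = 1 ∧ x' = c * actX γ x y ∧ y' = c * actY γ x y := by
  classical
  have h5 : ζ ^ 5 = 1 := hζ.pow_eq_one
  -- `f(v')⁵ = f(v)⁵`
  have hF5 : fK x' y' ^ 5 = fK x y ^ 5 := by
    have h1 := syzygy x' y'
    have h2 := syzygy x y
    rw [hH, hT, h2] at h1
    have h1728 : (1728 : k) ≠ 0 := by norm_num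
    exact (mul_left_cancel₀ h1728 h1).symm
  have hfv' : fK x' y' ≠ 0 := by
    intro h0
    rw [h0, zero_pow (by norm_num)] at hF5
    exact hfv ((pow_eq_zero_iff (n := 5) (by norm_num)).mp hF5.symm)
  obtain ⟨hx', hy'⟩ := ne_zero_of_fK_ne_zero hfv'
  set j : k := hK x y ^ 3 / fK x y ^ 5 with hj
  have hf5 : fK x y ^ 5 ≠ 0 := pow_ne_zero _ hfv
  -- points of the fibre give roots
  have hroot : ∀ a b : k, hK a b = hK x y → fK a b ^ 5 = fK x y ^ 5 →
      (sextic j).IsRoot (pK a b / qK a b) := by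
    intro a b h1 h2
    have hfab : fK a b ≠ 0 := by
      intro h0; rw [h0, zero_pow (by norm_num)] at h2
      exact hfv ((pow_eq_zero_iff (n := 5) (by norm_num)).mp h2.symm)
    obtain ⟨ha, hb⟩ := ne_zero_of_fK_ne_zero hfab
    apply isRoot_sextic (mul_ne_zero (pow_ne_zero _ ha) (pow_ne_zero _ hb))
    rw [h1, h2, hj]; field_simp
  -- the six roots
  let r : Option (Fin 5) → k := fun i =>
    pK (actX (rep S h5 i) x y) (actY (rep S h5 i) x y) /
      qK (actX (rep S h5 i) x y) (actY (rep S h5 i) x y)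
  have hqrep : ∀ i, qK (actX (rep S h5 i) x y) (actY (rep S h5 i) x y) ≠ 0 := by
    intro i
    have hP := preserves_rep S h5 hS i
    have : fK (actX (rep S h5 i) x y) (actY (rep S h5 i) x y) ≠ 0 := by rw [hP.1]; exact hfv
    obtain ⟨ha, hb⟩ := ne_zero_of_fK_ne_zero this
    exact mul_ne_zero (pow_ne_zero _ ha) (pow_ne_zero _ hb)
  have hrroot : ∀ i, (sextic j).IsRoot (r i) := by
    intro i
    have hP := preserves_rep S h5 hS i
    apply hroot
    · exact hP.2.1 x y
    · rw [hP.1]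
  have hrinj : Function.Injective r := by
    intro i l hil
    apply rep_eq_of_s_eq S hζ hS hS0 hfv hhv htv i l
    have := hil
    simp only [r] at this
    rw [div_eq_div_iff (hqrep i) (hqrep l)] at this
    linear_combination -this
  have hq' : qK x' y' ≠ 0 := mul_ne_zero (pow_ne_zero _ hx') (pow_ne_zero _ hy')
  have hr' : (sextic j).IsRoot (pK x' y' / qK x' y') := hroot x' y' hH hF5
  -- pigeonhole
  have hmem : pK x' y' / qK x' y' ∈ Finset.image r Finset.univ := by
    by_contra hnot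
    have hcard := card_le_six j (insert (pK x' y' / qK x' y') (Finset.image r Finset.univ)) (by
      intro z hz
      rcases Finset.mem_insert.mp hz with rfl | hz
      · exact hr'
      · obtain ⟨i, _, rfl⟩ := Finset.mem_image.mp hz
        exact hrroot i)
    rw [Finset.card_insert_of_notMem hnot, Finset.card_image_of_injective _ hrinj,
      Finset.card_univ, Fintype.card_option, Fintype.card_fin] at hcard
    omega
  obtain ⟨i, _, hi⟩ := Finset.mem_image.mp hmem
  have hP := preserves_rep S h5 hS i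
  have hfi : fK (actX (rep S h5 i) x y) (actY (rep S h5 i) x y) ≠ 0 := by rw [hP.1]; exact hfv
  obtain ⟨hai, hbi⟩ := ne_zero_of_fK_ne_zero hfi
  have hs : pK x' y' * qK (actX (rep S h5 i) x y) (actY (rep S h5 i) x y) =
      pK (actX (rep S h5 i) x y) (actY (rep S h5 i) x y) * qK x' y' := by
    have := hi
    simp only [r] at this
    rw [div_eq_div_iff (hqrep i) hq'] at this
    linear_combination -this
  obtain ⟨n, _, c, _, hcase⟩ := d5_step hζ hai hbi hx' hy' hs
  have hrotmem : rot ζ h5 ^ n ∈ Subgroup.closure ({S, rot ζ h5, uMat k} :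
      Set (Matrix.SpecialLinearGroup (Fin 2) k)) :=
    Subgroup.pow_mem _ (Subgroup.subset_closure (by simp)) _
  have hPr : Preserves (rot ζ h5 ^ n) :=
    (mem_preservers).mp (Subgroup.pow_mem _ (mem_preservers.mpr (preserves_rot h5)) _)
  -- the scalar is a tenth root of unity
  have hc10 : ∀ γ : Matrix.SpecialLinearGroup (Fin 2) k, Preserves γ →
      x' = c * actX γ x y → y' = c * actY γ x y → c ^ 10 = 1 := by
    intro γ hγ e1 e2
    have h20 : c ^ 20 = 1 := by
      have := hH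
      rw [e1, e2, hK_smul, hγ.2.1] at this
      exact mul_right_cancel₀ hhv (by rw [this, one_mul])
    have h30 : c ^ 30 = 1 := by
      have := hT
      rw [e1, e2, tK_smul, hγ.2.2] at this
      exact mul_right_cancel₀ htv (by rw [this, one_mul])
    calc c ^ 10 = c ^ 10 * c ^ 20 := by rw [h20, mul_one]
      _ = c ^ 30 := by ring
      _ = 1 := h30
  rcases hcase with ⟨hA, hB⟩ | ⟨hA, hB⟩
  · have e1 : x' = c * actX (rot ζ h5 ^ n * rep S h5 i) x y := by
      rw [actX_mul, actX_rot_pow]; exact hA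
    have e2 : y' = c * actY (rot ζ h5 ^ n * rep S h5 i) x y := by
      rw [actY_mul, actY_rot_pow]; exact hB
    exact ⟨_, Subgroup.mul_mem _ hrotmem (rep_mem_closure S h5 i), c,
      hc10 _ (hPr.mul hP) e1 e2, e1, e2⟩
  · have e1 : x' = c * actX (rot ζ h5 ^ n * (uMat k * rep S h5 i)) x y := by
      rw [actX_mul, actX_rot_pow, actX_mul, actX_uMat]; exact hA
    have e2 : y' = c * actY (rot ζ h5 ^ n * (uMat k * rep S h5 i)) x y := by
      rw [actY_mul, actY_rot_pow, actY_mul, actY_uMat]; exact hB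
    exact ⟨_, Subgroup.mul_mem _ hrotmem
        (Subgroup.mul_mem _ (Subgroup.subset_closure (by simp)) (rep_mem_closure S h5 i)), c,
      hc10 _ (hPr.mul (preserves_uMat.mul hP)) e1 e2, e1, e2⟩

end Main

end Fermat.Agent.S52K.Orbit10
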