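/-
Programme K (S52), brick K2b, part 9 (helper10): plugging the Klein56 data (helper56) into the
tower/freeness orbit theorem.  For `ζ` a primitive fifth root of unity, `τ = ζ + ζ⁴`,
`μ = ζ² - ζ³`, the generators of `Klein56/Pts56` are `T5 = diag(ζ³, ζ²) = Act10.rot ζ` and
`Sg v = (-μ⁻¹) • S' v`, `S' (a, b) = (-a + τ b, τ a + b)`.  We show that `Sg` is the action of an
element `sMat` of `SL(2, k)` of trace zero with nonzero entries preserving the three Klein forms,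
and that the flip `U : (x, y) ↦ (-y, x)` is the word `S T5² S T5³ S T5²`.  Consequence: the field
`trans` of `S52K3.KleinData.Fibres` for every `KleinData` built on the Klein56 forms whose `Γ` is
closed under composition and contains `Sg` and `T5`.
-/
import Mathlib
import Fermat.Agent.S52K.FibresTrans10
import Fermat.Agent.S52K.Klein56.Pts56

set_option autoImplicit false
set_option linter.unusedSectionVars false

namespace Fermat.Agent.S52K.Plug10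

open Fermat.Agent.S52K.Tower10 Fermat.Agent.S52K.Act10 Fermat.Agent.S52K.Trans10
  Fermat.Agent.S52K.Klein56 Matrix

variable {k : Type*} [Field k] [CharZero k]

theorem phi_of_primitive {ζ : k} (hζ : IsPrimitiveRoot ζ 5) :
    ζ ^ 4 + ζ ^ 3 + ζ ^ 2 + ζ + 1 = 0 := by
  have h1 : ζ - 1 ≠ 0 := sub_ne_zero.mpr (hζ.ne_one (by norm_num))
  have h5 := hζ.pow_eq_one
  apply (mul_eq_zero.mp _).resolve_left h1
  linear_combination h5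

theorem fK_eq_kf (x y : k) : fK x y = kf x y := by unfold fK kf; ring
theorem hK_eq_kH (x y : k) : hK x y = kH x y := by unfold hK kH; ring
theorem tK_eq_kT (x y : k) : tK x y = kT x y := by unfold tK kT; ring

/-- The generator `Sg = (-μ⁻¹) • S'`, `S' = (-1 τ; τ 1)`, as an element of `SL(2, k)`. -/
def sMat (ζ : k) (hΦ : ζ ^ 4 + ζ ^ 3 + ζ ^ 2 + ζ + 1 = 0) :
    Matrix.SpecialLinearGroup (Fin 2) k :=
  ⟨!![(muOf ζ)⁻¹, -((muOf ζ)⁻¹ * tauOf ζ); -((muOf ζ)⁻¹ * tauOf ζ), -(muOf ζ)⁻¹], by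
    rw [Matrix.det_fin_two_of]
    linear_combination (1 : k) * nu_sq hΦ - (muOf ζ)⁻¹ ^ 2 * tau_rel hΦ⟩

section

variable {ζ : k} (hΦ : ζ ^ 4 + ζ ^ 3 + ζ ^ 2 + ζ + 1 = 0)

include hΦ in
theorem tau_ne_zero : tauOf ζ ≠ 0 := by
  intro h
  have := tau_rel hΦ
  rw [h] at this
  norm_num at this

theorem actX_sMat (x y : k) :
    actX (sMat ζ hΦ) x y = -(muOf ζ)⁻¹ * (-x + tauOf ζ * y) := by
  simp only [actX, sMat, Matrix.SpecialLinearGroup.coe_mk, Matrix.of_apply, Matrix.cons_val',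
    Matrix.cons_val_zero, Matrix.cons_val_one, Matrix.cons_val_fin_one]
  ring

theorem actY_sMat (x y : k) :
    actY (sMat ζ hΦ) x y = -(muOf ζ)⁻¹ * (tauOf ζ * x + y) := by
  simp only [actY, sMat, Matrix.SpecialLinearGroup.coe_mk, Matrix.of_apply, Matrix.cons_val',
    Matrix.cons_val_zero, Matrix.cons_val_one, Matrix.cons_val_fin_one]
  ring

/-- `sMat` acts as `Klein56.Sg`. -/
theorem lin_sMat_apply (v : k × k) : lin (sMat ζ hΦ) v = Sg ζ v := by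
  rw [lin_apply, actX_sMat, actY_sMat]
  rfl

/-- `rot ζ` acts as `Klein56.T5`. -/
theorem lin_rot_apply (v : k × k) : lin (rot ζ (zeta_pow_five hΦ)) v = T5 ζ v := by
  rw [lin_apply, actX_rot, actY_rot]
  rfl

theorem sMat_entries_ne : (sMat ζ hΦ) 0 0 ≠ 0 ∧ (sMat ζ hΦ) 0 1 ≠ 0 ∧ (sMat ζ hΦ) 1 0 ≠ 0 ∧
    (sMat ζ hΦ) 1 1 ≠ 0 := by
  have h1 : (muOf ζ)⁻¹ ≠ 0 := inv_ne_zero (mu_ne_zero hΦ)
  have h2 := tau_ne_zero hΦ
  refine ⟨?_, ?_, ?_, ?_⟩ <;>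
    simp only [sMat, Matrix.SpecialLinearGroup.coe_mk, Matrix.of_apply, Matrix.cons_val',
      Matrix.cons_val_zero, Matrix.cons_val_one, Matrix.cons_val_fin_one, ne_eq, neg_eq_zero,
      mul_eq_zero, not_or]
  · exact h1
  · exact ⟨h1, h2⟩
  · exact ⟨h1, h2⟩
  · exact h1

theorem sMat_trace : (sMat ζ hΦ) 0 0 + (sMat ζ hΦ) 1 1 = 0 := by
  simp [sMat]

/-- `sMat` preserves the three Klein forms. -/
theorem preserves_sMat : Preserves (sMat ζ hΦ) := by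
  refine ⟨fun x y => ?_, fun x y => ?_, fun x y => ?_⟩
  · rw [fK_eq_kf, fK_eq_kf, actX_sMat, actY_sMat]
    exact kf_Sg hΦ (x, y)
  · rw [hK_eq_kH, hK_eq_kH, actX_sMat, actY_sMat]
    exact kH_Sg hΦ (x, y)
  · rw [tK_eq_kT, tK_eq_kT, actX_sMat, actY_sMat]
    exact kT_Sg hΦ (x, y)

/-- The flip `U` is the word `S T5² S T5³ S T5²` (on vectors). -/
theorem word_act (x y : k) :
    actX (sMat ζ hΦ * rot ζ (zeta_pow_five hΦ) ^ 2 * sMat ζ hΦ * rot ζ (zeta_pow_five hΦ) ^ 3 *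
      sMat ζ hΦ * rot ζ (zeta_pow_five hΦ) ^ 2) x y = -y ∧
    actY (sMat ζ hΦ * rot ζ (zeta_pow_five hΦ) ^ 2 * sMat ζ hΦ * rot ζ (zeta_pow_five hΦ) ^ 3 *
      sMat ζ hΦ * rot ζ (zeta_pow_five hΦ) ^ 2) x y = x := by
  simp only [actX_mul, actY_mul, actX_rot_pow, actY_rot_pow, actX_sMat, actY_sMat]
  have hν := nu_mul_mu hΦ
  generalize (muOf ζ)⁻¹ = ν at *
  unfold tauOf muOf at *
  constructor
  · linear_combination (ν ^ 3 * (-ζ ^ 25 * y + ζ ^ 24 * y + ζ ^ 23 * x - 3 * ζ ^ 22 * y - ζ ^ 21 * x + 3 * ζ ^ 21 * y + ζ ^ 20 * x - ζ ^ 20 * y + ζ ^ 19 * x - 3 * ζ ^ 19 * y - ζ ^ 18 * x + 4 * ζ ^ 18 * y - 3 * ζ ^ 17 * y + 2 * ζ ^ 16 * y - 4 * ζ ^ 14 * y + 6 * ζ ^ 13 * y - 4 * ζ ^ 12 * y + ζ ^ 11 * y + ζ ^ 10 * y - 4 * ζ ^ 9 * y + 6 * ζ ^ 8 * y - 4 * ζ ^ 7 * y + ζ ^ 6 * y)) * hΦ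
      - y * (ν ^ 2 * (ζ ^ 2 - ζ ^ 3) ^ 2 + ν * (ζ ^ 2 - ζ ^ 3) + 1) * hν
  · linear_combination (ν ^ 3 * (-ζ ^ 26 * x + ζ ^ 25 * x - 3 * ζ ^ 23 * x + ζ ^ 23 * y + 3 * ζ ^ 22 * x - ζ ^ 22 * y - 2 * ζ ^ 21 * x - ζ ^ 21 * y - ζ ^ 20 * x + 2 * ζ ^ 20 * y + 4 * ζ ^ 19 * x - ζ ^ 19 * y - 5 * ζ ^ 18 * x - ζ ^ 18 * y + 3 * ζ ^ 17 * x - ζ ^ 16 * x - ζ ^ 15 * x + ζ ^ 15 * y + 4 * ζ ^ 14 * x - ζ ^ 14 * y - 6 * ζ ^ 13 * x + 4 * ζ ^ 12 * x - ζ ^ 11 * x - ζ ^ 10 * x + 4 * ζ ^ 9 * x - 6 * ζ ^ 8 * x + 4 * ζ ^ 7 * x - ζ ^ 6 * x)) * hΦ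
      + x * (ν ^ 2 * (ζ ^ 2 - ζ ^ 3) ^ 2 + ν * (ζ ^ 2 - ζ ^ 3) + 1) * hν

/-- The flip `U` is the word `S T5² S T5³ S T5²` (as a linear map). -/
theorem lin_uMat_eq :
    lin (uMat k) = lin (sMat ζ hΦ) ∘ₗ lin (rot ζ (zeta_pow_five hΦ)) ∘ₗ
      lin (rot ζ (zeta_pow_five hΦ)) ∘ₗ lin (sMat ζ hΦ) ∘ₗ lin (rot ζ (zeta_pow_five hΦ)) ∘ₗ
      lin (rot ζ (zeta_pow_five hΦ)) ∘ₗ lin (rot ζ (zeta_pow_five hΦ)) ∘ₗ lin (sMat ζ hΦ) ∘ₗ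
      lin (rot ζ (zeta_pow_five hΦ)) ∘ₗ lin (rot ζ (zeta_pow_five hΦ)) := by
  have h := word_act hΦ
  simp only [pow_succ, pow_zero, one_mul, ← mul_assoc] at h
  simp only [← lin_mul, ← mul_assoc]
  apply LinearMap.ext
  intro v
  rw [lin_apply, lin_apply, (h v.1 v.2).1, (h v.1 v.2).2, actX_uMat, actY_uMat]

end

open Fermat.Agent.S52K3 in
/-- **The field `trans` of `KleinData.Fibres` for every `KleinData` on the Klein56 forms** whose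
`Γ` is closed under composition and contains (linear maps acting as) `Klein56.Sg` and
`Klein56.T5`. -/
theorem trans56 (D : KleinData) (hζ : IsPrimitiveRoot D.ζ 5)
    (hf : ∀ v : V2, D.f v = kf v.1 v.2) (hH : ∀ v : V2, D.H v = kH v.1 v.2)
    (hT : (∀ v : V2, D.T v = kT v.1 v.2) ∨ (∀ v : V2, D.T v = -kT v.1 v.2))
    (hmul : ∀ a ∈ D.Γ, ∀ b ∈ D.Γ, a ∘ₗ b ∈ D.Γ)
    {sL tL : V2 →ₗ[Qb] V2} (hsL : ∀ v, sL v = Sg D.ζ v) (htL : ∀ v, tL v = T5 D.ζ v)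
    (hsΓ : sL ∈ D.Γ) (htΓ : tL ∈ D.Γ) :
    ∀ v v' : V2, D.f v ≠ 0 → D.H v ≠ 0 → D.T v ≠ 0 → D.H v' = D.H v → D.T v' = D.T v →
      ∃ (k : ℕ), ∃ γ ∈ D.Γ, v' = D.ζ ^ k • γ v := by
  have hΦ := phi_of_primitive hζ
  have es : sL = lin (sMat D.ζ hΦ) := by
    apply LinearMap.ext
    intro v
    rw [hsL, lin_sMat_apply]
  have et : tL = lin (rot D.ζ hζ.pow_eq_one) := by
    apply LinearMap.ext
    intro v
    rw [htL]
    exact (lin_rot_apply hΦ v).symm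
  rw [es] at hsΓ
  rw [et] at htΓ
  have hU : lin (uMat Qb) ∈ D.Γ := by
    rw [lin_uMat_eq hΦ]
    exact hmul _ hsΓ _ (hmul _ htΓ _ (hmul _ htΓ _ (hmul _ hsΓ _ (hmul _ htΓ _ (hmul _ htΓ _
      (hmul _ htΓ _ (hmul _ hsΓ _ (hmul _ htΓ _ htΓ))))))))
  have hS' : lin (sMat D.ζ hΦ)⁻¹ ∈ D.Γ :=
    lin_inv_mem_of_trace D.Γ hmul (sMat_trace hΦ) hsΓ hU
  exact FibresTrans10.trans D hζ (fun v => by rw [hf, fK_eq_kf]) (fun v => by rw [hH, hK_eq_kH])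
    (hT.imp (fun h v => by rw [h, tK_eq_kT]) (fun h v => by rw [h, tK_eq_kT])) hζ
    (sMat D.ζ hΦ) (preserves_sMat hΦ) (sMat_entries_ne hΦ) hmul hsΓ hS' htΓ hU

end Fermat.Agent.S52K.Plug10
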