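/-
S52 / programme K, leaf for brick B2 (helper3): generation of `SL(2, F)` by unipotent matrices.

* `factor_of_ne_zero` : explicit factorisation `g = U(x) * L(c) * U(y)` when the lower left
  entry `c` of `g` is nonzero (any field).
* `mem_of_unipotents` : a subgroup of `SL(2, F)` containing all `U(x)` and all `L(y)` is everything.
* `eq_top_of_upper_lower` : over `ZMod p`, a subgroup containing ONE nontrivial `U(b)` and ONE
  nontrivial `L(c)` is everything.
* `closure_S_upper`, `closure_S_lower`, ... : `Subgroup.closure {S, T} = ⊤` in `SL(2, ZMod p)` for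
  the Weyl element `S = !![0, -1; 1, 0]` (or its inverse `!![0, 1; -1, 0]`) and `T` any nontrivial
  upper or lower unipotent.  In particular for `p = 5` this covers the matrices of the two
  generators of the binary icosahedral group on the universal basis of `E_v[5]` in every sign
  convention used by the K-bricks.

Mathlib only.
-/
import Mathlib

set_option autoImplicit false

namespace Fermat.Agent.S52K.SL2Gen3

open Matrix

section Field

variable {F : Type*} [Field F]

/-- the upper unipotent matrix `!![1, x; 0, 1]`. -/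
def upper (x : F) : SpecialLinearGroup (Fin 2) F :=
  ⟨!![1, x; 0, 1], by simp [Matrix.det_fin_two_of]⟩

/-- the lower unipotent matrix `!![1, 0; y, 1]`. -/
def lower (y : F) : SpecialLinearGroup (Fin 2) F :=
  ⟨!![1, 0; y, 1], by simp [Matrix.det_fin_two_of]⟩

/-- the Weyl element `!![0, -1; 1, 0]`. -/
def weyl : SpecialLinearGroup (Fin 2) F :=
  ⟨!![0, -1; 1, 0], by simp [Matrix.det_fin_two_of]⟩

/-- the inverse Weyl element `!![0, 1; -1, 0]`. -/
def weyl' : SpecialLinearGroup (Fin 2) F :=
  ⟨!![0, 1; -1, 0], by simp [Matrix.det_fin_two_of]⟩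

@[simp] theorem coe_upper (x : F) :
    ((upper x : SpecialLinearGroup (Fin 2) F) : Matrix (Fin 2) (Fin 2) F) = !![1, x; 0, 1] := rfl

@[simp] theorem coe_lower (y : F) :
    ((lower y : SpecialLinearGroup (Fin 2) F) : Matrix (Fin 2) (Fin 2) F) = !![1, 0; y, 1] := rfl

@[simp] theorem coe_weyl :
    ((weyl : SpecialLinearGroup (Fin 2) F) : Matrix (Fin 2) (Fin 2) F) = !![0, -1; 1, 0] := rfl

@[simp] theorem coe_weyl' :
    ((weyl' : SpecialLinearGroup (Fin 2) F) : Matrix (Fin 2) (Fin 2) F) = !![0, 1; -1, 0] := rfl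

/-- extensionality through the four entries. -/
theorem ext_entries {g h : SpecialLinearGroup (Fin 2) F}
    (h00 : (g : Matrix (Fin 2) (Fin 2) F) 0 0 = (h : Matrix (Fin 2) (Fin 2) F) 0 0)
    (h01 : (g : Matrix (Fin 2) (Fin 2) F) 0 1 = (h : Matrix (Fin 2) (Fin 2) F) 0 1)
    (h10 : (g : Matrix (Fin 2) (Fin 2) F) 1 0 = (h : Matrix (Fin 2) (Fin 2) F) 1 0)
    (h11 : (g : Matrix (Fin 2) (Fin 2) F) 1 1 = (h : Matrix (Fin 2) (Fin 2) F) 1 1) : g = h := by
  apply Subtype.ext
  ext i j
  fin_cases i <;> fin_cases j <;> assumption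

theorem upper_add (x y : F) : upper (x + y) = upper x * upper y := by
  apply ext_entries <;>
    simp [Matrix.mul_apply, Fin.sum_univ_two, add_comm]

theorem lower_add (x y : F) : lower (x + y) = lower x * lower y := by
  apply ext_entries <;>
    simp [Matrix.mul_apply, Fin.sum_univ_two, add_comm]

theorem upper_zero : upper (0 : F) = 1 := by
  apply ext_entries <;> simp

theorem lower_zero : lower (0 : F) = 1 := by
  apply ext_entries <;> simp

theorem upper_nsmul (n : ℕ) (x : F) : upper (n • x) = upper x ^ n := by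
  induction n with
  | zero => simp [upper_zero]
  | succ k ih => rw [succ_nsmul, upper_add, ih, pow_succ]

theorem lower_nsmul (n : ℕ) (x : F) : lower (n • x) = lower x ^ n := by
  induction n with
  | zero => simp [lower_zero]
  | succ k ih => rw [succ_nsmul, lower_add, ih, pow_succ]

theorem weyl_mul_weyl' : (weyl : SpecialLinearGroup (Fin 2) F) * weyl' = 1 := by
  apply ext_entries <;>
    simp [Matrix.mul_apply, Fin.sum_univ_two]

theorem weyl'_eq_inv : (weyl' : SpecialLinearGroup (Fin 2) F) = weyl⁻¹ :=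
  eq_inv_of_mul_eq_one_right weyl_mul_weyl'

/-- conjugating an upper unipotent by the Weyl element gives a lower unipotent. -/
theorem weyl_upper_weyl' (x : F) : weyl * upper x * weyl' = lower (-x) := by
  apply ext_entries <;>
    simp [Matrix.mul_apply, Fin.sum_univ_two]

/-- conjugating a lower unipotent by the Weyl element gives an upper unipotent. -/
theorem weyl_lower_weyl' (y : F) : weyl * lower y * weyl' = upper (-y) := by
  apply ext_entries <;>
    simp [Matrix.mul_apply, Fin.sum_univ_two]

theorem det_entries (g : SpecialLinearGroup (Fin 2) F) :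
    (g : Matrix (Fin 2) (Fin 2) F) 0 0 * (g : Matrix (Fin 2) (Fin 2) F) 1 1
      - (g : Matrix (Fin 2) (Fin 2) F) 0 1 * (g : Matrix (Fin 2) (Fin 2) F) 1 0 = 1 := by
  have := g.det_coe
  rwa [Matrix.det_fin_two] at this

/-- matrix form of the Bruhat-type factorisation. -/
theorem factor_matrix (a b c d : F) (hc : c ≠ 0) (hdet : a * d - b * c = 1) :
    (!![1, (a - 1) / c; 0, 1] * !![1, 0; c, 1] * !![1, (d - 1) / c; 0, 1] :
      Matrix (Fin 2) (Fin 2) F) = !![a, b; c, d] := by
  ext i j
  fin_cases i <;> fin_cases j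
  · simp [Matrix.mul_apply, Fin.sum_univ_two]
    field_simp
    ring
  · simp [Matrix.mul_apply, Fin.sum_univ_two]
    field_simp
    linear_combination hdet
  · simp [Matrix.mul_apply, Fin.sum_univ_two]
  · simp [Matrix.mul_apply, Fin.sum_univ_two]
    field_simp
    ring

/-- Explicit Bruhat-type factorisation when the lower left entry is nonzero. -/
theorem factor_of_ne_zero (g : SpecialLinearGroup (Fin 2) F)
    (hc : (g : Matrix (Fin 2) (Fin 2) F) 1 0 ≠ 0) :
    g = upper (((g : Matrix (Fin 2) (Fin 2) F) 0 0 - 1) / (g : Matrix (Fin 2) (Fin 2) F) 1 0) *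
        lower ((g : Matrix (Fin 2) (Fin 2) F) 1 0) *
        upper (((g : Matrix (Fin 2) (Fin 2) F) 1 1 - 1) / (g : Matrix (Fin 2) (Fin 2) F) 1 0) := by
  apply Subtype.ext
  have h := factor_matrix _ _ _ _ hc (det_entries g)
  rw [← Matrix.eta_fin_two (g : Matrix (Fin 2) (Fin 2) F)] at h
  exact h.symm

/-- A subgroup of `SL(2, F)` containing all upper and all lower unipotents is everything. -/
theorem mem_of_unipotents (H : Subgroup (SpecialLinearGroup (Fin 2) F))
    (hU : ∀ x : F, upper x ∈ H) (hL : ∀ y : F, lower y ∈ H)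
    (g : SpecialLinearGroup (Fin 2) F) : g ∈ H := by
  have key : ∀ g : SpecialLinearGroup (Fin 2) F,
      (g : Matrix (Fin 2) (Fin 2) F) 1 0 ≠ 0 → g ∈ H := by
    intro g hc
    rw [factor_of_ne_zero g hc]
    exact H.mul_mem (H.mul_mem (hU _) (hL _)) (hU _)
  by_cases hc : (g : Matrix (Fin 2) (Fin 2) F) 1 0 = 0
  · -- then `a ≠ 0`, and `L(1) * g` has lower left entry `a`
    have hdet := det_entries g
    have ha : (g : Matrix (Fin 2) (Fin 2) F) 0 0 ≠ 0 := by
      intro ha
      rw [ha, hc] at hdet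
      simp at hdet
    have h1 : lower 1 * g ∈ H := by
      apply key
      rw [Matrix.SpecialLinearGroup.coe_mul, Matrix.mul_apply, Fin.sum_univ_two, hc]
      simpa using ha
    have : g = (lower 1)⁻¹ * (lower 1 * g) := by group
    rw [this]
    exact H.mul_mem (H.inv_mem (hL 1)) h1
  · exact key g hc

end Field

section ZModp

variable {p : ℕ} [Fact p.Prime]

/-- In `SL(2, ZMod p)`, a subgroup containing one nontrivial upper unipotent and one nontrivial
lower unipotent is everything. -/
theorem eq_top_of_upper_lower (H : Subgroup (SpecialLinearGroup (Fin 2) (ZMod p)))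
    {b c : ZMod p} (hb : b ≠ 0) (hc : c ≠ 0) (hU : upper b ∈ H) (hL : lower c ∈ H) : H = ⊤ := by
  rw [eq_top_iff]
  rintro g -
  apply mem_of_unipotents H
  · intro x
    have hx : x = (x / b).val • b := by
      rw [nsmul_eq_mul, ZMod.natCast_zmod_val, div_mul_cancel₀ x hb]
    rw [hx, upper_nsmul]
    exact H.pow_mem hU _
  · intro y
    have hy : y = (y / c).val • c := by
      rw [nsmul_eq_mul, ZMod.natCast_zmod_val, div_mul_cancel₀ y hc]
    rw [hy, lower_nsmul]
    exact H.pow_mem hL _

/-- `⟨S, U(b)⟩ = SL(2, ZMod p)` for the Weyl element `S = !![0, -1; 1, 0]` and `b ≠ 0`. -/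
theorem closure_weyl_upper {b : ZMod p} (hb : b ≠ 0) :
    Subgroup.closure {(weyl : SpecialLinearGroup (Fin 2) (ZMod p)), upper b} = ⊤ := by
  set H := Subgroup.closure {(weyl : SpecialLinearGroup (Fin 2) (ZMod p)), upper b}
  have hS : (weyl : SpecialLinearGroup (Fin 2) (ZMod p)) ∈ H :=
    Subgroup.subset_closure (by simp)
  have hU : upper b ∈ H := Subgroup.subset_closure (by simp)
  have hS' : (weyl' : SpecialLinearGroup (Fin 2) (ZMod p)) ∈ H := by
    rw [weyl'_eq_inv]; exact H.inv_mem hS
  have hL : lower (-b) ∈ H := by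
    rw [← weyl_upper_weyl']
    exact H.mul_mem (H.mul_mem hS hU) hS'
  exact eq_top_of_upper_lower H hb (neg_ne_zero.mpr hb) hU hL

/-- `⟨S, L(c)⟩ = SL(2, ZMod p)` for the Weyl element `S = !![0, -1; 1, 0]` and `c ≠ 0`. -/
theorem closure_weyl_lower {c : ZMod p} (hc : c ≠ 0) :
    Subgroup.closure {(weyl : SpecialLinearGroup (Fin 2) (ZMod p)), lower c} = ⊤ := by
  set H := Subgroup.closure {(weyl : SpecialLinearGroup (Fin 2) (ZMod p)), lower c}
  have hS : (weyl : SpecialLinearGroup (Fin 2) (ZMod p)) ∈ H :=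
    Subgroup.subset_closure (by simp)
  have hL : lower c ∈ H := Subgroup.subset_closure (by simp)
  have hS' : (weyl' : SpecialLinearGroup (Fin 2) (ZMod p)) ∈ H := by
    rw [weyl'_eq_inv]; exact H.inv_mem hS
  have hU : upper (-c) ∈ H := by
    rw [← weyl_lower_weyl']
    exact H.mul_mem (H.mul_mem hS hL) hS'
  exact eq_top_of_upper_lower H (neg_ne_zero.mpr hc) hc hU hL

/-- Same with the inverse Weyl element `S' = !![0, 1; -1, 0]`. -/
theorem closure_weyl'_upper {b : ZMod p} (hb : b ≠ 0) :
    Subgroup.closure {(weyl' : SpecialLinearGroup (Fin 2) (ZMod p)), upper b} = ⊤ := by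
  rw [eq_top_iff, ← closure_weyl_upper hb, Subgroup.closure_le]
  rintro g (rfl | rfl)
  · have : (weyl : SpecialLinearGroup (Fin 2) (ZMod p)) = weyl'⁻¹ := by
      rw [weyl'_eq_inv, inv_inv]
    rw [this]
    exact Subgroup.inv_mem _ (Subgroup.subset_closure (by simp))
  · exact Subgroup.subset_closure (by simp)

/-- Same with the inverse Weyl element `S' = !![0, 1; -1, 0]`. -/
theorem closure_weyl'_lower {c : ZMod p} (hc : c ≠ 0) :
    Subgroup.closure {(weyl' : SpecialLinearGroup (Fin 2) (ZMod p)), lower c} = ⊤ := by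
  rw [eq_top_iff, ← closure_weyl_lower hc, Subgroup.closure_le]
  rintro g (rfl | rfl)
  · have : (weyl : SpecialLinearGroup (Fin 2) (ZMod p)) = weyl'⁻¹ := by
      rw [weyl'_eq_inv, inv_inv]
    rw [this]
    exact Subgroup.inv_mem _ (Subgroup.subset_closure (by simp))
  · exact Subgroup.subset_closure (by simp)


/-- Matrix-literal form, all sign conventions at once: `S` is the Weyl element or its inverse and
`T` is a nontrivial upper or lower unipotent. -/
theorem closure_pair_eq_top (S T : SpecialLinearGroup (Fin 2) (ZMod p))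
    (hS : (S : Matrix (Fin 2) (Fin 2) (ZMod p)) = !![0, -1; 1, 0] ∨
      (S : Matrix (Fin 2) (Fin 2) (ZMod p)) = !![0, 1; -1, 0])
    {b : ZMod p} (hb : b ≠ 0)
    (hT : (T : Matrix (Fin 2) (Fin 2) (ZMod p)) = !![1, b; 0, 1] ∨
      (T : Matrix (Fin 2) (Fin 2) (ZMod p)) = !![1, 0; b, 1]) :
    Subgroup.closure {S, T} = ⊤ := by
  rcases hS with hS | hS <;> rcases hT with hT | hT
  · have h1 : S = weyl := Subtype.ext hS
    have h2 : T = upper b := Subtype.ext hT
    rw [h1, h2]; exact closure_weyl_upper hb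
  · have h1 : S = weyl := Subtype.ext hS
    have h2 : T = lower b := Subtype.ext hT
    rw [h1, h2]; exact closure_weyl_lower hb
  · have h1 : S = weyl' := Subtype.ext hS
    have h2 : T = upper b := Subtype.ext hT
    rw [h1, h2]; exact closure_weyl'_upper hb
  · have h1 : S = weyl' := Subtype.ext hS
    have h2 : T = lower b := Subtype.ext hT
    rw [h1, h2]; exact closure_weyl'_lower hb

/-- Monoid version (words without inverses): the group is finite. -/
theorem submonoid_closure_eq_top {S T : SpecialLinearGroup (Fin 2) (ZMod p)}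
    (h : Subgroup.closure {S, T} = ⊤) : Submonoid.closure {S, T} = ⊤ := by
  rw [← Subgroup.closure_toSubmonoid_of_finite, h, Subgroup.top_toSubmonoid]

/-- Induction over words in `S`, `T` (left multiplication), no inverses needed. -/
theorem words_induction {S T : SpecialLinearGroup (Fin 2) (ZMod p)}
    (h : Subgroup.closure {S, T} = ⊤) {P : SpecialLinearGroup (Fin 2) (ZMod p) → Prop}
    (one : P 1) (mulS : ∀ g, P g → P (S * g)) (mulT : ∀ g, P g → P (T * g))
    (g : SpecialLinearGroup (Fin 2) (ZMod p)) : P g := by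
  have hg : g ∈ Submonoid.closure {S, T} := by
    rw [submonoid_closure_eq_top h]; trivial
  induction hg using Submonoid.closure_induction_left with
  | one => exact one
  | mul_left x hx y _ ih =>
    rcases hx with rfl | rfl
    · exact mulS y ih
    · exact mulT y ih

/-- Every element of `SL(2, ZMod p)` is the product of a list of letters `S`, `T`. -/
theorem exists_word {S T : SpecialLinearGroup (Fin 2) (ZMod p)}
    (h : Subgroup.closure {S, T} = ⊤) (g : SpecialLinearGroup (Fin 2) (ZMod p)) :
    ∃ l : List (SpecialLinearGroup (Fin 2) (ZMod p)),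
      (∀ x ∈ l, x = S ∨ x = T) ∧ l.prod = g := by
  induction g using words_induction h with
  | one => exact ⟨[], by simp, by simp⟩
  | mulS g ih =>
    obtain ⟨l, hl, rfl⟩ := ih
    exact ⟨S :: l, by simpa using hl, by simp⟩
  | mulT g ih =>
    obtain ⟨l, hl, rfl⟩ := ih
    exact ⟨T :: l, by simpa using hl, by simp⟩

end ZModp

theorem fact_prime_five : Fact (Nat.Prime 5) := ⟨by norm_num⟩

/-- The level-5 instance in the convention `Q(Sv) = -R(v)`, `R(Sv) = Q(v)`, `Q(Tv) = Q(v) - R(v)`,
`R(Tv) = R(v)` (columns = images of the basis): `S = !![0, 1; -1, 0]`, `T = !![1, 0; -1, 1]`. -/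
theorem closure_five_a (S T : SpecialLinearGroup (Fin 2) (ZMod 5))
    (hS : (S : Matrix (Fin 2) (Fin 2) (ZMod 5)) = !![0, 1; -1, 0])
    (hT : (T : Matrix (Fin 2) (Fin 2) (ZMod 5)) = !![1, 0; -1, 1]) :
    Subgroup.closure {S, T} = ⊤ := by
  have := fact_prime_five
  have hb : (-1 : ZMod 5) ≠ 0 := neg_ne_zero.mpr one_ne_zero
  exact closure_pair_eq_top S T (Or.inr hS) hb (Or.inr hT)

/-- The level-5 instance in the convention `P(Tv) = P(v)`, `R(Tv) = R(v) + P(v)`, `P(Sv) = -R(v)`,
`R(Sv) = P(v)`: `S = !![0, 1; -1, 0]`, `T = !![1, 1; 0, 1]`. -/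
theorem closure_five_b (S T : SpecialLinearGroup (Fin 2) (ZMod 5))
    (hS : (S : Matrix (Fin 2) (Fin 2) (ZMod 5)) = !![0, 1; -1, 0])
    (hT : (T : Matrix (Fin 2) (Fin 2) (ZMod 5)) = !![1, 1; 0, 1]) :
    Subgroup.closure {S, T} = ⊤ := by
  have := fact_prime_five
  have hb : (1 : ZMod 5) ≠ 0 := one_ne_zero
  exact closure_pair_eq_top S T (Or.inr hS) hb (Or.inl hT)

end Fermat.Agent.S52K.SL2Gen3
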